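/-
Project S35, cell [ABEL-ASM] (helper4), part 3: THE COMMON CORE.  Prefix `s35as_`.

Generic tower `E' ≤ E ≤ Quot(O((X)))` with the two-valuations data `D` (as in `S35/RedN/Inst.lean`),
`red = s35as_red` the Gauss reduction, `Fr` the coefficientwise `q`-Frobenius, `F₁ = s35as_range`
the reduction field of `E'`.

`s35as_abel_of_unit`: for `G ∈ E` a Gauss unit at `V₁` and at `V₂ = W V₁` whose norms `N G`, `N (W G)`
are constants times `m`-th powers in `E'`: if the [ABEL] conclusion holds for the pair of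
reductions `(u₁, u₂) = (red G, red (W G))`
   [hypothesis `hAB`: (R1) `u₁ · Fr u₂ = c h^m`, (R2) `u₂ · Fr u₁ = c' h'^m`
      ⟹ `u_i ^ E₀ = k_i · ρ_i ^ m` with `k_i ∈ kˣ`, `ρ_i ∈ F₁`],
then `G ^ E₀ = R ^ m · g'` with `g'` of CONSTANT reductions at `V₁` and `V₂`.
(The relations (R1), (R2) are produced here from [RED-N] = `rdn_gt_norm_res`; the lifting
`(ρ₁, ρ₂) ↦ R` uses the idempotents `e₁ = v/(u+v)`, `e₂ = u/(u+v)`, `u = W λ − λ^q`,
`v = λ − (W λ)^q`.)
-/
import Mathlib
import Fermat.Agent.S35.AbelAsm.Val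
import Fermat.Agent.S35.RedN.Inst

set_option autoImplicit false
set_option linter.unusedSectionVars false
set_option linter.unusedVariables false
set_option linter.style.haveILetI false

noncomputable section

namespace Fermat.Agent.S35

open ModularCurve IsLocalRing IntermediateField
open Fermat.Agent.JT3 Fermat.Agent.SS Fermat.Agent.S28

theorem s35as_alg1 {F : Type*} [Field F] (c r p : F) (m : ℕ) (hp : p ≠ 0) :
    c * r ^ m = c * p⁻¹ ^ m * (r * p) ^ m := by
  rw [mul_pow, inv_pow]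
  have : p ^ m ≠ 0 := pow_ne_zero m hp
  field_simp

section Core

variable {L : Type*} [Field L] [CharZero L] (O : ValuationSubring L)
  [IsDiscreteValuationRing O] {π : O} (hπ : Irreducible π)
variable (q : ℕ) [NeZero q] [hq : Fact q.Prime] [CharP (ResidueField O) q]
variable (E' E : IntermediateField L (LaurentSeries L)) (hle : E' ≤ E)
  (hE : E ≤ gq_quotField O L)

/-- the reduction field of `E'`: the reductions of its Gauss-bounded elements. -/
def s35as_range : Set (LaurentSeries (ResidueField O)) :=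
  {z | ∃ a : ↥E', gq_IsBdd O L (a : LaurentSeries L) ∧ s35as_red (↥O) (a : LaurentSeries L) = z}

include hπ hle hE in
/-- the reduction of a Gauss unit of `E'` of the form `c · r ^ m` is a constant times an `m`-th
power in the reduction field. -/
theorem s35as_red_norm_form (n r : ↥E') (c : L) (m : ℕ) (hr : r ≠ 0)
    (hn : s35as_IsGU (↥O) (n : LaurentSeries L)) (h : n = algebraMap L ↥E' c * r ^ m) :
    ∃ (c0 : ResidueField O) (h0 : LaurentSeries (ResidueField O)), h0 ∈ s35as_range O E' ∧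
      s35as_red (↥O) (n : LaurentSeries L) =
        algebraMap (ResidueField O) (LaurentSeries (ResidueField O)) c0 * h0 ^ m := by
  obtain ⟨k, hk⟩ := s35as_exists_zpow_isGU O hπ E' (hle.trans hE) r hr
  set r0 : ↥E' := r * s35as_pi (π := π) O E' ^ k with hr0
  have hπE := s35as_pi_ne_zero O hπ E'
  set cL : L := c * (((π : ↥O) : L) ^ k)⁻¹ ^ m with hcL
  have hπL : ((π : ↥O) : L) ≠ 0 := fun h0 => hπ.ne_zero (Subtype.ext h0)
  -- `n = cL · r0 ^ m`
  have hn' : n = algebraMap L ↥E' cL * r0 ^ m := by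
    have hp : algebraMap L ↥E' (((π : ↥O) : L) ^ k) = s35as_pi (π := π) O E' ^ k :=
      map_zpow₀ _ _ _
    have h0 : s35as_pi (π := π) O E' ^ k ≠ 0 := zpow_ne_zero k hπE
    rw [h, hcL, hr0, map_mul, map_pow, map_inv₀, hp]
    exact s35as_alg1 _ r _ m h0
  -- the constant is a Gauss unit
  have hcGU : s35as_IsGU (↥O) (algebraMap L (LaurentSeries L) cL) := by
    have h1 : algebraMap L (LaurentSeries L) cL =
        (n : LaurentSeries L) / ((r0 : ↥E') : LaurentSeries L) ^ m := by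
      have h2 := congrArg (fun z : ↥E' => (z : LaurentSeries L)) hn'
      have h3 : ((r0 : ↥E') : LaurentSeries L) ^ m ≠ 0 := pow_ne_zero m hk.ne_zero
      rw [eq_div_iff h3]
      simpa using h2.symm
    rw [h1]
    exact hn.div (hk.pow m)
  obtain ⟨u, hu, huc⟩ := s35as_const_isUnit_of_isGU O cL hcGU
  refine ⟨residue ↥O u, s35as_red (↥O) ((r0 : ↥E') : LaurentSeries L), ⟨r0, hk.1, rfl⟩, ?_⟩
  have h4 : (n : LaurentSeries L) = algebraMap L (LaurentSeries L) (algebraMap ↥O L u) *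
      ((r0 : ↥E') : LaurentSeries L) ^ m := by
    have h2 := congrArg (fun z : ↥E' => (z : LaurentSeries L)) hn'
    have h5 : algebraMap ↥O L u = cL := huc
    rw [h5]
    simpa using h2
  rw [h4, s35as_red_mul (s35as_bdd_const u) (s35as_bdd_pow hk.1 m), s35as_red_const,
    s35as_red_pow hk.1]

/-- **the two idempotents modulo the vertical valuations**: `e₁ ≡ 1` at `V₁`, `e₁ ≡ 0` at `V₂`,
`e₂ = W e₁` (so `e₂ ≡ 0` at `V₁`, `≡ 1` at `V₂`). -/
theorem s35as_exists_idem (W : ↥E ≃+* ↥E)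
    (hW : ∀ z : ↥E', ((W (IntermediateField.inclusion hle z) : ↥E) : LaurentSeries L) =
      qExpand L q (z : LaurentSeries L))
    {lam : ↥(gq_valSubOf π hπ.ne_zero hπ.maximalIdeal_eq E' (hle.trans hE))}
    (D : letI := ssm_gi_algebra hle
      letI := ssm_gi_algebraV hle (gq_valSubOf π hπ.ne_zero hπ.maximalIdeal_eq E' (hle.trans hE))
      ssm_tw_Data ↥E' ↥(gq_valSubOf π hπ.ne_zero hπ.maximalIdeal_eq E' (hle.trans hE)) q
        (gq_valSubOf π hπ.ne_zero hπ.maximalIdeal_eq E hE) W lam) :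
    ∃ e1 e2 : ↥E, gq_IsBdd O L (e1 : LaurentSeries L) ∧ gq_IsBdd O L (e2 : LaurentSeries L) ∧
      s35as_red (↥O) (e1 : LaurentSeries L) = 1 ∧ s35as_red (↥O) (e2 : LaurentSeries L) = 0 ∧
      W e1 = e2 ∧ W e2 = e1 := by
  letI := ssm_gi_algebra hle
  letI := ssm_gi_algebraV hle (gq_valSubOf π hπ.ne_zero hπ.maximalIdeal_eq E' (hle.trans hE))
  set lamE : ↥E := IntermediateField.inclusion hle (lam : ↥E') with hlamE
  have hlb : gq_IsBdd O L (lamE : LaurentSeries L) :=
    (gq_mem_valSubOf π hπ.ne_zero hπ.maximalIdeal_eq E' (hle.trans hE) (lam : ↥E')).1 lam.2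
  have hWlb : gq_IsBdd O L ((W lamE : ↥E) : LaurentSeries L) := by
    rw [hlamE, hW]
    exact ssm_ga_beta_isBdd q hlb
  set u : ↥E := W lamE - lamE ^ q with hu
  set v : ↥E := lamE - W lamE ^ q with hv
  have hub : gq_IsBdd O L (u : LaurentSeries L) ∧ s35as_red (↥O) (u : LaurentSeries L) = 0 :=
    (s35as_mem_nonunits_iff O hπ E hE u).1 D.frob
  have hvb : gq_IsBdd O L (v : LaurentSeries L) := by
    rw [hv]
    push_cast
    exact s35as_bdd_sub hlb (s35as_bdd_pow hWlb q)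
  have hv0 : s35as_red (↥O) (v : LaurentSeries L) ≠ 0 := fun h0 =>
    D.nfrob ((s35as_mem_nonunits_iff O hπ E hE v).2 ⟨hvb, h0⟩)
  have hWu : W u = v := by
    rw [hu, map_sub, map_pow, D.invol]
  have hWv : W v = u := by
    rw [hv, map_sub, map_pow, D.invol]
  have huvb : gq_IsBdd O L ((u + v : ↥E) : LaurentSeries L) := by
    push_cast
    exact s35as_bdd_add hub.1 hvb
  have hred : s35as_red (↥O) ((u + v : ↥E) : LaurentSeries L) =
      s35as_red (↥O) (v : LaurentSeries L) := by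
    push_cast
    rw [s35as_red_add hub.1 hvb, hub.2, zero_add]
  have hGU : s35as_IsGU (↥O) ((u + v : ↥E) : LaurentSeries L) := ⟨huvb, by rw [hred]; exact hv0⟩
  refine ⟨v / (u + v), u / (u + v), ?_, ?_, ?_, ?_, ?_, ?_⟩
  · rw [IntermediateField.coe_div, div_eq_mul_inv]
    exact s35as_bdd_mul hvb hGU.inv_bdd
  · rw [IntermediateField.coe_div, div_eq_mul_inv]
    exact s35as_bdd_mul hub.1 hGU.inv_bdd
  · rw [IntermediateField.coe_div, s35as_red_div hvb hGU, hred, div_self hv0]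
  · rw [IntermediateField.coe_div, s35as_red_div hub.1 hGU, hub.2, zero_div]
  · rw [map_div₀, map_add, hWu, hWv, add_comm]
  · rw [map_div₀, map_add, hWu, hWv, add_comm]

/-- `W` maps the Gauss-bounded elements of `E'` to Gauss-bounded elements, with reduction
`ρ(X^q)`. -/
theorem s35as_W_incl_bdd (W : ↥E ≃+* ↥E)
    (hW : ∀ z : ↥E', ((W (IntermediateField.inclusion hle z) : ↥E) : LaurentSeries L) =
      qExpand L q (z : LaurentSeries L))
    (a : ↥E') (ha : gq_IsBdd O L (a : LaurentSeries L)) :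
    gq_IsBdd O L ((W (IntermediateField.inclusion hle a) : ↥E) : LaurentSeries L) := by
  rw [hW]
  exact ssm_ga_beta_isBdd q ha

/-- `W` fixes the constants. -/
theorem s35as_W_const (W : ↥E ≃+* ↥E)
    (hW : ∀ z : ↥E', ((W (IntermediateField.inclusion hle z) : ↥E) : LaurentSeries L) =
      qExpand L q (z : LaurentSeries L)) (c : L) :
    W (algebraMap L ↥E c) = algebraMap L ↥E c := by
  apply Subtype.ext
  have h1 : algebraMap L ↥E c = IntermediateField.inclusion hle (algebraMap L ↥E' c) := rfl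
  rw [h1, hW]
  show qExpand L q (algebraMap L (LaurentSeries L) c) = algebraMap L (LaurentSeries L) c
  exact (qExpandAlgHomC L q).commutes c

include hπ in
/-- an element whose reduction is the constant `k̄` is congruent to a lift of `k̄` modulo the
maximal ideal of the Gauss ring. -/
theorem s35as_sub_const_mem (x : ↥E) (K : ↥O) (hx : gq_IsBdd O L (x : LaurentSeries L))
    (hred : s35as_red (↥O) (x : LaurentSeries L) =
      algebraMap (ResidueField O) (LaurentSeries (ResidueField O)) (residue ↥O K)) :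
    x - algebraMap L ↥E (K : L) ∈ (gq_valSubOf π hπ.ne_zero hπ.maximalIdeal_eq E hE).nonunits := by
  rw [s35as_mem_nonunits_iff O hπ E hE]
  have e1 : ((x - algebraMap L ↥E (K : L) : ↥E) : LaurentSeries L) =
      (x : LaurentSeries L) - algebraMap L (LaurentSeries L) (algebraMap ↥O L K) := rfl
  rw [e1]
  exact ⟨s35as_bdd_sub hx (s35as_bdd_const K), by
    rw [s35as_red_sub hx (s35as_bdd_const K), hred, s35as_red_const, sub_self]⟩

/-- the quotient `x ^ a / y ^ b` of Gauss units: boundedness and reduction. -/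
theorem s35as_red_pow_div_pow (x y : ↥E) (a b : ℕ)
    (hx : s35as_IsGU (↥O) (x : LaurentSeries L)) (hy : s35as_IsGU (↥O) (y : LaurentSeries L)) :
    gq_IsBdd O L ((x ^ a / y ^ b : ↥E) : LaurentSeries L) ∧
      s35as_red (↥O) ((x ^ a / y ^ b : ↥E) : LaurentSeries L) =
        s35as_red (↥O) (x : LaurentSeries L) ^ a / s35as_red (↥O) (y : LaurentSeries L) ^ b := by
  have e1 : ((x ^ a / y ^ b : ↥E) : LaurentSeries L) =
      (x : LaurentSeries L) ^ a / (y : LaurentSeries L) ^ b := rfl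
  rw [e1]
  exact ⟨((hx.pow a).div (hy.pow b)).1, by
    rw [s35as_red_div (hx.pow a).1 (hy.pow b), s35as_red_pow hx.1, s35as_red_pow hy.1]⟩

set_option maxHeartbeats 800000 in
/-- **[ABEL-ASM], the common core**: from the [ABEL] conclusion for the reductions
`(red G, red (W G))` to `G ^ E₀ = R ^ m · g'` with `g'` of constant reductions. -/
theorem s35as_abel_of_unit (W : ↥E ≃+* ↥E)
    (hW : ∀ z : ↥E', ((W (IntermediateField.inclusion hle z) : ↥E) : LaurentSeries L) =
      qExpand L q (z : LaurentSeries L))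
    {lam : ↥(gq_valSubOf π hπ.ne_zero hπ.maximalIdeal_eq E' (hle.trans hE))}
    (D : letI := ssm_gi_algebra hle
      letI := ssm_gi_algebraV hle (gq_valSubOf π hπ.ne_zero hπ.maximalIdeal_eq E' (hle.trans hE))
      ssm_tw_Data ↥E' ↥(gq_valSubOf π hπ.ne_zero hπ.maximalIdeal_eq E' (hle.trans hE)) q
        (gq_valSubOf π hπ.ne_zero hπ.maximalIdeal_eq E hE) W lam)
    (m E0 : ℕ) (hm : m ≠ 0) (G : ↥E)
    (h1 : s35as_IsGU (↥O) (G : LaurentSeries L))
    (h2 : s35as_IsGU (↥O) ((W G : ↥E) : LaurentSeries L))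
    (hN1 : letI := ssm_gi_algebra hle
      ∃ (c : L) (r : ↥E'), r ≠ 0 ∧ Algebra.norm ↥E' G = algebraMap L ↥E' c * r ^ m)
    (hN2 : letI := ssm_gi_algebra hle
      ∃ (c : L) (r : ↥E'), r ≠ 0 ∧ Algebra.norm ↥E' (W G) = algebraMap L ↥E' c * r ^ m)
    (hAB :
      (∃ (c : ResidueField O) (h : LaurentSeries (ResidueField O)), h ∈ s35as_range O E' ∧
        s35as_red (↥O) (G : LaurentSeries L) *
          coeffMap (frobenius (ResidueField O) q)
            (s35as_red (↥O) ((W G : ↥E) : LaurentSeries L)) =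
          algebraMap (ResidueField O) (LaurentSeries (ResidueField O)) c * h ^ m) →
      (∃ (c : ResidueField O) (h : LaurentSeries (ResidueField O)), h ∈ s35as_range O E' ∧
        s35as_red (↥O) ((W G : ↥E) : LaurentSeries L) *
          coeffMap (frobenius (ResidueField O) q) (s35as_red (↥O) (G : LaurentSeries L)) =
          algebraMap (ResidueField O) (LaurentSeries (ResidueField O)) c * h ^ m) →
      ∃ (k1 k2 : ResidueField O) (ρ1 ρ2 : LaurentSeries (ResidueField O)),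
        ρ1 ∈ s35as_range O E' ∧ ρ2 ∈ s35as_range O E' ∧ k1 ≠ 0 ∧ k2 ≠ 0 ∧
        s35as_red (↥O) (G : LaurentSeries L) ^ E0 =
          algebraMap (ResidueField O) (LaurentSeries (ResidueField O)) k1 * ρ1 ^ m ∧
        s35as_red (↥O) ((W G : ↥E) : LaurentSeries L) ^ E0 =
          algebraMap (ResidueField O) (LaurentSeries (ResidueField O)) k2 * ρ2 ^ m) :
    ∃ (R g' : ↥E), R ≠ 0 ∧ g' ≠ 0 ∧ G ^ E0 = R ^ m * g' ∧
      ∃ K1 K2 : ↥O, IsUnit K1 ∧ IsUnit K2 ∧
        g' - algebraMap L ↥E (K1 : L) ∈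
          (gq_valSubOf π hπ.ne_zero hπ.maximalIdeal_eq E hE).nonunits ∧
        g' - algebraMap L ↥E (K2 : L) ∈
          ((gq_valSubOf π hπ.ne_zero hπ.maximalIdeal_eq E hE).comap (W : ↥E →+* ↥E)).nonunits := by
  classical
  letI := ssm_gi_algebra hle
  have hWW : ∀ x, W (W x) = x := D.invol
  have hFrinj : Function.Injective (coeffMap (frobenius (ResidueField O) q)) :=
    bd_coeffMap_injective (frobenius_inj (ResidueField O) q)
  -- [RED-N]
  obtain ⟨⟨hNb, hNr⟩, ⟨hNb', hNr'⟩⟩ :=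
    rdn_gt_norm_res O hπ q E' E hle hE W hW D G h1.1 h2.1
  rw [← s35as_red_eq hNb, ← s35as_red_eq h1.1, ← s35as_red_eq h2.1] at hNr
  rw [← s35as_red_eq hNb', ← s35as_red_eq h1.1, ← s35as_red_eq h2.1] at hNr'
  have hFr1 : coeffMap (frobenius (ResidueField O) q) (s35as_red (↥O) (G : LaurentSeries L)) ≠ 0 :=
    fun h0 => h1.2 (hFrinj (by rw [h0, map_zero]))
  have hFr2 : coeffMap (frobenius (ResidueField O) q)
      (s35as_red (↥O) ((W G : ↥E) : LaurentSeries L)) ≠ 0 :=
    fun h0 => h2.2 (hFrinj (by rw [h0, map_zero]))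
  have hNGU : s35as_IsGU (↥O) ((Algebra.norm ↥E' G : ↥E') : LaurentSeries L) :=
    ⟨hNb, by rw [hNr]; exact mul_ne_zero h1.2 hFr2⟩
  have hNGU' : s35as_IsGU (↥O) ((Algebra.norm ↥E' (W G) : ↥E') : LaurentSeries L) :=
    ⟨hNb', by rw [hNr']; exact mul_ne_zero h2.2 hFr1⟩
  -- the relations (R1), (R2)
  obtain ⟨c1, r1, hr1, hn1⟩ := hN1
  obtain ⟨c2, r2, hr2, hn2⟩ := hN2
  obtain ⟨d1, x1, hx1, hd1⟩ := s35as_red_norm_form O hπ E' E hle hE _ r1 c1 m hr1 hNGU hn1
  obtain ⟨d2, x2, hx2, hd2⟩ := s35as_red_norm_form O hπ E' E hle hE _ r2 c2 m hr2 hNGU' hn2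
  obtain ⟨k1, k2, ρ1, ρ2, hρ1, hρ2, hk1, hk2, hu1, hu2⟩ :=
    hAB ⟨d1, x1, hx1, by rw [← hNr, hd1]⟩ ⟨d2, x2, hx2, by rw [← hNr', hd2]⟩
  -- `ρ_i ≠ 0`
  have hρ10 : ρ1 ≠ 0 := by
    rintro rfl
    rw [zero_pow hm, mul_zero] at hu1
    exact pow_ne_zero E0 h1.2 hu1
  have hρ20 : ρ2 ≠ 0 := by
    rintro rfl
    rw [zero_pow hm, mul_zero] at hu2
    exact pow_ne_zero E0 h2.2 hu2
  -- lifts
  obtain ⟨a1, ha1b, ha1⟩ := hρ1
  obtain ⟨a2, ha2b, ha2⟩ := hρ2
  obtain ⟨e1, e2, he1b, he2b, he1, he2, hWe1, hWe2⟩ := s35as_exists_idem O hπ q E' E hle hE W hW D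
  set A1 : ↥E := IntermediateField.inclusion hle a1 with hA1
  set A2 : ↥E := IntermediateField.inclusion hle a2 with hA2
  have hA1b : gq_IsBdd O L (A1 : LaurentSeries L) := ha1b
  have hA2b : gq_IsBdd O L (A2 : LaurentSeries L) := ha2b
  have hWA1b : gq_IsBdd O L ((W A1 : ↥E) : LaurentSeries L) :=
    s35as_W_incl_bdd O q E' E hle W hW a1 ha1b
  have hWA2b : gq_IsBdd O L ((W A2 : ↥E) : LaurentSeries L) :=
    s35as_W_incl_bdd O q E' E hle W hW a2 ha2b
  set R : ↥E := e1 * A1 + e2 * W A2 with hR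
  have hRb : gq_IsBdd O L (R : LaurentSeries L) := by
    rw [hR]
    push_cast
    exact s35as_bdd_add (s35as_bdd_mul he1b hA1b) (s35as_bdd_mul he2b hWA2b)
  have hRred : s35as_red (↥O) (R : LaurentSeries L) = ρ1 := by
    rw [hR]
    push_cast
    rw [s35as_red_add (s35as_bdd_mul he1b hA1b) (s35as_bdd_mul he2b hWA2b),
      s35as_red_mul he1b hA1b, s35as_red_mul he2b hWA2b, he1, he2, one_mul, zero_mul, add_zero]
    exact ha1
  have hWR : W R = e2 * W A1 + e1 * A2 := by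
    rw [hR, map_add, map_mul, map_mul, hWe1, hWe2, hWW]
  have hWRb : gq_IsBdd O L ((W R : ↥E) : LaurentSeries L) := by
    rw [hWR]
    push_cast
    exact s35as_bdd_add (s35as_bdd_mul he2b hWA1b) (s35as_bdd_mul he1b hA2b)
  have hWRred : s35as_red (↥O) ((W R : ↥E) : LaurentSeries L) = ρ2 := by
    rw [hWR]
    push_cast
    rw [s35as_red_add (s35as_bdd_mul he2b hWA1b) (s35as_bdd_mul he1b hA2b),
      s35as_red_mul he2b hWA1b, s35as_red_mul he1b hA2b, he1, he2, one_mul, zero_mul, zero_add]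
    exact ha2
  have hRGU : s35as_IsGU (↥O) (R : LaurentSeries L) := ⟨hRb, by rw [hRred]; exact hρ10⟩
  have hWRGU : s35as_IsGU (↥O) ((W R : ↥E) : LaurentSeries L) :=
    ⟨hWRb, by rw [hWRred]; exact hρ20⟩
  have hR0 : R ≠ 0 := fun h0 => hRGU.ne_zero (by rw [h0]; rfl)
  have hG0 : G ≠ 0 := fun h0 => h1.ne_zero (by rw [h0]; rfl)
  have hRm0 : R ^ m ≠ 0 := pow_ne_zero m hR0
  -- residues of the constants
  obtain ⟨K1, hK1⟩ := residue_surjective (R := ↥O) k1
  obtain ⟨K2, hK2⟩ := residue_surjective (R := ↥O) k2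
  have hK1u : IsUnit K1 := by
    by_contra hnu
    exact hk1 (by rw [← hK1]; exact (residue_eq_zero_iff _).2 ((mem_maximalIdeal _).2 hnu))
  have hK2u : IsUnit K2 := by
    by_contra hnu
    exact hk2 (by rw [← hK2]; exact (residue_eq_zero_iff _).2 ((mem_maximalIdeal _).2 hnu))
  refine ⟨R, G ^ E0 / R ^ m, hR0, div_ne_zero (pow_ne_zero E0 hG0) hRm0, ?_, K1, K2, hK1u, hK2u,
    ?_, ?_⟩
  · rw [mul_div_cancel₀ _ hRm0]
  · -- at `V₁`
    obtain ⟨hb, hr⟩ := s35as_red_pow_div_pow O E G R E0 m h1 hRGU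
    refine s35as_sub_const_mem O hπ E hE _ K1 hb ?_
    rw [hr, hRred, hK1, hu1, mul_div_assoc, div_self (pow_ne_zero m hρ10), mul_one]
  · -- at `V₂`
    rw [ssm_tw_nonunits_comap, map_sub, map_div₀, map_pow, map_pow, s35as_W_const q E' E hle W hW]
    obtain ⟨hb, hr⟩ := s35as_red_pow_div_pow O E (W G) (W R) E0 m h2 hWRGU
    refine s35as_sub_const_mem O hπ E hE _ K2 hb ?_
    rw [hr, hWRred, hK2, hu2, mul_div_assoc, div_self (pow_ne_zero m hρ20), mul_one]

end Core

end Fermat.Agent.S35
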