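/-
Project S35, cell [CORE-ASM] (helper4), part 6: COMPOSITE VALUATIONS.  Prefix `s35as_`.

Context of `S35/AbelAsm/Core.lean`.  `κ' = s35kp_kappa O hπ E' _ ⊆ k((X))` is the reduction field of
`E'` (helper13's `S35/Kappa/Defs.lean`); by the two-valuations data `D` it is also the reduction
field of `E` at `V₁` (`s35as_red_mem_kappa`).

For a valuation subring `𝒪` of `κ'`:
* `s35as_comp 𝒪`            : the composite `{z ∈ V₁ | red z ∈ 𝒪}`, a valuation subring of `E`;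
* `s35as_comp_le`, `s35as_comp_const`, `s35as_comp_halg` : the hypotheses `h𝒱`, `hA`, `halg` of
                               helper19's `tori_sfd_hdiv`;
* `s35as_comp_unit_red`      : a unit of the composite reduces to a unit of `𝒪`;
* `s35as_hdiv_red1`, `s35as_hdiv_red2` : the factor form of (H-DIV) for `red G` and `red (W G)`.
-/
import Mathlib
import Fermat.Agent.S35.AbelAsm.Core
import Fermat.Agent.S35.Kappa.Defs

set_option autoImplicit false
set_option linter.unusedSectionVars false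
set_option linter.unusedVariables false
set_option linter.style.haveILetI false

noncomputable section

namespace Fermat.Agent.S35

open ModularCurve IsLocalRing IntermediateField Polynomial
open Fermat.Agent.JT3 Fermat.Agent.SS Fermat.Agent.S28

section Comp

variable {L : Type*} [Field L] [CharZero L] (O : ValuationSubring L)
  [IsDiscreteValuationRing O] {π : O} (hπ : Irreducible π)
variable (q : ℕ) [NeZero q] [hq : Fact q.Prime] [CharP (ResidueField O) q]
variable (E' E : IntermediateField L (LaurentSeries L)) (hle : E' ≤ E)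
  (hE : E ≤ gq_quotField O L)

/-- the reduction field of `E'` as a set = helper13's `κ'`. -/
theorem s35as_range_iff (hE' : E' ≤ gq_quotField O L) (y : LaurentSeries (ResidueField O)) :
    y ∈ s35as_range O E' ↔ y ∈ s35kp_kappa O hπ E' hE' := by
  constructor
  · rintro ⟨a, hb, rfl⟩
    rw [s35as_red_eq hb]
    exact s35kp_mem_kappa_of_bdd O hπ E' hE' a.2 hb
  · rintro ⟨z, rfl⟩
    refine ⟨(z : ↥E'), z.2, ?_⟩
    rw [s35as_red_eq (show gq_IsBdd O L (((z : ↥E') : LaurentSeries L)) from z.2)]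
    rfl

include hπ hE in
/-- **`κ(V₁) = κ'`**: the reduction of a bounded element of `E` lies in the reduction field of
`E'`. -/
theorem s35as_red_mem_kappa (W : ↥E ≃+* ↥E)
    {lam : ↥(gq_valSubOf π hπ.ne_zero hπ.maximalIdeal_eq E' (hle.trans hE))}
    (D : letI := ssm_gi_algebra hle
      letI := ssm_gi_algebraV hle (gq_valSubOf π hπ.ne_zero hπ.maximalIdeal_eq E' (hle.trans hE))
      ssm_tw_Data ↥E' ↥(gq_valSubOf π hπ.ne_zero hπ.maximalIdeal_eq E' (hle.trans hE)) q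
        (gq_valSubOf π hπ.ne_zero hπ.maximalIdeal_eq E hE) W lam)
    (z : ↥E) (hz : gq_IsBdd O L (z : LaurentSeries L)) :
    s35as_red (↥O) (z : LaurentSeries L) ∈ s35kp_kappa O hπ E' (hle.trans hE) := by
  letI := ssm_gi_algebra hle
  letI := ssm_gi_algebraV hle (gq_valSubOf π hπ.ne_zero hπ.maximalIdeal_eq E' (hle.trans hE))
  haveI := ssm_gi_isScalarTower hle
    (gq_valSubOf π hπ.ne_zero hπ.maximalIdeal_eq E' (hle.trans hE))
  haveI : FiniteDimensional ↥E' ↥E := ssm_gi_finiteDimensional D.finrank_eq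
  obtain ⟨r, hr⟩ := ssm_tw_res1 D z hz
  have hrb : gq_IsBdd O L (((r : ↥E') : LaurentSeries L)) := r.2
  have h0 := ((s35as_mem_nonunits_iff O hπ E hE _).1 hr).2
  have h1 : s35as_red (↥O) (z : LaurentSeries L) =
      s35as_red (↥O) (((r : ↥E') : LaurentSeries L)) :=
    s35as_red_eq_of_sub hz hrb h0
  rw [h1, s35as_red_eq hrb]
  exact s35kp_mem_kappa_of_bdd O hπ E' (hle.trans hE) (r : ↥E').2 hrb

end Comp

/-! ### membership of a series in a valuation subring of an intermediate field of `k((X))` -/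

section InO

variable {k : Type*} [Field k] {κ : IntermediateField k (LaurentSeries k)}

/-- membership of a series in a valuation subring of `κ ⊆ k((X))`. -/
def s35as_InO (𝒪 : ValuationSubring ↥κ) (y : LaurentSeries k) : Prop :=
  ∃ hy : y ∈ κ, (⟨y, hy⟩ : ↥κ) ∈ 𝒪

variable (𝒪 : ValuationSubring ↥κ)

theorem s35as_inO_coe (y : ↥κ) : s35as_InO 𝒪 (y : LaurentSeries k) ↔ y ∈ 𝒪 :=
  ⟨fun ⟨_, h⟩ => h, fun h => ⟨y.2, h⟩⟩

theorem s35as_inO_zero : s35as_InO 𝒪 0 :=
  (s35as_inO_coe 𝒪 0).2 𝒪.zero_mem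

theorem s35as_inO_one : s35as_InO 𝒪 1 :=
  (s35as_inO_coe 𝒪 1).2 𝒪.one_mem

theorem s35as_inO_mul {x y : LaurentSeries k} (hx : s35as_InO 𝒪 x)
    (hy : s35as_InO 𝒪 y) : s35as_InO 𝒪 (x * y) := by
  obtain ⟨hx1, hx2⟩ := hx
  obtain ⟨hy1, hy2⟩ := hy
  have h := (s35as_inO_coe 𝒪 (⟨x, hx1⟩ * ⟨y, hy1⟩)).2 (𝒪.mul_mem _ _ hx2 hy2)
  rwa [MulMemClass.coe_mul] at h

theorem s35as_inO_add {x y : LaurentSeries k} (hx : s35as_InO 𝒪 x)
    (hy : s35as_InO 𝒪 y) : s35as_InO 𝒪 (x + y) := by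
  obtain ⟨hx1, hx2⟩ := hx
  obtain ⟨hy1, hy2⟩ := hy
  have h := (s35as_inO_coe 𝒪 (⟨x, hx1⟩ + ⟨y, hy1⟩)).2 (𝒪.add_mem _ _ hx2 hy2)
  rwa [AddMemClass.coe_add] at h

theorem s35as_inO_neg {x : LaurentSeries k} (hx : s35as_InO 𝒪 x) :
    s35as_InO 𝒪 (-x) := by
  obtain ⟨hx1, hx2⟩ := hx
  have h := (s35as_inO_coe 𝒪 (-⟨x, hx1⟩)).2 (𝒪.neg_mem _ hx2)
  rwa [NegMemClass.coe_neg] at h

theorem s35as_inO_or_inv {x : LaurentSeries k} (hx : x ∈ κ) :
    s35as_InO 𝒪 x ∨ s35as_InO 𝒪 x⁻¹ := by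
  rcases 𝒪.mem_or_inv_mem ⟨x, hx⟩ with h | h
  · exact Or.inl ⟨hx, h⟩
  · have h' := (s35as_inO_coe 𝒪 (⟨x, hx⟩⁻¹)).2 h
    rw [IntermediateField.coe_inv] at h'
    exact Or.inr h'

theorem s35as_inO_const (hk : ∀ c : k, algebraMap k ↥κ c ∈ 𝒪) (c : k) :
    s35as_InO 𝒪 (algebraMap k (LaurentSeries k) c) :=
  ⟨κ.algebraMap_mem c, hk c⟩

theorem s35as_inO_nonunits_or {x : LaurentSeries k} (hx : s35as_InO 𝒪 x) (h0 : x ≠ 0)
    (hinv : ¬ s35as_InO 𝒪 x⁻¹) : ∃ hy : x ∈ κ, (⟨x, hy⟩ : ↥κ) ∈ 𝒪.nonunits := by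
  obtain ⟨hx1, hx2⟩ := hx
  refine ⟨hx1, ?_⟩
  rw [ssm_tw_nonunits_iff]
  refine ⟨hx2, Or.inr fun h => hinv ?_⟩
  have h' := (s35as_inO_coe 𝒪 (⟨x, hx1⟩⁻¹)).2 h
  rwa [IntermediateField.coe_inv] at h'

end InO

/-! ### reduction of polynomial expressions -/

section RedPoly

variable {O : Type*} [CommRing O] [IsDomain O] [IsLocalRing O]
variable {L : Type*} [Field L] [Algebra O L] [IsFractionRing O L]

/-- the reduction of `P(z)` for `P ∈ O[X]` and `z` bounded is `P̄(red z)`. -/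
theorem s35as_red_eval₂ {z : LaurentSeries L} (hz : gq_IsBdd O L z) (P : O[X]) :
    gq_IsBdd O L (P.eval₂ ((algebraMap L (LaurentSeries L)).comp (algebraMap O L)) z) ∧
      s35as_red O (P.eval₂ ((algebraMap L (LaurentSeries L)).comp (algebraMap O L)) z) =
        (P.map (residue O)).eval₂
          (algebraMap (ResidueField O) (LaurentSeries (ResidueField O))) (s35as_red O z) := by
  induction P using Polynomial.induction_on with
  | C a =>
    rw [eval₂_C, Polynomial.map_C, eval₂_C]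
    exact ⟨s35as_bdd_const a, s35as_red_const a⟩
  | add p r hp hr =>
    rw [eval₂_add, Polynomial.map_add, eval₂_add]
    exact ⟨s35as_bdd_add hp.1 hr.1, by rw [s35as_red_add hp.1 hr.1, hp.2, hr.2]⟩
  | monomial n a h =>
    have e1 : (C a * X ^ (n + 1) : O[X]) = C a * X ^ n * X := by rw [pow_succ, mul_assoc]
    have e2 : (C a * X ^ n * X : O[X]).eval₂
        ((algebraMap L (LaurentSeries L)).comp (algebraMap O L)) z =
        (C a * X ^ n : O[X]).eval₂ ((algebraMap L (LaurentSeries L)).comp (algebraMap O L)) z *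
          z := by
      rw [eval₂_mul (p := C a * X ^ n), eval₂_X]
    have e3 : ((C a * X ^ n * X : O[X]).map (residue O)).eval₂
        (algebraMap (ResidueField O) (LaurentSeries (ResidueField O))) (s35as_red O z) =
        ((C a * X ^ n : O[X]).map (residue O)).eval₂
          (algebraMap (ResidueField O) (LaurentSeries (ResidueField O))) (s35as_red O z) *
            s35as_red O z := by
      rw [Polynomial.map_mul (p := C a * X ^ n), Polynomial.map_X,
        eval₂_mul (p := (C a * X ^ n : O[X]).map (residue O)), eval₂_X]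
    rw [e1, e2, e3]
    exact ⟨s35as_bdd_mul h.1 hz, by rw [s35as_red_mul h.1 hz, h.2]⟩

end RedPoly

/-! ### the composite valuation -/

section Composite

variable {L : Type*} [Field L] [CharZero L] (O : ValuationSubring L)
  [IsDiscreteValuationRing O] {π : O} (hπ : Irreducible π)
variable (q : ℕ) [NeZero q] [hq : Fact q.Prime] [CharP (ResidueField O) q]
variable (E' E : IntermediateField L (LaurentSeries L)) (hle : E' ≤ E)
  (hE : E ≤ gq_quotField O L)
variable (W : ↥E ≃+* ↥E)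
  {lam : ↥(gq_valSubOf π hπ.ne_zero hπ.maximalIdeal_eq E' (hle.trans hE))}
  (D : letI := ssm_gi_algebra hle
    letI := ssm_gi_algebraV hle (gq_valSubOf π hπ.ne_zero hπ.maximalIdeal_eq E' (hle.trans hE))
    ssm_tw_Data ↥E' ↥(gq_valSubOf π hπ.ne_zero hπ.maximalIdeal_eq E' (hle.trans hE)) q
      (gq_valSubOf π hπ.ne_zero hπ.maximalIdeal_eq E hE) W lam)
variable (𝒪 : ValuationSubring ↥(s35kp_kappa O hπ E' (hle.trans hE)))

include hπ hE D in
theorem s35as_comp_aux (z : ↥E) (hz : gq_IsBdd O L (z : LaurentSeries L)) :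
    (gq_IsBdd O L (z : LaurentSeries L) ∧ s35as_InO 𝒪 (s35as_red (↥O) (z : LaurentSeries L))) ∨
      (gq_IsBdd O L ((z⁻¹ : ↥E) : LaurentSeries L) ∧
        s35as_InO 𝒪 (s35as_red (↥O) ((z⁻¹ : ↥E) : LaurentSeries L))) := by
  by_cases h0 : s35as_red (↥O) (z : LaurentSeries L) = 0
  · left
    refine ⟨hz, ?_⟩
    rw [h0]
    exact s35as_inO_zero 𝒪
  · have hGU : s35as_IsGU (↥O) (z : LaurentSeries L) := ⟨hz, h0⟩
    have hmem := s35as_red_mem_kappa O hπ q E' E hle hE W D z hz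
    rcases s35as_inO_or_inv 𝒪 hmem with h | h
    · exact Or.inl ⟨hz, h⟩
    · right
      rw [IntermediateField.coe_inv]
      refine ⟨hGU.inv_bdd, ?_⟩
      rw [s35as_red_inv hGU]
      exact h

/-- **the composite valuation subring** `{z ∈ V₁ | red z ∈ 𝒪}` of `E`. -/
def s35as_comp : ValuationSubring ↥E where
  carrier := {z | gq_IsBdd O L (z : LaurentSeries L) ∧
    s35as_InO 𝒪 (s35as_red (↥O) (z : LaurentSeries L))}
  mul_mem' := by
    rintro a b ⟨ha, ha'⟩ ⟨hb, hb'⟩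
    refine ⟨s35as_bdd_mul ha hb, ?_⟩
    show s35as_InO 𝒪 (s35as_red (↥O) ((a : LaurentSeries L) * (b : LaurentSeries L)))
    rw [s35as_red_mul ha hb]
    exact s35as_inO_mul 𝒪 ha' hb'
  one_mem' := by
    refine ⟨s35as_bdd_one, ?_⟩
    show s35as_InO 𝒪 (s35as_red (↥O) (1 : LaurentSeries L))
    rw [s35as_red_one]
    exact s35as_inO_one 𝒪
  add_mem' := by
    rintro a b ⟨ha, ha'⟩ ⟨hb, hb'⟩
    refine ⟨s35as_bdd_add ha hb, ?_⟩
    show s35as_InO 𝒪 (s35as_red (↥O) ((a : LaurentSeries L) + (b : LaurentSeries L)))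
    rw [s35as_red_add ha hb]
    exact s35as_inO_add 𝒪 ha' hb'
  zero_mem' := by
    refine ⟨s35as_bdd_zero, ?_⟩
    show s35as_InO 𝒪 (s35as_red (↥O) (0 : LaurentSeries L))
    rw [s35as_red_zero]
    exact s35as_inO_zero 𝒪
  neg_mem' := by
    rintro a ⟨ha, ha'⟩
    have hn : gq_IsBdd O L (-(a : LaurentSeries L)) := by
      have := s35as_bdd_sub (s35as_bdd_zero (O := ↥O) (L := L)) ha
      rwa [zero_sub] at this
    refine ⟨hn, ?_⟩
    show s35as_InO 𝒪 (s35as_red (↥O) (-(a : LaurentSeries L)))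
    have h1 : s35as_red (↥O) (-(a : LaurentSeries L)) = -s35as_red (↥O) (a : LaurentSeries L) := by
      have := s35as_red_sub (s35as_bdd_zero (O := ↥O) (L := L)) ha
      rwa [zero_sub, s35as_red_zero, zero_sub] at this
    rw [h1]
    exact s35as_inO_neg 𝒪 ha'
  mem_or_inv_mem' := by
    intro z
    rcases (gq_valSubOf π hπ.ne_zero hπ.maximalIdeal_eq E hE).mem_or_inv_mem z with hz | hz
    · exact s35as_comp_aux O hπ q E' E hle hE W D 𝒪 z hz
    · have := s35as_comp_aux O hπ q E' E hle hE W D 𝒪 z⁻¹ hz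
      rw [inv_inv] at this
      exact this.symm

theorem s35as_mem_comp (z : ↥E) :
    z ∈ s35as_comp O hπ q E' E hle hE W D 𝒪 ↔
      gq_IsBdd O L (z : LaurentSeries L) ∧
        s35as_InO 𝒪 (s35as_red (↥O) (z : LaurentSeries L)) := Iff.rfl

/-- `h𝒱`: the composite is contained in `V₁`. -/
theorem s35as_comp_le :
    s35as_comp O hπ q E' E hle hE W D 𝒪 ≤ gq_valSubOf π hπ.ne_zero hπ.maximalIdeal_eq E hE :=
  fun z hz => hz.1

set_option synthInstance.maxHeartbeats 200000 in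
/-- `hA`: the composite contains the constants of `O` (if `𝒪` contains `k`). -/
theorem s35as_comp_const
    (hk : ∀ c : ResidueField O, algebraMap (ResidueField O)
      ↥(s35kp_kappa O hπ E' (hle.trans hE)) c ∈ 𝒪) (a : ↥O) :
    algebraMap L ↥E ((a : ↥O) : L) ∈ s35as_comp O hπ q E' E hle hE W D 𝒪 := by
  refine ⟨s35as_bdd_const a, ?_⟩
  show s35as_InO 𝒪 (s35as_red (↥O) (algebraMap L (LaurentSeries L) (algebraMap (↥O) L a)))
  rw [s35as_red_const]
  exact s35as_inO_const 𝒪 hk _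

include hπ hE D in
/-- a bounded element whose reduction is `0` or a nonunit of `𝒪` is a nonunit of the composite. -/
theorem s35as_comp_nonunits_of (z : ↥E) (hz : gq_IsBdd O L (z : LaurentSeries L))
    (h : s35as_red (↥O) (z : LaurentSeries L) = 0 ∨
      ∃ hy : s35as_red (↥O) (z : LaurentSeries L) ∈ s35kp_kappa O hπ E' (hle.trans hE),
        (⟨_, hy⟩ : ↥(s35kp_kappa O hπ E' (hle.trans hE))) ∈ 𝒪.nonunits) :
    z ∈ (s35as_comp O hπ q E' E hle hE W D 𝒪).nonunits := by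
  rw [ssm_tw_nonunits_iff]
  have hmem : z ∈ s35as_comp O hπ q E' E hle hE W D 𝒪 := by
    refine ⟨hz, ?_⟩
    rcases h with h | ⟨hy, h⟩
    · rw [h]
      exact s35as_inO_zero 𝒪
    · exact ⟨hy, ssm_tw_nonunits_le 𝒪 h⟩
  refine ⟨hmem, ?_⟩
  by_cases hz0 : z = 0
  · exact Or.inl hz0
  · right
    rintro ⟨hib, hi⟩
    rw [IntermediateField.coe_inv] at hib hi
    have hz0' : (z : LaurentSeries L) ≠ 0 := fun h0 => hz0 (Subtype.ext h0)
    have hGU : s35as_IsGU (↥O) (z : LaurentSeries L) := s35as_isGU_of_inv hz hib hz0'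
    rw [s35as_red_inv hGU] at hi
    rcases h with h | ⟨hy, h⟩
    · exact hGU.2 h
    · rw [ssm_tw_nonunits_iff] at h
      rcases h.2 with h1 | h1
      · exact hGU.2 (congrArg Subtype.val h1)
      · apply h1
        obtain ⟨hy', hi'⟩ := hi
        have : (⟨_, hy⟩ : ↥(s35kp_kappa O hπ E' (hle.trans hE)))⁻¹ = ⟨_, hy'⟩ :=
          Subtype.ext (IntermediateField.coe_inv _ _)
        rw [this]
        exact hi'

include hπ hE D in
/-- **a unit of the composite is a Gauss unit whose reduction is a unit of `𝒪`.** -/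
theorem s35as_comp_unit_red (ω : ↥E) (hω : ω ∈ s35as_comp O hπ q E' E hle hE W D 𝒪)
    (hn : ω ∉ (s35as_comp O hπ q E' E hle hE W D 𝒪).nonunits) :
    s35as_IsGU (↥O) (ω : LaurentSeries L) ∧
      s35as_InO 𝒪 (s35as_red (↥O) (ω : LaurentSeries L)) ∧
      s35as_InO 𝒪 (s35as_red (↥O) (ω : LaurentSeries L))⁻¹ := by
  have hω0 : ω ≠ 0 := by
    rintro rfl
    exact hn ((ssm_tw_nonunits_iff _ _).2 ⟨hω, Or.inl rfl⟩)
  have hinv := ssm_tw_inv_mem _ hω hn
  obtain ⟨hib, hi⟩ := hinv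
  rw [IntermediateField.coe_inv] at hib hi
  have hω0' : (ω : LaurentSeries L) ≠ 0 := fun h0 => hω0 (Subtype.ext h0)
  have hGU : s35as_IsGU (↥O) (ω : LaurentSeries L) := s35as_isGU_of_inv hω.1 hib hω0'
  rw [s35as_red_inv hGU] at hi
  exact ⟨hGU, hω.2, hi⟩

set_option synthInstance.maxHeartbeats 200000 in
set_option maxHeartbeats 800000 in
include hπ hE D in
/-- `halg`: the residue field of the composite is algebraic over `O / π` as soon as that of `𝒪` is
algebraic over `k`. -/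
theorem s35as_comp_halg
    (halg : ∀ y ∈ 𝒪, ∃ p : (ResidueField O)[X], p.Monic ∧ aeval y p ∈ 𝒪.nonunits)
    (z : ↥E) (hz : z ∈ s35as_comp O hπ q E' E hle hE W D 𝒪) :
    ∃ P : (↥O)[X], P.Monic ∧
      P.eval₂ ((algebraMap L ↥E).comp (algebraMap (↥O) L)) z ∈
        (s35as_comp O hπ q E' E hle hE W D 𝒪).nonunits := by
  obtain ⟨hzb, hy, hyO⟩ := hz
  obtain ⟨p, hpm, hp⟩ := halg ⟨_, hy⟩ hyO
  obtain ⟨P, hPmap, -, hPm⟩ := Polynomial.lifts_and_degree_eq_and_monic
    (Polynomial.mem_lifts_of_surjective (residue_surjective (R := ↥O)) p) hpm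
  refine ⟨P, hPm, ?_⟩
  have hcoe : ((P.eval₂ ((algebraMap L ↥E).comp (algebraMap (↥O) L)) z : ↥E) : LaurentSeries L) =
      P.eval₂ ((algebraMap L (LaurentSeries L)).comp (algebraMap (↥O) L)) (z : LaurentSeries L) := by
    have h1 := Polynomial.hom_eval₂ P ((algebraMap L ↥E).comp (algebraMap (↥O) L))
      (algebraMap ↥E (LaurentSeries L)) z
    exact h1
  obtain ⟨hwb, hwr⟩ := s35as_red_eval₂ (O := ↥O) hzb P
  rw [hPmap] at hwr
  have hval : ((aeval (⟨_, hy⟩ : ↥(s35kp_kappa O hπ E' (hle.trans hE))) p :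
      ↥(s35kp_kappa O hπ E' (hle.trans hE))) : LaurentSeries (ResidueField O)) =
      p.eval₂ (algebraMap (ResidueField O) (LaurentSeries (ResidueField O)))
        (s35as_red (↥O) (z : LaurentSeries L)) := by
    rw [Polynomial.aeval_def]
    exact Polynomial.hom_eval₂ p (algebraMap (ResidueField O) ↥(s35kp_kappa O hπ E' (hle.trans hE)))
      (algebraMap ↥(s35kp_kappa O hπ E' (hle.trans hE)) (LaurentSeries (ResidueField O))) _
  refine s35as_comp_nonunits_of O hπ q E' E hle hE W D 𝒪 _ (by rw [hcoe]; exact hwb) (Or.inr ?_)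
  have hmem : s35as_red (↥O)
      ((P.eval₂ ((algebraMap L ↥E).comp (algebraMap (↥O) L)) z : ↥E) : LaurentSeries L) ∈
      s35kp_kappa O hπ E' (hle.trans hE) := by
    rw [hcoe, hwr, ← hval]
    exact SetLike.coe_mem _
  refine ⟨hmem, ?_⟩
  have : (⟨_, hmem⟩ : ↥(s35kp_kappa O hπ E' (hle.trans hE))) =
      aeval (⟨_, hy⟩ : ↥(s35kp_kappa O hπ E' (hle.trans hE))) p := by
    apply Subtype.ext
    rw [hval, ← hwr, ← hcoe]
  rw [this]
  exact hp

/-- **(H-DIV), hypothesis form** at a valuation subring `V` of `E` (= the conclusion of helper19's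
`tori_sfd_hdiv` for `G`): for every composite `𝒱 ≤ V` containing `O` with residue field algebraic
over `O / π`, `G = ω e^m` with `e` a `V`-unit and `ω` a `𝒱`-unit. -/
def s35as_HDiv (V : ValuationSubring ↥E) (m : ℕ) (G : ↥E) : Prop :=
  ∀ 𝒱 : ValuationSubring ↥E, 𝒱 ≤ V → (∀ a : ↥O, algebraMap L ↥E ((a : ↥O) : L) ∈ 𝒱) →
    (∀ z ∈ 𝒱, ∃ P : (↥O)[X], P.Monic ∧
      P.eval₂ ((algebraMap L ↥E).comp (algebraMap (↥O) L)) z ∈ 𝒱.nonunits) →
    ∃ e ω : ↥E, G = ω * e ^ m ∧ (e ∈ V ∧ e ∉ V.nonunits) ∧ (ω ∈ 𝒱 ∧ ω ∉ 𝒱.nonunits)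

set_option synthInstance.maxHeartbeats 200000 in
set_option maxHeartbeats 800000 in
include hπ hE D in
/-- **(H-DIV) for `red G`, factor form.** -/
theorem s35as_hdiv_red1 (m : ℕ) (G : ↥E)
    (h : s35as_HDiv O E (gq_valSubOf π hπ.ne_zero hπ.maximalIdeal_eq E hE) m G)
    (hk : ∀ c : ResidueField O, algebraMap (ResidueField O)
      ↥(s35kp_kappa O hπ E' (hle.trans hE)) c ∈ 𝒪)
    (halg : ∀ y ∈ 𝒪, ∃ p : (ResidueField O)[X], p.Monic ∧ aeval y p ∈ 𝒪.nonunits) :
    ∃ ω e : ↥(s35kp_kappa O hπ E' (hle.trans hE)),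
      s35as_red (↥O) (G : LaurentSeries L) =
        (ω : LaurentSeries (ResidueField O)) * (e : LaurentSeries (ResidueField O)) ^ m ∧
      ω ∈ 𝒪 ∧ ω⁻¹ ∈ 𝒪 := by
  obtain ⟨e, ω, hG, ⟨he1, he2⟩, hω1, hω2⟩ := h (s35as_comp O hπ q E' E hle hE W D 𝒪)
    (s35as_comp_le O hπ q E' E hle hE W D 𝒪)
    (s35as_comp_const O hπ q E' E hle hE W D 𝒪 hk)
    (s35as_comp_halg O hπ q E' E hle hE W D 𝒪 halg)
  obtain ⟨hωGU, hωO, hωi⟩ := s35as_comp_unit_red O hπ q E' E hle hE W D 𝒪 ω hω1 hω2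
  have heb : gq_IsBdd O L (e : LaurentSeries L) := he1
  have hemem := s35as_red_mem_kappa O hπ q E' E hle hE W D e heb
  obtain ⟨hωm, hωO'⟩ := hωO
  refine ⟨⟨_, hωm⟩, ⟨_, hemem⟩, ?_, hωO', ?_⟩
  · rw [hG]
    push_cast
    rw [s35as_red_mul hωGU.1 (s35as_bdd_pow heb m), s35as_red_pow heb]
  · obtain ⟨hm', hi'⟩ := hωi
    have : (⟨_, hωm⟩ : ↥(s35kp_kappa O hπ E' (hle.trans hE)))⁻¹ = ⟨_, hm'⟩ :=
      Subtype.ext (IntermediateField.coe_inv _ _)
    rw [this]
    exact hi'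

set_option synthInstance.maxHeartbeats 200000 in
set_option maxHeartbeats 800000 in
include hπ hE D in
/-- **(H-DIV) for `red (W G)`, factor form.** -/
theorem s35as_hdiv_red2
    (hW : ∀ z : ↥E', ((W (IntermediateField.inclusion hle z) : ↥E) : LaurentSeries L) =
      qExpand L q (z : LaurentSeries L)) (m : ℕ) (G : ↥E)
    (h : s35as_HDiv O E ((gq_valSubOf π hπ.ne_zero hπ.maximalIdeal_eq E hE).comap
      (W : ↥E →+* ↥E)) m G)
    (hk : ∀ c : ResidueField O, algebraMap (ResidueField O)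
      ↥(s35kp_kappa O hπ E' (hle.trans hE)) c ∈ 𝒪)
    (halg : ∀ y ∈ 𝒪, ∃ p : (ResidueField O)[X], p.Monic ∧ aeval y p ∈ 𝒪.nonunits) :
    ∃ ω e : ↥(s35kp_kappa O hπ E' (hle.trans hE)),
      s35as_red (↥O) ((W G : ↥E) : LaurentSeries L) =
        (ω : LaurentSeries (ResidueField O)) * (e : LaurentSeries (ResidueField O)) ^ m ∧
      ω ∈ 𝒪 ∧ ω⁻¹ ∈ 𝒪 := by
  have hWc : ∀ c : L, W (algebraMap L ↥E c) = algebraMap L ↥E c :=
    s35as_W_const q E' E hle W hW
  obtain ⟨e, ω, hG, ⟨he1, he2⟩, hω1, hω2⟩ := h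
    ((s35as_comp O hπ q E' E hle hE W D 𝒪).comap (W : ↥E →+* ↥E))
    (fun z hz => (s35as_comp_le O hπ q E' E hle hE W D 𝒪) hz)
    (fun a => by
      rw [ValuationSubring.mem_comap]
      show W (algebraMap L ↥E ((a : ↥O) : L)) ∈ _
      rw [hWc]
      exact s35as_comp_const O hπ q E' E hle hE W D 𝒪 hk a)
    (fun z hz => by
      obtain ⟨P, hPm, hP⟩ := s35as_comp_halg O hπ q E' E hle hE W D 𝒪 halg (W z) hz
      refine ⟨P, hPm, ?_⟩
      rw [ssm_tw_nonunits_comap]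
      have h1 := Polynomial.hom_eval₂ P ((algebraMap L ↥E).comp (algebraMap (↥O) L))
        (W : ↥E →+* ↥E) z
      have h2 : (W : ↥E →+* ↥E).comp ((algebraMap L ↥E).comp (algebraMap (↥O) L)) =
          (algebraMap L ↥E).comp (algebraMap (↥O) L) := by
        refine RingHom.ext fun a => ?_
        exact hWc _
      rw [h2] at h1
      have h3 : W (P.eval₂ ((algebraMap L ↥E).comp (algebraMap (↥O) L)) z) =
          P.eval₂ ((algebraMap L ↥E).comp (algebraMap (↥O) L)) (W z) := h1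
      rw [h3]
      exact hP)
  rw [ssm_tw_nonunits_comap] at he2 hω2
  have hω1' : W ω ∈ s35as_comp O hπ q E' E hle hE W D 𝒪 := hω1
  obtain ⟨hωGU, hωO, hωi⟩ := s35as_comp_unit_red O hπ q E' E hle hE W D 𝒪 (W ω) hω1' hω2
  have heb : gq_IsBdd O L ((W e : ↥E) : LaurentSeries L) := he1
  have hemem := s35as_red_mem_kappa O hπ q E' E hle hE W D (W e) heb
  obtain ⟨hωm, hωO'⟩ := hωO
  refine ⟨⟨_, hωm⟩, ⟨_, hemem⟩, ?_, hωO', ?_⟩
  · rw [hG, map_mul, map_pow]
    push_cast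
    rw [s35as_red_mul hωGU.1 (s35as_bdd_pow heb m), s35as_red_pow heb]
  · obtain ⟨hm', hi'⟩ := hωi
    have : (⟨_, hωm⟩ : ↥(s35kp_kappa O hπ E' (hle.trans hE)))⁻¹ = ⟨_, hm'⟩ :=
      Subtype.ext (IntermediateField.coe_inv _ _)
    rw [this]
    exact hi'

end Composite



end Fermat.Agent.S35
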