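/-
Project S35, cell [ABEL-ASM] (helper4), part 1: THE TOTAL GAUSS REDUCTION AND UNITS.  Prefix `s35as_`.

`O` a local domain with fraction field `L`.  `s35as_red O z` is the Gauss reduction `gq_res` of a
Gauss-bounded series `z ∈ L((X))`, and `0` when `z` is not bounded.  `s35as_IsGU O z` ("Gauss
unit"): `z` bounded with nonzero reduction (equivalently `z` and `z⁻¹` bounded).
-/
import Mathlib
import Fermat.Agent.JT3.Bridge.GaussCenter

set_option autoImplicit false
set_option linter.unusedSectionVars false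
set_option linter.unusedVariables false

noncomputable section

namespace Fermat.Agent.S35

open ModularCurve IsLocalRing Fermat.Agent.JT3

section Red

variable (O : Type*) [CommRing O] [IsDomain O] [IsLocalRing O]
variable {L : Type*} [Field L] [Algebra O L] [IsFractionRing O L]

/-- the total Gauss reduction (zero on unbounded series). -/
def s35as_red (z : LaurentSeries L) : LaurentSeries (ResidueField O) :=
  open Classical in if h : gq_IsBdd O L z then gq_res O L ⟨z, h⟩ else 0

variable {O}

theorem s35as_red_eq {z : LaurentSeries L} (h : gq_IsBdd O L z) :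
    s35as_red O z = gq_res O L ⟨z, h⟩ := by
  unfold s35as_red
  rw [dif_pos h]

theorem s35as_bdd_mul {x y : LaurentSeries L} (hx : gq_IsBdd O L x) (hy : gq_IsBdd O L y) :
    gq_IsBdd O L (x * y) := (gq_bddSubring O L).mul_mem hx hy

theorem s35as_bdd_add {x y : LaurentSeries L} (hx : gq_IsBdd O L x) (hy : gq_IsBdd O L y) :
    gq_IsBdd O L (x + y) := (gq_bddSubring O L).add_mem hx hy

theorem s35as_bdd_sub {x y : LaurentSeries L} (hx : gq_IsBdd O L x) (hy : gq_IsBdd O L y) :
    gq_IsBdd O L (x - y) := (gq_bddSubring O L).sub_mem hx hy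

theorem s35as_bdd_pow {x : LaurentSeries L} (hx : gq_IsBdd O L x) (n : ℕ) :
    gq_IsBdd O L (x ^ n) := (gq_bddSubring O L).pow_mem hx n

theorem s35as_bdd_one : gq_IsBdd O L (1 : LaurentSeries L) := (gq_bddSubring O L).one_mem

theorem s35as_bdd_zero : gq_IsBdd O L (0 : LaurentSeries L) := (gq_bddSubring O L).zero_mem

theorem s35as_red_mul {x y : LaurentSeries L} (hx : gq_IsBdd O L x) (hy : gq_IsBdd O L y) :
    s35as_red O (x * y) = s35as_red O x * s35as_red O y := by
  rw [s35as_red_eq (s35as_bdd_mul hx hy), s35as_red_eq hx, s35as_red_eq hy, ← map_mul]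
  rfl

theorem s35as_red_add {x y : LaurentSeries L} (hx : gq_IsBdd O L x) (hy : gq_IsBdd O L y) :
    s35as_red O (x + y) = s35as_red O x + s35as_red O y := by
  rw [s35as_red_eq (s35as_bdd_add hx hy), s35as_red_eq hx, s35as_red_eq hy, ← map_add]
  rfl

theorem s35as_red_sub {x y : LaurentSeries L} (hx : gq_IsBdd O L x) (hy : gq_IsBdd O L y) :
    s35as_red O (x - y) = s35as_red O x - s35as_red O y := by
  rw [s35as_red_eq (s35as_bdd_sub hx hy), s35as_red_eq hx, s35as_red_eq hy, ← map_sub]
  rfl

theorem s35as_red_pow {x : LaurentSeries L} (hx : gq_IsBdd O L x) (n : ℕ) :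
    s35as_red O (x ^ n) = s35as_red O x ^ n := by
  rw [s35as_red_eq (s35as_bdd_pow hx n), s35as_red_eq hx, ← map_pow]
  rfl

theorem s35as_red_one : s35as_red O (1 : LaurentSeries L) = 1 := by
  rw [s35as_red_eq s35as_bdd_one]
  exact map_one (gq_res O L)

theorem s35as_red_zero : s35as_red O (0 : LaurentSeries L) = 0 := by
  rw [s35as_red_eq s35as_bdd_zero]
  exact map_zero (gq_res O L)

/-- constants of `O` are bounded, with the expected reduction. -/
theorem s35as_bdd_const (c : O) :
    gq_IsBdd O L (algebraMap L (LaurentSeries L) (algebraMap O L c)) :=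
  (gq_constHom O L c).2

theorem s35as_red_const (c : O) :
    s35as_red O (algebraMap L (LaurentSeries L) (algebraMap O L c)) =
      algebraMap (ResidueField O) (LaurentSeries (ResidueField O)) (residue O c) := by
  rw [s35as_red_eq (s35as_bdd_const c)]
  exact gq_res_constHom (K := L) c

/-- **Gauss unit**: bounded with nonzero reduction. -/
def s35as_IsGU (O : Type*) [CommRing O] [IsDomain O] [IsLocalRing O] {L : Type*} [Field L]
    [Algebra O L] [IsFractionRing O L] (z : LaurentSeries L) : Prop :=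
  gq_IsBdd O L z ∧ s35as_red O z ≠ 0

theorem s35as_IsGU.bdd {z : LaurentSeries L} (h : s35as_IsGU O z) : gq_IsBdd O L z := h.1

theorem s35as_IsGU.ne_zero {z : LaurentSeries L} (h : s35as_IsGU O z) : z ≠ 0 := by
  rintro rfl
  exact h.2 s35as_red_zero

theorem s35as_IsGU.inv_bdd {z : LaurentSeries L} (h : s35as_IsGU O z) : gq_IsBdd O L z⁻¹ := by
  have h2 := h.2
  rw [s35as_red_eq h.1] at h2
  exact gq_isBdd_inv_of_res_ne_zero ⟨z, h.1⟩ h2

theorem s35as_isGU_of_inv {z : LaurentSeries L} (hz : gq_IsBdd O L z) (hinv : gq_IsBdd O L z⁻¹)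
    (h0 : z ≠ 0) : s35as_IsGU O z := by
  refine ⟨hz, ?_⟩
  rw [s35as_red_eq hz]
  exact gq_res_ne_zero_of_inv ⟨z, hz⟩ hinv h0

theorem s35as_IsGU.mul {x y : LaurentSeries L} (hx : s35as_IsGU O x) (hy : s35as_IsGU O y) :
    s35as_IsGU O (x * y) :=
  ⟨s35as_bdd_mul hx.1 hy.1, by rw [s35as_red_mul hx.1 hy.1]; exact mul_ne_zero hx.2 hy.2⟩

theorem s35as_IsGU.pow {x : LaurentSeries L} (hx : s35as_IsGU O x) (n : ℕ) :
    s35as_IsGU O (x ^ n) :=
  ⟨s35as_bdd_pow hx.1 n, by rw [s35as_red_pow hx.1]; exact pow_ne_zero n hx.2⟩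

theorem s35as_IsGU.inv {x : LaurentSeries L} (hx : s35as_IsGU O x) : s35as_IsGU O x⁻¹ :=
  s35as_isGU_of_inv hx.inv_bdd (by rw [inv_inv]; exact hx.1) (inv_ne_zero hx.ne_zero)

theorem s35as_red_inv {x : LaurentSeries L} (hx : s35as_IsGU O x) :
    s35as_red O x⁻¹ = (s35as_red O x)⁻¹ := by
  have h1 : s35as_red O x * s35as_red O x⁻¹ = 1 := by
    rw [← s35as_red_mul hx.1 hx.inv_bdd, mul_inv_cancel₀ hx.ne_zero, s35as_red_one]
  exact eq_inv_of_mul_eq_one_right h1

theorem s35as_IsGU.div {x y : LaurentSeries L} (hx : s35as_IsGU O x) (hy : s35as_IsGU O y) :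
    s35as_IsGU O (x / y) := by
  rw [div_eq_mul_inv]
  exact hx.mul hy.inv

theorem s35as_red_div {x y : LaurentSeries L} (hx : gq_IsBdd O L x) (hy : s35as_IsGU O y) :
    s35as_red O (x / y) = s35as_red O x / s35as_red O y := by
  rw [div_eq_mul_inv, s35as_red_mul hx hy.inv_bdd, s35as_red_inv hy, div_eq_mul_inv]

theorem s35as_isGU_one : s35as_IsGU O (1 : LaurentSeries L) :=
  ⟨s35as_bdd_one, by rw [s35as_red_one]; exact one_ne_zero⟩

theorem s35as_IsGU.zpow {x : LaurentSeries L} (hx : s35as_IsGU O x) (n : ℤ) :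
    s35as_IsGU O (x ^ n) := by
  cases n with
  | ofNat k => rw [Int.ofNat_eq_natCast, zpow_natCast]; exact hx.pow k
  | negSucc k => rw [zpow_negSucc]; exact (hx.pow (k + 1)).inv

/-- a unit of `O` is a Gauss unit. -/
theorem s35as_isGU_const {c : O} (hc : IsUnit c) :
    s35as_IsGU O (algebraMap L (LaurentSeries L) (algebraMap O L c)) := by
  refine ⟨s35as_bdd_const c, ?_⟩
  rw [s35as_red_const]
  intro h0
  have h1 : residue O c = 0 := by
    have hinj : Function.Injective
        (algebraMap (ResidueField O) (LaurentSeries (ResidueField O))) :=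
      (algebraMap (ResidueField O) (LaurentSeries (ResidueField O))).injective
    exact hinj (by rw [h0, map_zero])
  rw [residue_eq_zero_iff] at h1
  exact (mem_maximalIdeal c).1 h1 hc

/-- the reduction is zero iff ... congruence: two bounded series with `x - y` of zero reduction have
the same reduction. -/
theorem s35as_red_eq_of_sub {x y : LaurentSeries L} (hx : gq_IsBdd O L x) (hy : gq_IsBdd O L y)
    (h : s35as_red O (x - y) = 0) : s35as_red O x = s35as_red O y := by
  rw [s35as_red_sub hx hy] at h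
  exact sub_eq_zero.1 h

end Red

end Fermat.Agent.S35
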