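/-
Project S35, cell [ABEL-ASM] (helper4), part 2: GAUSS UNITS IN A SUBFIELD `E ≤ Quot(O((X)))`.
Prefix `s35as_`.

`O ⊆ L` a discrete valuation ring with uniformiser `π`, `E ≤ gq_quotField O L`:
* `s35as_exists_zpow_isGU` : every `x ∈ Eˣ` is `π^k ·` (Gauss unit), `k ∈ ℤ`;
* `s35as_const_mem_of_bdd`, `s35as_const_isUnit_of_isGU` : a Gauss-bounded constant lies in `O`, a
  constant Gauss unit is a unit of `O`;
* `s35as_mem_nonunits_iff` : `x ∈ 𝔪(V)` iff `x` is bounded with zero reduction.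
-/
import Mathlib
import Fermat.Agent.S35.AbelAsm.Red
import Fermat.Agent.SS.Model.Gauss

set_option autoImplicit false
set_option linter.unusedSectionVars false
set_option linter.unusedVariables false
set_option linter.style.haveILetI false

noncomputable section

namespace Fermat.Agent.S35

open ModularCurve IsLocalRing IntermediateField Fermat.Agent.JT3 Fermat.Agent.SS

section Val

variable {L : Type*} [Field L] (O : ValuationSubring L) [IsDiscreteValuationRing O] {π : O}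
  (hπ : Irreducible π)
variable (E : IntermediateField L (LaurentSeries L)) (hE : E ≤ gq_quotField O L)

/-- the uniformiser as an element of `E`. -/
abbrev s35as_pi : ↥E := algebraMap L ↥E ((π : O) : L)

include hπ in
theorem s35as_pi_ne_zero : s35as_pi (π := π) O E ≠ 0 := by
  rw [Ne, map_eq_zero]
  exact fun h => hπ.ne_zero (Subtype.ext h)

theorem s35as_coe_pi : ((s35as_pi (π := π) O E : ↥E) : LaurentSeries L) =
    algebraMap L (LaurentSeries L) (algebraMap O L π) := rfl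

/-- membership in the maximal ideal of the Gauss ring. -/
theorem s35as_mem_nonunits_iff (x : ↥E) :
    x ∈ (gq_valSubOf π hπ.ne_zero hπ.maximalIdeal_eq E hE).nonunits ↔
      gq_IsBdd O L (x : LaurentSeries L) ∧ s35as_red (↥O) (x : LaurentSeries L) = 0 := by
  constructor
  · intro h
    have hb : gq_IsBdd O L (x : LaurentSeries L) :=
      ((ValuationSubring.mem_nonunits_iff_exists_mem_maximalIdeal).1 h).1
    refine ⟨hb, ?_⟩
    rw [s35as_red_eq hb]
    exact (gq_mem_nonunits_iff_res π hπ.ne_zero hπ.maximalIdeal_eq E hE x hb).1 h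
  · rintro ⟨hb, h0⟩
    rw [s35as_red_eq hb] at h0
    exact (gq_mem_nonunits_iff_res π hπ.ne_zero hπ.maximalIdeal_eq E hE x hb).2 h0

include hπ hE in
/-- every nonzero element of `E` is a power of `π` times a Gauss unit. -/
theorem s35as_exists_zpow_isGU (x : ↥E) (hx : x ≠ 0) :
    ∃ k : ℤ, s35as_IsGU (↥O) ((x * s35as_pi (π := π) O E ^ k : ↥E) : LaurentSeries L) := by
  have hπE := s35as_pi_ne_zero O hπ E
  -- the case of an element of the Gauss ring
  have key : ∀ y : ↥E, y ≠ 0 → y ∈ gq_valSubOf π hπ.ne_zero hπ.maximalIdeal_eq E hE →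
      ∃ n : ℕ, s35as_IsGU (↥O)
        ((y * (s35as_pi (π := π) O E ^ n)⁻¹ : ↥E) : LaurentSeries L) := by
    intro y hy0 hyV
    obtain ⟨n, u, hu⟩ := ssm_ga_exists_pow_unit π hπ.ne_zero hπ.maximalIdeal_eq E hE ⟨y, hyV⟩
      (fun h => hy0 (congrArg Subtype.val h))
    refine ⟨n, ?_⟩
    have h1 : (y : ↥E) = s35as_pi (π := π) O E ^ n * ((u : ↥(gq_valSubOf π hπ.ne_zero
        hπ.maximalIdeal_eq E hE)) : ↥E) := by
      have h0 := congrArg Subtype.val hu
      have h0' : (gq_unif π hπ.ne_zero hπ.maximalIdeal_eq E hE : ↥E) ^ n *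
          ((u : ↥(gq_valSubOf π hπ.ne_zero hπ.maximalIdeal_eq E hE)) : ↥E) = y := by
        simpa using h0
      rw [← h0']
      rfl
    have h2 : y * (s35as_pi (π := π) O E ^ n)⁻¹ = ((u : ↥(gq_valSubOf π hπ.ne_zero
        hπ.maximalIdeal_eq E hE)) : ↥E) := by
      rw [h1]
      field_simp
    rw [h2]
    have hub : gq_IsBdd O L (((u : ↥(gq_valSubOf π hπ.ne_zero hπ.maximalIdeal_eq E hE)) : ↥E) :
        LaurentSeries L) := (u : ↥(gq_valSubOf π hπ.ne_zero hπ.maximalIdeal_eq E hE)).2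
    have huinv : gq_IsBdd O L (((u : ↥(gq_valSubOf π hπ.ne_zero hπ.maximalIdeal_eq E hE)) : ↥E) :
        LaurentSeries L)⁻¹ := by
      have h3 := ((u⁻¹ : (↥(gq_valSubOf π hπ.ne_zero hπ.maximalIdeal_eq E hE))ˣ) :
        ↥(gq_valSubOf π hπ.ne_zero hπ.maximalIdeal_eq E hE)).2
      have h4 : (((u⁻¹ : (↥(gq_valSubOf π hπ.ne_zero hπ.maximalIdeal_eq E hE))ˣ) :
          ↥(gq_valSubOf π hπ.ne_zero hπ.maximalIdeal_eq E hE)) : ↥E) =
          (((u : ↥(gq_valSubOf π hπ.ne_zero hπ.maximalIdeal_eq E hE)) : ↥E))⁻¹ := by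
        have h5 : ((u : ↥(gq_valSubOf π hπ.ne_zero hπ.maximalIdeal_eq E hE)) : ↥E) *
            (((u⁻¹ : (↥(gq_valSubOf π hπ.ne_zero hπ.maximalIdeal_eq E hE))ˣ) :
              ↥(gq_valSubOf π hπ.ne_zero hπ.maximalIdeal_eq E hE)) : ↥E) = 1 := by
          have h7 := congrArg Subtype.val (u.mul_inv)
          exact h7
        exact eq_inv_of_mul_eq_one_right h5
      rw [h4] at h3
      have h6 : gq_IsBdd O L
          (((((u : ↥(gq_valSubOf π hπ.ne_zero hπ.maximalIdeal_eq E hE)) : ↥E))⁻¹ : ↥E) :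
            LaurentSeries L) := h3
      rwa [IntermediateField.coe_inv] at h6
    refine s35as_isGU_of_inv hub huinv ?_
    intro h0
    have h8 : ((u : ↥(gq_valSubOf π hπ.ne_zero hπ.maximalIdeal_eq E hE)) : ↥E) = 0 :=
      Subtype.ext h0
    rw [h8, mul_zero] at h1
    exact hy0 h1
  rcases (gq_valSubOf π hπ.ne_zero hπ.maximalIdeal_eq E hE).mem_or_inv_mem x with hxV | hxV
  · obtain ⟨n, hn⟩ := key x hx hxV
    refine ⟨-(n : ℤ), ?_⟩
    rwa [zpow_neg, zpow_natCast]
  · obtain ⟨n, hn⟩ := key x⁻¹ (inv_ne_zero hx) hxV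
    refine ⟨(n : ℤ), ?_⟩
    have h1 : x * s35as_pi (π := π) O E ^ (n : ℤ) =
        (x⁻¹ * (s35as_pi (π := π) O E ^ n)⁻¹)⁻¹ := by
      rw [zpow_natCast, mul_inv, inv_inv, inv_inv]
    rw [h1, IntermediateField.coe_inv]
    exact hn.inv

/-- a Gauss-bounded constant lies in `O`. -/
theorem s35as_const_mem_of_bdd (c : L)
    (h : gq_IsBdd O L (algebraMap L (LaurentSeries L) c)) : c ∈ O := by
  by_contra hc
  have hc0 : c ≠ 0 := fun h0 => hc (h0 ▸ O.zero_mem)
  have hinv : c⁻¹ ∈ O := (O.mem_or_inv_mem c).resolve_left hc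
  have hnu : ¬ IsUnit (⟨c⁻¹, hinv⟩ : ↥O) := by
    intro hu
    obtain ⟨b, hb⟩ := hu.exists_right_inv
    apply hc
    have h1 : c⁻¹ * (b : L) = 1 := by
      have := congrArg Subtype.val hb
      simpa using this
    have h2 : (b : L) = c := by
      field_simp at h1
      exact h1
    rw [← h2]
    exact b.2
  have hm : (⟨c⁻¹, hinv⟩ : ↥O) ∈ maximalIdeal ↥O := (mem_maximalIdeal _).2 hnu
  have hres : residue ↥O ⟨c⁻¹, hinv⟩ = 0 := (residue_eq_zero_iff _).2 hm
  have h1 : s35as_red (↥O) (algebraMap L (LaurentSeries L) c *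
      algebraMap L (LaurentSeries L) (algebraMap ↥O L ⟨c⁻¹, hinv⟩)) = 1 := by
    have : algebraMap L (LaurentSeries L) c *
        algebraMap L (LaurentSeries L) (algebraMap ↥O L ⟨c⁻¹, hinv⟩) = 1 := by
      rw [← map_mul]
      have : c * algebraMap ↥O L ⟨c⁻¹, hinv⟩ = 1 := mul_inv_cancel₀ hc0
      rw [this, map_one]
    rw [this, s35as_red_one]
  rw [s35as_red_mul h (s35as_bdd_const _), s35as_red_const, hres, map_zero, mul_zero] at h1
  exact zero_ne_one h1

/-- a constant which is a Gauss unit is a unit of `O`. -/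
theorem s35as_const_isUnit_of_isGU (c : L)
    (h : s35as_IsGU (↥O) (algebraMap L (LaurentSeries L) c)) :
    ∃ u : ↥O, IsUnit u ∧ (u : L) = c := by
  have hc := s35as_const_mem_of_bdd O c h.1
  have hcinv : c⁻¹ ∈ O := by
    apply s35as_const_mem_of_bdd O
    rw [map_inv₀]
    exact h.inv_bdd
  have hc0 : c ≠ 0 := by
    rintro rfl
    exact h.ne_zero (map_zero _)
  refine ⟨⟨c, hc⟩, ?_, rfl⟩
  refine isUnit_iff_exists_inv.2 ⟨⟨c⁻¹, hcinv⟩, ?_⟩
  apply Subtype.ext
  show c * c⁻¹ = 1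
  exact mul_inv_cancel₀ hc0

end Val

end Fermat.Agent.S35
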