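/-
Project S35, cell [CORE-ASM] (helper4), part 4: THE COEFFICIENT ACTION `Φ`.  Prefix `s35as_`.

`φ : L ≃+* L` a Frobenius lift at `O` (`s35nf_FrobAt`) fixing the uniformiser, `Φ` the induced
coefficientwise automorphism of a field `E ≤ Quot(O((X)))`.

* `s35as_isGU_coeffMap`   : `coeffMap φ` preserves Gauss units, `red (φ z) = Fr (red z)`;
* `s35as_isGU_phi_div`    : `Φ x / x` is a Gauss unit for every `x ≠ 0`;
* `s35as_dvd_ord_phi_div` : if `m` divides all orders of `f`, it divides all orders of `Φ f / f`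
                            (any semilinear automorphism);
* `s35as_norm_phi`        : `N (Φ g) = Φ' (N g)` for compatible automorphisms of a tower `E' ≤ E`;
* `s35as_norm_phi_div`    : `N g = c · r^m ⟹ N (Φ g / g) = (φ c / c) · (Φ' r / r)^m`.
-/
import Mathlib
import Fermat.Agent.S35.AbelAsm.Val
import Fermat.Agent.S35.NodeFrob.Gauss
import Fermat.Agent.S35.PEquiv.NormBC
import Fermat.Agent.SS.Model.TwoValInst

set_option autoImplicit false
set_option linter.unusedSectionVars false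
set_option linter.unusedVariables false
set_option linter.style.haveILetI false

noncomputable section

namespace Fermat.Agent.S35

open ModularCurve IsLocalRing IntermediateField AlgebraicCurve
open Fermat.Agent.JT3 Fermat.Agent.SS

/-! ### orders -/

section Ord

variable {K F : Type*} [Field K] [Field F] [Algebra K F]

/-- if all orders of `f` are divisible by `m`, so are all orders of `Φ f / f`, for `Φ` a
semilinear automorphism. -/
theorem s35as_dvd_ord_phi_div (Φ : F ≃+* F) (φ : K ≃+* K)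
    (hcomm : ∀ a : K, Φ (algebraMap K F a) = algebraMap K F (φ a)) (m : ℤ) {f : F} (hf : f ≠ 0)
    (h : ∀ v : Place K F, m ∣ v.ord f) (w : Place K F) : m ∣ w.ord (Φ f / f) := by
  set g : SemilinearAut K F := ⟨(Φ, φ), hcomm⟩ with hg
  have hgf : g • f = Φ f := rfl
  have hΦf : Φ f ≠ 0 := (map_ne_zero Φ).2 hf
  rw [div_eq_mul_inv, w.ord_mul hΦf (inv_ne_zero hf), w.ord_inv]
  have h1 : w.ord (Φ f) = (g⁻¹ • w).ord f := by
    have h2 := SemilinearAut.ord_smul g (g⁻¹ • w) f
    rw [smul_inv_smul, hgf] at h2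
    exact h2
  rw [h1]
  exact dvd_add (h _) ((dvd_neg).2 (h _))

end Ord

/-! ### Gauss units -/

section GU

variable {L : Type*} [Field L] (O : ValuationSubring L) [IsDiscreteValuationRing O] {π : O}
  (hπ : Irreducible π)
variable {q : ℕ} [hq : Fact q.Prime] [CharP (ResidueField O) q]
variable {φ : L ≃+* L} (hφ : s35nf_FrobAt O φ q)

include hφ in
/-- `red (φ z) = Fr (red z)`. -/
theorem s35as_red_coeffMap {z : LaurentSeries L} (hz : gq_IsBdd O L z) :
    s35as_red (↥O) (coeffMap (φ : L →+* L) z) =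
      coeffMap (frobenius (ResidueField O) q) (s35as_red (↥O) z) := by
  rw [s35as_red_eq (s35nf_isBdd hφ hz), s35as_red_eq hz]
  exact s35nf_res hφ ⟨z, hz⟩

include hφ in
/-- `coeffMap φ` preserves Gauss units. -/
theorem s35as_isGU_coeffMap {z : LaurentSeries L} (hz : s35as_IsGU (↥O) z) :
    s35as_IsGU (↥O) (coeffMap (φ : L →+* L) z) := by
  refine ⟨s35nf_isBdd hφ hz.1, ?_⟩
  rw [s35as_red_coeffMap O hφ hz.1]
  intro h0
  exact hz.2 (s35nf_coeffMap_frobenius_injective (by rw [h0, map_zero]))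

variable (E : IntermediateField L (LaurentSeries L)) (hE : E ≤ gq_quotField O L)

include hπ hE hφ in
/-- **`Φ x / x` is a Gauss unit.** -/
theorem s35as_isGU_phi_div (hφπ : φ ((π : ↥O) : L) = ((π : ↥O) : L)) (Φ : ↥E ≃+* ↥E)
    (hΦ : ∀ x : ↥E, ((Φ x : ↥E) : LaurentSeries L) =
      coeffMap (φ : L →+* L) (x : LaurentSeries L)) (x : ↥E) (hx : x ≠ 0) :
    s35as_IsGU (↥O) ((Φ x / x : ↥E) : LaurentSeries L) := by
  obtain ⟨k, hk⟩ := s35as_exists_zpow_isGU O hπ E hE x hx
  have hπE := s35as_pi_ne_zero O hπ E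
  have hΦπ : Φ (s35as_pi (π := π) O E) = s35as_pi (π := π) O E := by
    apply Subtype.ext
    rw [hΦ, s35as_coe_pi]
    have : coeffMap (φ : L →+* L) (algebraMap L (LaurentSeries L) (algebraMap (↥O) L π)) =
        algebraMap L (LaurentSeries L) (φ (algebraMap (↥O) L π)) :=
      coeffMap_algebraMap (φ : L →+* L) _
    rw [this]
    congr 1
  have e : Φ x / x = Φ (x * s35as_pi (π := π) O E ^ k) / (x * s35as_pi (π := π) O E ^ k) := by
    rw [map_mul, map_zpow₀, hΦπ]
    field_simp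
  rw [e]
  have h1 : s35as_IsGU (↥O)
      ((Φ (x * s35as_pi (π := π) O E ^ k) : ↥E) : LaurentSeries L) := by
    rw [hΦ]
    exact s35as_isGU_coeffMap O hφ hk
  exact h1.div hk

end GU

/-! ### norms -/

section Norm

variable {L : Type*} [Field L] (E' E : IntermediateField L (LaurentSeries L)) (hle : E' ≤ E)

/-- **`N (Φ g) = Φ' (N g)`** for compatible automorphisms of the tower `E' ≤ E`. -/
theorem s35as_norm_phi (Φ' : ↥E' ≃+* ↥E') (Φ : ↥E ≃+* ↥E)
    (hfd : letI := ssm_gi_algebra hle; FiniteDimensional ↥E' ↥E)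
    (hcomp : ∀ z : ↥E', Φ (IntermediateField.inclusion hle z) =
      IntermediateField.inclusion hle (Φ' z)) (g : ↥E) :
    letI := ssm_gi_algebra hle
    Algebra.norm ↥E' (Φ g) = Φ' (Algebra.norm ↥E' g) := by
  letI := ssm_gi_algebra hle
  haveI := hfd
  refine s35pe_norm_baseChange (Φ' : ↥E' →+* ↥E') (Φ : ↥E →+* ↥E) hcomp rfl ?_ g
  rw [eq_top_iff]
  intro y _
  exact Algebra.subset_adjoin ⟨Φ.symm y, Φ.apply_symm_apply y⟩

/-- **`N g = c · r^m ⟹ N (Φ g / g) = (φ c / c) · (Φ' r / r)^m`.** -/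
theorem s35as_norm_phi_div (φ : L ≃+* L) (Φ' : ↥E' ≃+* ↥E') (Φ : ↥E ≃+* ↥E)
    (hfd : letI := ssm_gi_algebra hle; FiniteDimensional ↥E' ↥E)
    (hcomp : ∀ z : ↥E', Φ (IntermediateField.inclusion hle z) =
      IntermediateField.inclusion hle (Φ' z))
    (hΦ'C : ∀ c : L, Φ' (algebraMap L ↥E' c) = algebraMap L ↥E' (φ c))
    (m : ℕ) (g : ↥E) (hg : g ≠ 0)
    (hN : letI := ssm_gi_algebra hle
      ∃ (c : L) (r : ↥E'), r ≠ 0 ∧ Algebra.norm ↥E' g = algebraMap L ↥E' c * r ^ m) :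
    letI := ssm_gi_algebra hle
    ∃ (c : L) (r : ↥E'), r ≠ 0 ∧ Algebra.norm ↥E' (Φ g / g) = algebraMap L ↥E' c * r ^ m := by
  letI := ssm_gi_algebra hle
  haveI := hfd
  obtain ⟨c, r, hr, hn⟩ := hN
  have h1 : Algebra.norm ↥E' (Φ g / g) * Algebra.norm ↥E' g = Algebra.norm ↥E' (Φ g) := by
    rw [← map_mul, div_mul_cancel₀ _ hg]
  have hNg : Algebra.norm ↥E' g ≠ 0 := by
    intro h0
    have hΦg : Φ g ≠ 0 := (map_ne_zero Φ).2 hg
    rw [h0, mul_zero, s35as_norm_phi E' E hle Φ' Φ hfd hcomp g, h0, map_zero] at h1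
    -- `N g = 0` forces `g = 0` through `N (g) * N (g⁻¹) = 1`
    have h2 : Algebra.norm ↥E' g * Algebra.norm ↥E' g⁻¹ = 1 := by
      rw [← map_mul, mul_inv_cancel₀ hg, map_one]
    rw [h0, zero_mul] at h2
    exact zero_ne_one h2
  have hc : c ≠ 0 := by
    rintro rfl
    rw [map_zero, zero_mul] at hn
    exact hNg hn
  have hcE : algebraMap L ↥E' c ≠ 0 := by
    rw [Ne, map_eq_zero]
    exact hc
  refine ⟨φ c / c, Φ' r / r, div_ne_zero ((map_ne_zero Φ').2 hr) hr, ?_⟩
  rw [s35as_norm_phi E' E hle Φ' Φ hfd hcomp g] at h1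
  rw [eq_div_of_mul_eq hNg h1, hn, map_mul, map_pow, hΦ'C, map_div₀, div_pow]
  have hrm : r ^ m ≠ 0 := pow_ne_zero m hr
  field_simp

end Norm

end Fermat.Agent.S35
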