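/-
Project S35, cell [CORE-ASM] (helper4), part 5: THE COMMON CORE FOR `G = Φ g / g`.  Prefix `s35as_`.

Context of `S35/AbelAsm/Core.lean` (generic tower `E' ≤ E ≤ Quot(O((X)))` with the two-valuations
data `D`) plus a Frobenius lift `φ` at `O` fixing the uniformiser, acting coefficientwise on `E'`
(`Φ'`) and on `E` (`Φ`), commuting with `W`.

`s35as_abel_of_new`: for `g ≠ 0` in `E` whose norms `N g`, `N (W g)` are constants times `m`-th
powers: if the [ABEL] conclusion holds for the reductions of `G := Φ g / g` and `W G`, then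
`G ^ E₀ = R ^ m · g'` with `g'` of constant reductions at `V₁` and `V₂`; moreover
(`s35as_dvd_ord_quot`) `m` divides all orders of `g'` as soon as it divides all orders of `g`.
-/
import Mathlib
import Fermat.Agent.S35.AbelAsm.Core
import Fermat.Agent.S35.AbelAsm.Equiv

set_option autoImplicit false
set_option linter.unusedSectionVars false
set_option linter.unusedVariables false
set_option linter.style.haveILetI false

noncomputable section

namespace Fermat.Agent.S35

open ModularCurve IsLocalRing IntermediateField AlgebraicCurve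
open Fermat.Agent.JT3 Fermat.Agent.SS Fermat.Agent.S28

section Ord

variable {K F : Type*} [Field K] [Field F] [Algebra K F]

/-- `G ^ E₀ = R ^ m · g'` and `m ∣` all orders of `G` ⟹ `m ∣` all orders of `g'`. -/
theorem s35as_dvd_ord_quot (m : ℕ) (E0 : ℕ) {G R g' : F} (hR : R ≠ 0) (hg' : g' ≠ 0)
    (h : G ^ E0 = R ^ m * g') (hG : ∀ v : Place K F, (m : ℤ) ∣ v.ord G) (w : Place K F) :
    (m : ℤ) ∣ w.ord g' := by
  have h1 : w.ord (G ^ E0) = w.ord (R ^ m) + w.ord g' := by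
    rw [h, w.ord_mul (pow_ne_zero m hR) hg']
  have hp : ∀ (f : F) (n : ℕ), w.ord (f ^ n) = n * w.ord f := fun f n => by
    have := w.ord_zpow f (n : ℤ)
    rwa [zpow_natCast] at this
  rw [hp, hp] at h1
  have h2 : w.ord g' = (E0 : ℤ) * w.ord G - (m : ℤ) * w.ord R := by linarith
  rw [h2]
  exact dvd_sub (Dvd.dvd.mul_left (hG w) _) (dvd_mul_right _ _)

end Ord

section New

variable {L : Type*} [Field L] [CharZero L] (O : ValuationSubring L)
  [IsDiscreteValuationRing O] {π : O} (hπ : Irreducible π)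
variable (q : ℕ) [NeZero q] [hq : Fact q.Prime] [CharP (ResidueField O) q]
variable (E' E : IntermediateField L (LaurentSeries L)) (hle : E' ≤ E)
  (hE : E ≤ gq_quotField O L)

set_option maxHeartbeats 800000 in
include hπ hE in
/-- **[ABEL-ASM], common core for `G = Φ g / g`.** -/
theorem s35as_abel_of_new (W : ↥E ≃+* ↥E)
    (hW : ∀ z : ↥E', ((W (IntermediateField.inclusion hle z) : ↥E) : LaurentSeries L) =
      qExpand L q (z : LaurentSeries L))
    {lam : ↥(gq_valSubOf π hπ.ne_zero hπ.maximalIdeal_eq E' (hle.trans hE))}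
    (D : letI := ssm_gi_algebra hle
      letI := ssm_gi_algebraV hle (gq_valSubOf π hπ.ne_zero hπ.maximalIdeal_eq E' (hle.trans hE))
      ssm_tw_Data ↥E' ↥(gq_valSubOf π hπ.ne_zero hπ.maximalIdeal_eq E' (hle.trans hE)) q
        (gq_valSubOf π hπ.ne_zero hπ.maximalIdeal_eq E hE) W lam)
    {φ : L ≃+* L} (hφ : s35nf_FrobAt O φ q) (hφπ : φ ((π : ↥O) : L) = ((π : ↥O) : L))
    (Φ' : ↥E' ≃+* ↥E') (Φ : ↥E ≃+* ↥E)
    (hΦ' : ∀ x : ↥E', ((Φ' x : ↥E') : LaurentSeries L) =
      coeffMap (φ : L →+* L) (x : LaurentSeries L))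
    (hΦ : ∀ x : ↥E, ((Φ x : ↥E) : LaurentSeries L) =
      coeffMap (φ : L →+* L) (x : LaurentSeries L))
    (hWΦ : ∀ x : ↥E, W (Φ x) = Φ (W x))
    (m E0 : ℕ) (hm : m ≠ 0) (g : ↥E) (hg : g ≠ 0)
    (hN1 : letI := ssm_gi_algebra hle
      ∃ (c : L) (r : ↥E'), r ≠ 0 ∧ Algebra.norm ↥E' g = algebraMap L ↥E' c * r ^ m)
    (hN2 : letI := ssm_gi_algebra hle
      ∃ (c : L) (r : ↥E'), r ≠ 0 ∧ Algebra.norm ↥E' (W g) = algebraMap L ↥E' c * r ^ m)
    (hAB :
      (∃ (c : ResidueField O) (h : LaurentSeries (ResidueField O)), h ∈ s35as_range O E' ∧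
        s35as_red (↥O) ((Φ g / g : ↥E) : LaurentSeries L) *
          coeffMap (frobenius (ResidueField O) q)
            (s35as_red (↥O) ((W (Φ g / g) : ↥E) : LaurentSeries L)) =
          algebraMap (ResidueField O) (LaurentSeries (ResidueField O)) c * h ^ m) →
      (∃ (c : ResidueField O) (h : LaurentSeries (ResidueField O)), h ∈ s35as_range O E' ∧
        s35as_red (↥O) ((W (Φ g / g) : ↥E) : LaurentSeries L) *
          coeffMap (frobenius (ResidueField O) q)
            (s35as_red (↥O) ((Φ g / g : ↥E) : LaurentSeries L)) =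
          algebraMap (ResidueField O) (LaurentSeries (ResidueField O)) c * h ^ m) →
      ∃ (k1 k2 : ResidueField O) (ρ1 ρ2 : LaurentSeries (ResidueField O)),
        ρ1 ∈ s35as_range O E' ∧ ρ2 ∈ s35as_range O E' ∧ k1 ≠ 0 ∧ k2 ≠ 0 ∧
        s35as_red (↥O) ((Φ g / g : ↥E) : LaurentSeries L) ^ E0 =
          algebraMap (ResidueField O) (LaurentSeries (ResidueField O)) k1 * ρ1 ^ m ∧
        s35as_red (↥O) ((W (Φ g / g) : ↥E) : LaurentSeries L) ^ E0 =
          algebraMap (ResidueField O) (LaurentSeries (ResidueField O)) k2 * ρ2 ^ m) :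
    s35as_IsGU (↥O) ((Φ g / g : ↥E) : LaurentSeries L) ∧
    s35as_IsGU (↥O) ((W (Φ g / g) : ↥E) : LaurentSeries L) ∧
    ∃ (R g' : ↥E), R ≠ 0 ∧ g' ≠ 0 ∧ (Φ g / g) ^ E0 = R ^ m * g' ∧
      ∃ K1 K2 : ↥O, IsUnit K1 ∧ IsUnit K2 ∧
        g' - algebraMap L ↥E (K1 : L) ∈
          (gq_valSubOf π hπ.ne_zero hπ.maximalIdeal_eq E hE).nonunits ∧
        g' - algebraMap L ↥E (K2 : L) ∈
          ((gq_valSubOf π hπ.ne_zero hπ.maximalIdeal_eq E hE).comap (W : ↥E →+* ↥E)).nonunits := by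
  classical
  letI := ssm_gi_algebra hle
  haveI hfd : FiniteDimensional ↥E' ↥E := ssm_gi_finiteDimensional D.finrank_eq
  have hWg : W g ≠ 0 := (map_ne_zero W).2 hg
  have hcomp : ∀ z : ↥E', Φ (IntermediateField.inclusion hle z) =
      IntermediateField.inclusion hle (Φ' z) := by
    intro z
    apply Subtype.ext
    rw [hΦ]
    exact (hΦ' z).symm
  have hΦ'C : ∀ c : L, Φ' (algebraMap L ↥E' c) = algebraMap L ↥E' (φ c) := by
    intro c
    apply Subtype.ext
    rw [hΦ']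
    exact coeffMap_algebraMap (φ : L →+* L) c
  have hWG : W (Φ g / g) = Φ (W g) / W g := by
    rw [map_div₀, hWΦ]
  have h1 : s35as_IsGU (↥O) ((Φ g / g : ↥E) : LaurentSeries L) :=
    s35as_isGU_phi_div O hπ hφ E hE hφπ Φ hΦ g hg
  have h2 : s35as_IsGU (↥O) ((W (Φ g / g) : ↥E) : LaurentSeries L) := by
    rw [hWG]
    exact s35as_isGU_phi_div O hπ hφ E hE hφπ Φ hΦ (W g) hWg
  have hN1' := s35as_norm_phi_div E' E hle φ Φ' Φ hfd hcomp hΦ'C m g hg hN1
  have hN2' : ∃ (c : L) (r : ↥E'), r ≠ 0 ∧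
      Algebra.norm ↥E' (W (Φ g / g)) = algebraMap L ↥E' c * r ^ m := by
    rw [hWG]
    exact s35as_norm_phi_div E' E hle φ Φ' Φ hfd hcomp hΦ'C m (W g) hWg hN2
  exact ⟨h1, h2, s35as_abel_of_unit O hπ q E' E hle hE W hW D m E0 hm (Φ g / g) h1 h2 hN1' hN2' hAB⟩

end New

end Fermat.Agent.S35
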