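/-
Project S35, cell [CORE-ASM] (helper4), part 7: [ABEL] AT ONE LEVEL, ABSTRACT TOWER.
Prefix `s35as_`.

Context of `S35/AbelAsm/New.lean` (generic tower `E' ≤ E ≤ Quot(O((X)))`, two-valuations data `D`,
Frobenius lift `φ` acting through `Φ'`, `Φ`, commuting with `W`).

`s35as_abelAt` : from
* `hHD`   : (H-DIV) for the functions which are units at `V₁` and `V₂` (helper19's [SFD-INST]),
* `hABEL` : [ABEL] over the residue field `k` of `O` for the reduction field `κ'` of `E'`, with the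
            orders hypothesis in FACTOR FORM (helper13's `s35bs_abel` + `s35bs_ord_of_factor`),
the primed [ABEL] seam: for `g ≠ 0` with all orders divisible by `m` and norms `N g`, `N (W g)`
constants times `m`-th powers, `(Φ g / g) ^ E₀ = R ^ m · g'` with `m ∣` all orders of `g'` and `g'`
of constant reductions at `V₁` and `V₂`.
-/
import Mathlib
import Fermat.Agent.S35.AbelAsm.New
import Fermat.Agent.S35.AbelAsm.Comp

set_option autoImplicit false
set_option linter.unusedSectionVars false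
set_option linter.unusedVariables false
set_option linter.style.haveILetI false

noncomputable section

namespace Fermat.Agent.S35

open ModularCurve IsLocalRing IntermediateField AlgebraicCurve Polynomial
open Fermat.Agent.JT3 Fermat.Agent.SS Fermat.Agent.S28

section Level

variable {L : Type*} [Field L] [CharZero L] (O : ValuationSubring L)
  [IsDiscreteValuationRing O] {π : O} (hπ : Irreducible π)
variable (q : ℕ) [NeZero q] [hq : Fact q.Prime] [CharP (ResidueField O) q]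
variable (E' E : IntermediateField L (LaurentSeries L)) (hle : E' ≤ E)
  (hE : E ≤ gq_quotField O L)

set_option synthInstance.maxHeartbeats 200000 in
/-- the orders hypothesis of [ABEL] in FACTOR FORM, for a series `u` of the reduction field `κ'`. -/
def s35as_Fac (m : ℕ) (u : LaurentSeries (ResidueField O)) : Prop :=
  ∀ 𝒪 : ValuationSubring ↥(s35kp_kappa O hπ E' (hle.trans hE)),
    (∀ c : ResidueField O, algebraMap (ResidueField O)
      ↥(s35kp_kappa O hπ E' (hle.trans hE)) c ∈ 𝒪) →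
    (∀ y ∈ 𝒪, ∃ p : (ResidueField O)[X], p.Monic ∧ aeval y p ∈ 𝒪.nonunits) →
    ∃ ω e : ↥(s35kp_kappa O hπ E' (hle.trans hE)),
      u = (ω : LaurentSeries (ResidueField O)) * (e : LaurentSeries (ResidueField O)) ^ m ∧
      ω ∈ 𝒪 ∧ ω⁻¹ ∈ 𝒪

/-- **[ABEL] over the residue field `k` of `O`**, for the reduction field `κ'` of `E'`, with
exponent `E₀`, at `m`. -/
def s35as_AbelK (m E0 : ℕ) : Prop :=
  ∀ (u₁ u₂ h h' : LaurentSeries (ResidueField O)),
    u₁ ∈ s35kp_kappa O hπ E' (hle.trans hE) → u₂ ∈ s35kp_kappa O hπ E' (hle.trans hE) →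
    h ∈ s35kp_kappa O hπ E' (hle.trans hE) → h' ∈ s35kp_kappa O hπ E' (hle.trans hE) →
    ∀ c c' : ResidueField O, u₁ ≠ 0 → u₂ ≠ 0 →
    s35as_Fac O hπ E' E hle hE m u₁ → s35as_Fac O hπ E' E hle hE m u₂ →
    u₁ * coeffMap (frobenius (ResidueField O) q) u₂ =
      algebraMap (ResidueField O) (LaurentSeries (ResidueField O)) c * h ^ m →
    coeffMap (frobenius (ResidueField O) q) u₁ * u₂ =
      algebraMap (ResidueField O) (LaurentSeries (ResidueField O)) c' * h' ^ m →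
    (∃ (a : ResidueField O) (w : LaurentSeries (ResidueField O)), a ≠ 0 ∧
        w ∈ s35kp_kappa O hπ E' (hle.trans hE) ∧ w ≠ 0 ∧
        u₁ ^ E0 = algebraMap (ResidueField O) (LaurentSeries (ResidueField O)) a * w ^ m) ∧
      ∃ (a : ResidueField O) (w : LaurentSeries (ResidueField O)), a ≠ 0 ∧
        w ∈ s35kp_kappa O hπ E' (hle.trans hE) ∧ w ≠ 0 ∧
        u₂ ^ E0 = algebraMap (ResidueField O) (LaurentSeries (ResidueField O)) a * w ^ m

set_option maxHeartbeats 1600000 in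
set_option synthInstance.maxHeartbeats 200000 in
include hπ hE in
/-- **[ABEL] at one level, abstract tower.** -/
theorem s35as_abelAt (W : ↥E ≃+* ↥E)
    (hW : ∀ z : ↥E', ((W (IntermediateField.inclusion hle z) : ↥E) : LaurentSeries L) =
      qExpand L q (z : LaurentSeries L))
    {lam : ↥(gq_valSubOf π hπ.ne_zero hπ.maximalIdeal_eq E' (hle.trans hE))}
    (D : letI := ssm_gi_algebra hle
      letI := ssm_gi_algebraV hle (gq_valSubOf π hπ.ne_zero hπ.maximalIdeal_eq E' (hle.trans hE))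
      ssm_tw_Data ↥E' ↥(gq_valSubOf π hπ.ne_zero hπ.maximalIdeal_eq E' (hle.trans hE)) q
        (gq_valSubOf π hπ.ne_zero hπ.maximalIdeal_eq E hE) W lam)
    {φ : L ≃+* L} (hφ : s35nf_FrobAt O φ q) (hφπ : φ ((π : ↥O) : L) = ((π : ↥O) : L))
    (Φ' : ↥E' ≃+* ↥E') (Φ : ↥E ≃+* ↥E)
    (hΦ' : ∀ x : ↥E', ((Φ' x : ↥E') : LaurentSeries L) =
      coeffMap (φ : L →+* L) (x : LaurentSeries L))
    (hΦ : ∀ x : ↥E, ((Φ x : ↥E) : LaurentSeries L) =
      coeffMap (φ : L →+* L) (x : LaurentSeries L))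
    (hWΦ : ∀ x : ↥E, W (Φ x) = Φ (W x))
    (m E0 : ℕ) (hm : m ≠ 0)
    (hHD : ∀ G : ↥E, G ≠ 0 → (∀ v : Place L ↥E, (m : ℤ) ∣ v.ord G) →
      (G ∈ gq_valSubOf π hπ.ne_zero hπ.maximalIdeal_eq E hE ∧
        G ∉ (gq_valSubOf π hπ.ne_zero hπ.maximalIdeal_eq E hE).nonunits) →
      (G ∈ (gq_valSubOf π hπ.ne_zero hπ.maximalIdeal_eq E hE).comap (W : ↥E →+* ↥E) ∧
        G ∉ ((gq_valSubOf π hπ.ne_zero hπ.maximalIdeal_eq E hE).comap
          (W : ↥E →+* ↥E)).nonunits) →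
      s35as_HDiv O E (gq_valSubOf π hπ.ne_zero hπ.maximalIdeal_eq E hE) m G ∧
      s35as_HDiv O E ((gq_valSubOf π hπ.ne_zero hπ.maximalIdeal_eq E hE).comap
        (W : ↥E →+* ↥E)) m G)
    (hABEL : s35as_AbelK O hπ q E' E hle hE m E0)
    (g : ↥E) (hg : g ≠ 0) (hord : ∀ v : Place L ↥E, (m : ℤ) ∣ v.ord g)
    (hN1 : letI := ssm_gi_algebra hle
      ∃ (c : L) (r : ↥E'), r ≠ 0 ∧ Algebra.norm ↥E' g = algebraMap L ↥E' c * r ^ m)
    (hN2 : letI := ssm_gi_algebra hle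
      ∃ (c : L) (r : ↥E'), r ≠ 0 ∧ Algebra.norm ↥E' (W g) = algebraMap L ↥E' c * r ^ m) :
    ∃ (R g' : ↥E), R ≠ 0 ∧ g' ≠ 0 ∧ (Φ g / g) ^ E0 = R ^ m * g' ∧
      (∀ v : Place L ↥E, (m : ℤ) ∣ v.ord g') ∧
      ∃ K1 K2 : ↥O, IsUnit K1 ∧ IsUnit K2 ∧
        g' - algebraMap L ↥E (K1 : L) ∈
          (gq_valSubOf π hπ.ne_zero hπ.maximalIdeal_eq E hE).nonunits ∧
        g' - algebraMap L ↥E (K2 : L) ∈
          ((gq_valSubOf π hπ.ne_zero hπ.maximalIdeal_eq E hE).comap (W : ↥E →+* ↥E)).nonunits := by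
  classical
  have hWg : W g ≠ 0 := (map_ne_zero W).2 hg
  have hΦC : ∀ a : L, Φ (algebraMap L ↥E a) = algebraMap L ↥E (φ a) := by
    intro c
    apply Subtype.ext
    rw [hΦ]
    exact coeffMap_algebraMap (φ : L →+* L) c
  set G : ↥E := Φ g / g with hG
  have hG0 : G ≠ 0 := div_ne_zero ((map_ne_zero Φ).2 hg) hg
  have hWG : W G = Φ (W g) / W g := by
    rw [hG, map_div₀, hWΦ]
  -- Gauss units
  have h1 : s35as_IsGU (↥O) (G : LaurentSeries L) :=
    s35as_isGU_phi_div O hπ hφ E hE hφπ Φ hΦ g hg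
  have h2 : s35as_IsGU (↥O) ((W G : ↥E) : LaurentSeries L) := by
    rw [hWG]
    exact s35as_isGU_phi_div O hπ hφ E hE hφπ Φ hΦ (W g) hWg
  -- orders
  have hordG : ∀ v : Place L ↥E, (m : ℤ) ∣ v.ord G :=
    s35as_dvd_ord_phi_div Φ φ hΦC (m : ℤ) hg hord
  -- units at `V₁`, `V₂`
  have hu1 : G ∈ gq_valSubOf π hπ.ne_zero hπ.maximalIdeal_eq E hE ∧
      G ∉ (gq_valSubOf π hπ.ne_zero hπ.maximalIdeal_eq E hE).nonunits :=
    ⟨h1.1, fun hn => h1.2 ((s35as_mem_nonunits_iff O hπ E hE G).1 hn).2⟩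
  have hu2 : G ∈ (gq_valSubOf π hπ.ne_zero hπ.maximalIdeal_eq E hE).comap (W : ↥E →+* ↥E) ∧
      G ∉ ((gq_valSubOf π hπ.ne_zero hπ.maximalIdeal_eq E hE).comap
        (W : ↥E →+* ↥E)).nonunits := by
    refine ⟨h2.1, fun hn => ?_⟩
    rw [ssm_tw_nonunits_comap] at hn
    exact h2.2 ((s35as_mem_nonunits_iff O hπ E hE (W G)).1 hn).2
  obtain ⟨hd1, hd2⟩ := hHD G hG0 hordG hu1 hu2
  -- the reductions
  have hm1 := s35as_red_mem_kappa O hπ q E' E hle hE W D G h1.1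
  have hm2 := s35as_red_mem_kappa O hπ q E' E hle hE W D (W G) h2.1
  have hf1 : s35as_Fac O hπ E' E hle hE m (s35as_red (↥O) (G : LaurentSeries L)) :=
    fun 𝒪 hk halg => s35as_hdiv_red1 O hπ q E' E hle hE W D 𝒪 m G hd1 hk halg
  have hf2 : s35as_Fac O hπ E' E hle hE m (s35as_red (↥O) ((W G : ↥E) : LaurentSeries L)) :=
    fun 𝒪 hk halg => s35as_hdiv_red2 O hπ q E' E hle hE W D 𝒪 hW m G hd2 hk halg
  -- the common core
  obtain ⟨-, -, R, g', hR, hg', hRg, K1, K2, hK1, hK2, hc1, hc2⟩ :=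
    s35as_abel_of_new O hπ q E' E hle hE W hW D hφ hφπ Φ' Φ hΦ' hΦ hWΦ m E0 hm g hg hN1 hN2
      (by
        rintro ⟨c, h, hh, hR1⟩ ⟨c', h', hh', hR2⟩
        rw [mul_comm] at hR2
        obtain ⟨⟨a1, w1, ha1, hw1, hw10, he1⟩, ⟨a2, w2, ha2, hw2, hw20, he2⟩⟩ :=
          hABEL _ _ h h' hm1 hm2 ((s35as_range_iff O hπ E' (hle.trans hE) h).1 hh)
            ((s35as_range_iff O hπ E' (hle.trans hE) h').1 hh') c c' h1.2 h2.2 hf1 hf2 hR1 hR2
        exact ⟨a1, a2, w1, w2, (s35as_range_iff O hπ E' (hle.trans hE) w1).2 hw1,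
          (s35as_range_iff O hπ E' (hle.trans hE) w2).2 hw2, ha1, ha2, he1, he2⟩)
  exact ⟨R, g', hR, hg', hRg, s35as_dvd_ord_quot m E0 hR hg' hRg hordG, K1, K2, hK1, hK2, hc1, hc2⟩

end Level

end Fermat.Agent.S35
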