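/-
Project S35, cell [CORE-ASM] (helper4), part 8: [ABEL] AT ONE LEVEL, LEGENDRE TOWER.
Prefix `s35as_`.

`s35as_leg_abelAt1` : the primed [ABEL] seam `s35_AbelAt1 O hπ N' q hq2 hqN' φ m E₀` (S35/Seams2.lean)
for the Legendre tower `lg_E L N' ≤ lg_E L (N' q)` over `(L, O)`, from (H-DIV) (helper19's [SFD-INST])
and [ABEL] over the residue field (helper13) — instance of `s35as_abelAt`.
-/
import Mathlib
import Fermat.Agent.S35.AbelAsm.Level
import Fermat.Agent.S35.Seams2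

set_option autoImplicit false
set_option linter.unusedSectionVars false
set_option linter.unusedVariables false
set_option linter.style.haveILetI false

noncomputable section

namespace Fermat.Agent.S35

open ModularCurve IsLocalRing IntermediateField AlgebraicCurve Polynomial
open Fermat.Agent.JT3 Fermat.Agent.SS Fermat.Agent.S28 Fermat.Agent.S24

section Legendre

variable {L : Type*} [Field L] [CharZero L] [Algebra L (AlgebraicClosure ℚ)]
  (O : ValuationSubring L) [IsDiscreteValuationRing O] {π : O} (hπ : Irreducible π)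
  (N' q : ℕ) [NeZero N'] [NeZero q] [hq : Fact q.Prime] [CharP (ResidueField O) q]
  (hq2 : ¬ 2 ∣ q) (hqN' : ¬ q ∣ N')

set_option maxHeartbeats 1600000 in
set_option synthInstance.maxHeartbeats 200000 in
/-- **[ABEL] at one level, Legendre tower**: the primed seam `s35_AbelAt1`. -/
theorem s35as_leg_abelAt1 {φ : L ≃+* L} (hφ : s35nf_FrobAt O φ q)
    (hφπ : φ ((π : ↥O) : L) = ((π : ↥O) : L)) (m E0 : ℕ) (hm : m ≠ 0)
    (hHD : ∀ G : ↥(lg_E L (N' * q)), G ≠ 0 →
      (∀ v : Place L ↥(lg_E L (N' * q)), (m : ℤ) ∣ v.ord G) →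
      (G ∈ ssm_gl_V1 O hπ N' q ∧ G ∉ (ssm_gl_V1 O hπ N' q).nonunits) →
      (G ∈ ssm_gl_V2 O hπ N' q hq2 hqN' ∧ G ∉ (ssm_gl_V2 O hπ N' q hq2 hqN').nonunits) →
      s35as_HDiv O (lg_E L (N' * q)) (ssm_gl_V1 O hπ N' q) m G ∧
      s35as_HDiv O (lg_E L (N' * q)) (ssm_gl_V2 O hπ N' q hq2 hqN') m G)
    (hABEL : s35as_AbelK O hπ q (lg_E L N') (lg_E L (N' * q)) (ssm_al_E_le L N' q)
      (ssm_ga_E_le_quotField O (N' * q)) m E0) :
    s35_AbelAt1 O hπ N' q hq2 hqN' φ m E0 := by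
  rintro g ⟨hg0, hord, hN1, hN2⟩
  obtain ⟨R, g', hR, hg', hRg, hordg', K1, K2, hK1, hK2, hc1, hc2⟩ :=
    s35as_abelAt O hπ q (lg_E L N') (lg_E L (N' * q)) (ssm_al_E_le L N' q)
      (ssm_ga_E_le_quotField O (N' * q)) (ssm_gl_W L N' q hq2 hqN')
      (fun z => ssm_al_coe_WE_of_mem L N' q hq.out hq2 hqN' z.2 _)
      (ssm_gl_data O hπ N' q hq2 hqN') hφ hφπ (ssm_sg_aut N' φ) (ssm_sg_aut (N' * q) φ)
      (fun x => rfl) (fun x => rfl)
      (fun x => Subtype.ext
        (ssm_al_coe_WE_coeffMap L N' q hq.out hq2 hqN' (φ : L →+* L) x _))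
      m E0 hm hHD hABEL g hg0 hord hN1 hN2
  refine ⟨1, R, g', one_ne_zero, hR, hg', ?_, hordg', K1, K2, hK1, hK2, hc1, hc2⟩
  rw [map_one, one_mul]
  exact hRg

end Legendre

end Fermat.Agent.S35
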