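/-
Project S35, cell [CORE-ASM] (helper4), part 10: THE NUMBER-FIELD WRAPPER, LEGENDRE TOWER.
Prefix `s35as_`.

* `s35as_FamLeg N' q hq2 hqN'` : [ABEL] over the residue fields of all unramified number-field
  levels with ONE exponent (= helper13's [ABEL-FAM], in the vocabulary `s35as_AbelK` of
  `S35/AbelAsm/Level.lean`);
* `s35as_hHD_leg`   : helper19's (H-DIV) instance `tori_sfdi_leg` in the shape `s35as_HDiv`;
* `s35as_abelNF1_leg` : `s35as_FamLeg N' q hq2 hqN' → s35_AbelNF1 N' q hq2 hqN'` (seam (A-L) of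
  `S35/Seams2.lean`); `T := T_fam ∪ {ζ_{N'}}`.
-/
import Mathlib
import Fermat.Agent.S35.AbelAsm.Leg
import Fermat.Agent.S35.Toric.SFDInstLeg
import Fermat.Agent.S35.ToricInst.LegNF

set_option autoImplicit false
set_option linter.unusedSectionVars false
set_option linter.unusedVariables false
set_option linter.style.haveILetI false

noncomputable section

namespace Fermat.Agent.S35

open ModularCurve IsLocalRing IntermediateField AlgebraicCurve Polynomial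
open Fermat.Agent.JT3 Fermat.Agent.SS Fermat.Agent.S28 Fermat.Agent.S24

local notation "GQ" => (AlgebraicClosure ℚ ≃ₐ[ℚ] AlgebraicClosure ℚ)
local notation "Qb" => AlgebraicClosure ℚ

section HD

variable (L : Type) [Field L] [NumberField L] [Algebra L (AlgebraicClosure ℚ)]
  (O : ValuationSubring L) [IsDiscreteValuationRing O]
variable (N' q : ℕ) [NeZero N'] [NeZero q] [hq : Fact q.Prime] [CharP (ResidueField O) q]
  (hq2 : ¬ 2 ∣ q) (hqN' : ¬ q ∣ N') (hπ : Irreducible ((q : ℕ) : ↥O))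
  (ζ : L) (hζ : IsPrimitiveRoot ζ N')

include hζ in
set_option synthInstance.maxHeartbeats 400000 in
set_option maxHeartbeats 1600000 in
/-- helper19's (H-DIV) instance for the Legendre tower, in the shape `s35as_HDiv`. -/
theorem s35as_hHD_leg (m : ℕ) (G : ↥(lg_E L (N' * q))) (hG : G ≠ 0)
    (hord : ∀ v : Place L ↥(lg_E L (N' * q)), (m : ℤ) ∣ v.ord G)
    (hG1 : G ∈ ssm_gl_V1 O hπ N' q ∧ G ∉ (ssm_gl_V1 O hπ N' q).nonunits)
    (hG2 : G ∈ ssm_gl_V2 O hπ N' q hq2 hqN' ∧ G ∉ (ssm_gl_V2 O hπ N' q hq2 hqN').nonunits) :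
    s35as_HDiv O (lg_E L (N' * q)) (ssm_gl_V1 O hπ N' q) m G ∧
      s35as_HDiv O (lg_E L (N' * q)) (ssm_gl_V2 O hπ N' q hq2 hqN') m G := by
  obtain ⟨h1, h2⟩ := tori_sfdi_leg L O N' q hq2 hqN' hπ ζ hζ m hG hord hG1 hG2
  have key : ∀ (z : ↥(lg_E L (N' * q))) (p : (↥O)[X]),
      aeval z p = p.eval₂ ((algebraMap L ↥(lg_E L (N' * q))).comp (algebraMap (↥O) L)) z :=
    fun z p => rfl
  constructor
  · intro 𝒱 h𝒱 hA halg
    exact h1 𝒱 h𝒱 hA (fun z hz => by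
      obtain ⟨P, hPm, hP⟩ := halg z hz
      exact ⟨P, hPm, by rw [key]; exact hP⟩)
  · intro 𝒱 h𝒱 hA halg
    exact h2 𝒱 h𝒱 hA (fun z hz => by
      obtain ⟨P, hPm, hP⟩ := halg z hz
      exact ⟨P, hPm, by rw [key]; exact hP⟩)

end HD

section NF

variable (N' q : ℕ) [NeZero N'] [NeZero q] [hq : Fact q.Prime] (hq2 : ¬ 2 ∣ q) (hqN' : ¬ q ∣ N')

/-- **[ABEL-FAM], Legendre tower**: [ABEL] over the residue fields of all unramified number-field
levels, with one exponent. -/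
def s35as_FamLeg : Prop :=
  ∀ A : ValuationSubring Qb, A.LiesOverPrime q → ∀ φ : GQ, A.IsFrobeniusAt φ q →
    ∃ E : ℕ, 1 ≤ E ∧ ∃ T : Finset Qb, (∀ t ∈ T, ∀ s ∈ A.inertiaSubgroupIn ℚ, s t = t) ∧
      ∀ L1 : IntermediateField ℚ Qb, FiniteDimensional ℚ L1 → (↑T : Set Qb) ⊆ L1 →
        (∀ x ∈ L1, ∀ s ∈ A.inertiaSubgroupIn ℚ, s x = x) →
        ∀ [IsDiscreteValuationRing ↥(A.comap (algebraMap ↥L1 Qb))]
          [CharP (ResidueField ↥(A.comap (algebraMap ↥L1 Qb))) q]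
          (hπ : Irreducible ((q : ℕ) : ↥(A.comap (algebraMap ↥L1 Qb)))),
          ∀ φ1 : ↥L1 ≃+* ↥L1, (∀ x : ↥L1, ((φ1 x : ↥L1) : Qb) = φ (x : Qb)) →
            ∀ m : ℕ, ¬ q ∣ m →
              s35as_AbelK (A.comap (algebraMap ↥L1 Qb)) hπ q (lg_E ↥L1 N') (lg_E ↥L1 (N' * q))
                (ssm_al_E_le ↥L1 N' q)
                (ssm_ga_E_le_quotField (A.comap (algebraMap ↥L1 Qb)) (N' * q)) m E

set_option synthInstance.maxHeartbeats 200000 in
set_option maxHeartbeats 1600000 in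
/-- **(A-L): `s35_AbelNF1` for the Legendre tower**, from [ABEL-FAM]. -/
theorem s35as_abelNF1_leg (hfam : s35as_FamLeg N' q) : s35_AbelNF1 N' q hq2 hqN' := by
  classical
  intro A hAq φ hφ
  obtain ⟨E0, hE0, Tf, hTf, hfam'⟩ := hfam A hAq φ hφ
  obtain ⟨ζ', hζ'⟩ := HasEnoughRootsOfUnity.exists_primitiveRoot Qb N'
  refine ⟨E0, by omega, Tf ∪ {ζ'}, ?_, fun L1 hfd hsub hfix => ?_⟩
  · intro t ht s hs
    rcases Finset.mem_union.1 ht with h | h
    · exact hTf t h s hs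
    · rw [Finset.mem_singleton] at h
      rw [h]
      exact s35d_root_fixed A q hAq hqN' hζ'.pow_eq_one hs
  intro _ _ hπ φ1 hφ1 m hqm hζm
  have hsubT : (↑Tf : Set Qb) ⊆ L1 := fun x hx => hsub (by
    rw [Finset.coe_union]; exact Or.inl hx)
  have hζmem : ζ' ∈ L1 := hsub (by simp)
  haveI : NumberField ↥L1 := { to_charZero := inferInstance, to_finiteDimensional := hfd }
  have hζ : IsPrimitiveRoot (⟨ζ', hζmem⟩ : ↥L1) N' :=
    (IsPrimitiveRoot.map_iff_of_injective (f := algebraMap ↥L1 Qb)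
      (FaithfulSMul.algebraMap_injective ↥L1 Qb)).1 hζ'
  have hF := s35ti_frobAt_of_frobenius A φ hφ L1 φ1 hφ1
  have hm0 : m ≠ 0 := by
    rintro rfl
    exact hqm (dvd_zero q)
  have hφπ : φ1 ((((q : ℕ) : ↥(A.comap (algebraMap ↥L1 Qb))) : ↥(A.comap (algebraMap ↥L1 Qb))) : ↥L1) =
      ((((q : ℕ) : ↥(A.comap (algebraMap ↥L1 Qb))) : ↥(A.comap (algebraMap ↥L1 Qb))) : ↥L1) := by
    have : ((((q : ℕ) : ↥(A.comap (algebraMap ↥L1 Qb))) : ↥(A.comap (algebraMap ↥L1 Qb))) : ↥L1) =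
        ((q : ℕ) : ↥L1) := by push_cast; rfl
    rw [this, map_natCast]
  exact s35as_leg_abelAt1 (A.comap (algebraMap ↥L1 Qb)) hπ N' q hq2 hqN' hF hφπ m E0 hm0
    (s35as_hHD_leg ↥L1 (A.comap (algebraMap ↥L1 Qb)) N' q hq2 hqN' hπ ⟨ζ', hζmem⟩ hζ m)
    (hfam' L1 hfd hsubT hfix hπ φ1 hφ1 m hqm)

end NF

end Fermat.Agent.S35
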