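/-
Project S35, cell [CORE-ASM] (helper4), part 11: THE NUMBER-FIELD WRAPPER, HESSE TOWER.
Prefix `s35as_`.

* `s35as_FamHes N' q` : [ABEL] over the residue fields of all unramified number-field levels with ONE
  exponent, Hesse tower (= helper13's [ABEL-FAM], in the vocabulary `s35as_AbelK`);
* `s35as_hHD_hes`   : helper19's (H-DIV) instance `tori_sfdi_hes` in the shape `s35as_HDiv`;
* `s35as_abelNF1_hes` : `s35as_FamHes N' q → s35h_AbelNF1 N' q hq3 hqN'` (seam (A-H) of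
  `S35/Seams2.lean`); `T := T_fam ∪ {ζ_{3N'}}`.
-/
import Mathlib
import Fermat.Agent.S35.AbelAsm.Hes
import Fermat.Agent.S35.Toric.SFDInstHes
import Fermat.Agent.S35.ToricInst.LegNF

set_option autoImplicit false
set_option linter.unusedSectionVars false
set_option linter.unusedVariables false
set_option linter.style.haveILetI false

noncomputable section

namespace Fermat.Agent.S35

open ModularCurve IsLocalRing IntermediateField AlgebraicCurve Polynomial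
open Fermat.Agent.JT3 Fermat.Agent.SS Fermat.Agent.S28 Fermat.Agent.S24

local notation "GQ" => (AlgebraicClosure ℚ ≃ₐ[ℚ] AlgebraicClosure ℚ)
local notation "Qb" => AlgebraicClosure ℚ

section HD

variable (L : Type) [Field L] [NumberField L] [Algebra L (AlgebraicClosure ℚ)]
  (h3 : (3 : L) ≠ 0) (O : ValuationSubring L) [IsDiscreteValuationRing O] (h3O : IsUnit (3 : O))
variable (N' q : ℕ) [NeZero N'] [NeZero q] [hq : Fact q.Prime] [CharP (ResidueField O) q]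
  (hq3 : ¬ 3 ∣ q) (hqN' : ¬ q ∣ N') (hπ : Irreducible ((q : ℕ) : ↥O))
  (ζ : L) (hζ : IsPrimitiveRoot ζ (3 * N'))

include hζ in
set_option synthInstance.maxHeartbeats 400000 in
set_option maxHeartbeats 1600000 in
/-- helper19's (H-DIV) instance for the Hesse tower, in the shape `s35as_HDiv`. -/
theorem s35as_hHD_hes (m : ℕ) (G : ↥(hs_E L h3 (N' * q))) (hG : G ≠ 0)
    (hord : ∀ v : Place L ↥(hs_E L h3 (N' * q)), (m : ℤ) ∣ v.ord G)
    (hG1 : G ∈ ssm_fh_V1 h3 O h3O hπ N' q ∧ G ∉ (ssm_fh_V1 h3 O h3O hπ N' q).nonunits)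
    (hG2 : G ∈ ssm_fh_V2 h3 O h3O hπ N' q hq3 hqN' ∧
      G ∉ (ssm_fh_V2 h3 O h3O hπ N' q hq3 hqN').nonunits) :
    s35as_HDiv O (hs_E L h3 (N' * q)) (ssm_fh_V1 h3 O h3O hπ N' q) m G ∧
      s35as_HDiv O (hs_E L h3 (N' * q)) (ssm_fh_V2 h3 O h3O hπ N' q hq3 hqN') m G := by
  obtain ⟨h1, h2⟩ := tori_sfdi_hes L h3 O h3O N' q hq3 hqN' hπ ζ hζ m hG hord hG1 hG2
  have key : ∀ (z : ↥(hs_E L h3 (N' * q))) (p : (↥O)[X]),
      aeval z p = p.eval₂ ((algebraMap L ↥(hs_E L h3 (N' * q))).comp (algebraMap (↥O) L)) z :=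
    fun z p => rfl
  constructor
  · intro 𝒱 h𝒱 hA halg
    exact h1 𝒱 h𝒱 hA (fun z hz => by
      obtain ⟨P, hPm, hP⟩ := halg z hz
      exact ⟨P, hPm, by rw [key]; exact hP⟩)
  · intro 𝒱 h𝒱 hA halg
    exact h2 𝒱 h𝒱 hA (fun z hz => by
      obtain ⟨P, hPm, hP⟩ := halg z hz
      exact ⟨P, hPm, by rw [key]; exact hP⟩)

end HD

section NFH

variable (N' q : ℕ) [NeZero N'] [NeZero q] [hq : Fact q.Prime] (hq3 : ¬ 3 ∣ q) (hqN' : ¬ q ∣ N')

/-- **[ABEL-FAM], Hesse tower**: [ABEL] over the residue fields of all unramified number-field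
levels, with one exponent. -/
def s35as_FamHes : Prop :=
  ∀ A : ValuationSubring Qb, A.LiesOverPrime q → ∀ φ : GQ, A.IsFrobeniusAt φ q →
    ∃ E : ℕ, 1 ≤ E ∧ ∃ T : Finset Qb, (∀ t ∈ T, ∀ s ∈ A.inertiaSubgroupIn ℚ, s t = t) ∧
      ∀ L1 : IntermediateField ℚ Qb, FiniteDimensional ℚ L1 → (↑T : Set Qb) ⊆ L1 →
        (∀ x ∈ L1, ∀ s ∈ A.inertiaSubgroupIn ℚ, s x = x) →
        ∀ [IsDiscreteValuationRing ↥(A.comap (algebraMap ↥L1 Qb))]
          [CharP (ResidueField ↥(A.comap (algebraMap ↥L1 Qb))) q]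
          (h3O : IsUnit (3 : ↥(A.comap (algebraMap ↥L1 Qb))))
          (hπ : Irreducible ((q : ℕ) : ↥(A.comap (algebraMap ↥L1 Qb)))),
          ∀ φ1 : ↥L1 ≃+* ↥L1, (∀ x : ↥L1, ((φ1 x : ↥L1) : Qb) = φ (x : Qb)) →
            ∀ m : ℕ, ¬ q ∣ m →
              s35as_AbelK (A.comap (algebraMap ↥L1 Qb)) hπ q
                (hs_E ↥L1 (three_ne_zero : (3 : ↥L1) ≠ 0) N')
                (hs_E ↥L1 (three_ne_zero : (3 : ↥L1) ≠ 0) (N' * q))
                (ssm_alh_E_le ↥L1 (three_ne_zero : (3 : ↥L1) ≠ 0)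
                  (ssm_fh_hF9 (three_ne_zero : (3 : ↥L1) ≠ 0)) N' q)
                (hsa_E_le_quotField (three_ne_zero : (3 : ↥L1) ≠ 0)
                  (A.comap (algebraMap ↥L1 Qb)) (N' * q) h3O) m E

set_option synthInstance.maxHeartbeats 200000 in
set_option maxHeartbeats 1600000 in
/-- **(A-H): `s35h_AbelNF1` for the Hesse tower**, from [ABEL-FAM]. -/
theorem s35as_abelNF1_hes (hfam : s35as_FamHes N' q) : s35h_AbelNF1 N' q hq3 hqN' := by
  classical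
  intro A hAq φ hφ
  obtain ⟨E0, hE0, Tf, hTf, hfam'⟩ := hfam A hAq φ hφ
  haveI : NeZero (3 * N') := ⟨Nat.mul_ne_zero (by norm_num) (NeZero.ne N')⟩
  obtain ⟨ζ', hζ'⟩ := HasEnoughRootsOfUnity.exists_primitiveRoot Qb (3 * N')
  have hq3N : ¬ q ∣ 3 * N' := by
    intro h
    rcases (Nat.Prime.dvd_mul hq.out).1 h with h | h
    · have : q = 3 := (Nat.prime_dvd_prime_iff_eq hq.out Nat.prime_three).1 h
      exact hq3 (this ▸ dvd_rfl)
    · exact hqN' h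
  refine ⟨E0, by omega, Tf ∪ {ζ'}, ?_, fun L1 hfd hsub hfix => ?_⟩
  · intro t ht s hs
    rcases Finset.mem_union.1 ht with h | h
    · exact hTf t h s hs
    · rw [Finset.mem_singleton] at h
      rw [h]
      exact s35d_root_fixed A q hAq hq3N hζ'.pow_eq_one hs
  intro _ _ h3O hπ φ1 hφ1 m hqm hζm
  have hsubT : (↑Tf : Set Qb) ⊆ L1 := fun x hx => hsub (by
    rw [Finset.coe_union]; exact Or.inl hx)
  have hζmem : ζ' ∈ L1 := hsub (by simp)
  haveI : NumberField ↥L1 := { to_charZero := inferInstance, to_finiteDimensional := hfd }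
  have hζ : IsPrimitiveRoot (⟨ζ', hζmem⟩ : ↥L1) (3 * N') :=
    (IsPrimitiveRoot.map_iff_of_injective (f := algebraMap ↥L1 Qb)
      (FaithfulSMul.algebraMap_injective ↥L1 Qb)).1 hζ'
  have hF := s35ti_frobAt_of_frobenius A φ hφ L1 φ1 hφ1
  have hm0 : m ≠ 0 := by
    rintro rfl
    exact hqm (dvd_zero q)
  have hφπ : φ1 ((((q : ℕ) : ↥(A.comap (algebraMap ↥L1 Qb))) : ↥(A.comap (algebraMap ↥L1 Qb))) : ↥L1) =
      ((((q : ℕ) : ↥(A.comap (algebraMap ↥L1 Qb))) : ↥(A.comap (algebraMap ↥L1 Qb))) : ↥L1) := by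
    have : ((((q : ℕ) : ↥(A.comap (algebraMap ↥L1 Qb))) : ↥(A.comap (algebraMap ↥L1 Qb))) : ↥L1) =
        ((q : ℕ) : ↥L1) := by push_cast; rfl
    rw [this, map_natCast]
  exact s35as_hes_abelAt1 (three_ne_zero : (3 : ↥L1) ≠ 0) (A.comap (algebraMap ↥L1 Qb)) h3O hπ
    N' q hq3 hqN' hF hφπ m E0 hm0
    (s35as_hHD_hes ↥L1 (three_ne_zero : (3 : ↥L1) ≠ 0) (A.comap (algebraMap ↥L1 Qb)) h3O N' q
      hq3 hqN' hπ ⟨ζ', hζmem⟩ hζ m)
    (hfam' L1 hfd hsubT hfix h3O hπ φ1 hφ1 m hqm)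

end NFH

end Fermat.Agent.S35
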