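/-
Project S35 / TW [F] (Z7) step [e] LIFT (helper4).  Prefix `s35as_`.

The SECOND HALF of `s35as_abel_of_unit` (`S35/AbelAsm/Core.lean`) as a statement of its own, with
NO norm hypotheses: in the generic tower `E' ≤ E ≤ Quot(O((X)))` with the two-valuations data `D`,
if `G ∈ E` is a Gauss unit at `V₁` and at `V₂ = W V₁` and
`red G ^ E₀ = k₁ ρ₁ ^ m`, `red (W G) ^ E₀ = k₂ ρ₂ ^ m` with `k_i ∈ kˣ`, `ρ_i` in the reduction
field of `E'`, then `G ^ E₀ = R ^ m · g'` with `g'` of CONSTANT reductions at `V₁` and `V₂`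
(`R = e₁ A₁ + e₂ W A₂`, `A_i` lifts of `ρ_i`, `e_i` the idempotents of `s35as_exists_idem`).
-/
import Mathlib
import Fermat.Agent.S35.AbelAsm.Core

set_option autoImplicit false
set_option linter.unusedSectionVars false
set_option linter.unusedVariables false
set_option linter.style.haveILetI false

noncomputable section

namespace Fermat.Agent.S35

open ModularCurve IsLocalRing IntermediateField
open Fermat.Agent.JT3 Fermat.Agent.SS Fermat.Agent.S28

section LiftRed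

variable {L : Type*} [Field L] [CharZero L] (O : ValuationSubring L)
  [IsDiscreteValuationRing O] {π : O} (hπ : Irreducible π)
variable (q : ℕ) [NeZero q] [hq : Fact q.Prime] [CharP (ResidueField O) q]
variable (E' E : IntermediateField L (LaurentSeries L)) (hle : E' ≤ E)
  (hE : E ≤ gq_quotField O L)

set_option maxHeartbeats 800000 in
/-- **[LIFT]**: from `red G ^ E₀ = k₁ ρ₁ ^ m`, `red (W G) ^ E₀ = k₂ ρ₂ ^ m` to `G ^ E₀ = R ^ m · g'`
with `g'` of constant reductions at `V₁` and `V₂`. -/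
theorem s35as_lift_of_red (W : ↥E ≃+* ↥E)
    (hW : ∀ z : ↥E', ((W (IntermediateField.inclusion hle z) : ↥E) : LaurentSeries L) =
      qExpand L q (z : LaurentSeries L))
    {lam : ↥(gq_valSubOf π hπ.ne_zero hπ.maximalIdeal_eq E' (hle.trans hE))}
    (D : letI := ssm_gi_algebra hle
      letI := ssm_gi_algebraV hle (gq_valSubOf π hπ.ne_zero hπ.maximalIdeal_eq E' (hle.trans hE))
      ssm_tw_Data ↥E' ↥(gq_valSubOf π hπ.ne_zero hπ.maximalIdeal_eq E' (hle.trans hE)) q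
        (gq_valSubOf π hπ.ne_zero hπ.maximalIdeal_eq E hE) W lam)
    (m E0 : ℕ) (hm : m ≠ 0) (G : ↥E)
    (h1 : s35as_IsGU (↥O) (G : LaurentSeries L))
    (h2 : s35as_IsGU (↥O) ((W G : ↥E) : LaurentSeries L))
    (hred : ∃ (k1 k2 : ResidueField O) (ρ1 ρ2 : LaurentSeries (ResidueField O)),
        ρ1 ∈ s35as_range O E' ∧ ρ2 ∈ s35as_range O E' ∧ k1 ≠ 0 ∧ k2 ≠ 0 ∧
        s35as_red (↥O) (G : LaurentSeries L) ^ E0 =
          algebraMap (ResidueField O) (LaurentSeries (ResidueField O)) k1 * ρ1 ^ m ∧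
        s35as_red (↥O) ((W G : ↥E) : LaurentSeries L) ^ E0 =
          algebraMap (ResidueField O) (LaurentSeries (ResidueField O)) k2 * ρ2 ^ m) :
    ∃ (R g' : ↥E), R ≠ 0 ∧ g' ≠ 0 ∧ G ^ E0 = R ^ m * g' ∧
      ∃ K1 K2 : ↥O, IsUnit K1 ∧ IsUnit K2 ∧
        g' - algebraMap L ↥E (K1 : L) ∈
          (gq_valSubOf π hπ.ne_zero hπ.maximalIdeal_eq E hE).nonunits ∧
        g' - algebraMap L ↥E (K2 : L) ∈
          ((gq_valSubOf π hπ.ne_zero hπ.maximalIdeal_eq E hE).comap (W : ↥E →+* ↥E)).nonunits := by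
  classical
  letI := ssm_gi_algebra hle
  have hWW : ∀ x, W (W x) = x := D.invol
  obtain ⟨k1, k2, ρ1, ρ2, hρ1, hρ2, hk1, hk2, hu1, hu2⟩ := hred
  -- `ρ_i ≠ 0`
  have hρ10 : ρ1 ≠ 0 := by
    rintro rfl
    rw [zero_pow hm, mul_zero] at hu1
    exact pow_ne_zero E0 h1.2 hu1
  have hρ20 : ρ2 ≠ 0 := by
    rintro rfl
    rw [zero_pow hm, mul_zero] at hu2
    exact pow_ne_zero E0 h2.2 hu2
  -- lifts
  obtain ⟨a1, ha1b, ha1⟩ := hρ1
  obtain ⟨a2, ha2b, ha2⟩ := hρ2
  obtain ⟨e1, e2, he1b, he2b, he1, he2, hWe1, hWe2⟩ := s35as_exists_idem O hπ q E' E hle hE W hW D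
  set A1 : ↥E := IntermediateField.inclusion hle a1 with hA1
  set A2 : ↥E := IntermediateField.inclusion hle a2 with hA2
  have hA1b : gq_IsBdd O L (A1 : LaurentSeries L) := ha1b
  have hA2b : gq_IsBdd O L (A2 : LaurentSeries L) := ha2b
  have hWA1b : gq_IsBdd O L ((W A1 : ↥E) : LaurentSeries L) :=
    s35as_W_incl_bdd O q E' E hle W hW a1 ha1b
  have hWA2b : gq_IsBdd O L ((W A2 : ↥E) : LaurentSeries L) :=
    s35as_W_incl_bdd O q E' E hle W hW a2 ha2b
  set R : ↥E := e1 * A1 + e2 * W A2 with hR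
  have hRb : gq_IsBdd O L (R : LaurentSeries L) := by
    rw [hR]
    push_cast
    exact s35as_bdd_add (s35as_bdd_mul he1b hA1b) (s35as_bdd_mul he2b hWA2b)
  have hRred : s35as_red (↥O) (R : LaurentSeries L) = ρ1 := by
    rw [hR]
    push_cast
    rw [s35as_red_add (s35as_bdd_mul he1b hA1b) (s35as_bdd_mul he2b hWA2b),
      s35as_red_mul he1b hA1b, s35as_red_mul he2b hWA2b, he1, he2, one_mul, zero_mul, add_zero]
    exact ha1
  have hWR : W R = e2 * W A1 + e1 * A2 := by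
    rw [hR, map_add, map_mul, map_mul, hWe1, hWe2, hWW]
  have hWRb : gq_IsBdd O L ((W R : ↥E) : LaurentSeries L) := by
    rw [hWR]
    push_cast
    exact s35as_bdd_add (s35as_bdd_mul he2b hWA1b) (s35as_bdd_mul he1b hA2b)
  have hWRred : s35as_red (↥O) ((W R : ↥E) : LaurentSeries L) = ρ2 := by
    rw [hWR]
    push_cast
    rw [s35as_red_add (s35as_bdd_mul he2b hWA1b) (s35as_bdd_mul he1b hA2b),
      s35as_red_mul he2b hWA1b, s35as_red_mul he1b hA2b, he1, he2, one_mul, zero_mul, zero_add]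
    exact ha2
  have hRGU : s35as_IsGU (↥O) (R : LaurentSeries L) := ⟨hRb, by rw [hRred]; exact hρ10⟩
  have hWRGU : s35as_IsGU (↥O) ((W R : ↥E) : LaurentSeries L) :=
    ⟨hWRb, by rw [hWRred]; exact hρ20⟩
  have hR0 : R ≠ 0 := fun h0 => hRGU.ne_zero (by rw [h0]; rfl)
  have hG0 : G ≠ 0 := fun h0 => h1.ne_zero (by rw [h0]; rfl)
  have hRm0 : R ^ m ≠ 0 := pow_ne_zero m hR0
  -- residues of the constants
  obtain ⟨K1, hK1⟩ := residue_surjective (R := ↥O) k1
  obtain ⟨K2, hK2⟩ := residue_surjective (R := ↥O) k2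
  have hK1u : IsUnit K1 := by
    by_contra hnu
    exact hk1 (by rw [← hK1]; exact (residue_eq_zero_iff _).2 ((mem_maximalIdeal _).2 hnu))
  have hK2u : IsUnit K2 := by
    by_contra hnu
    exact hk2 (by rw [← hK2]; exact (residue_eq_zero_iff _).2 ((mem_maximalIdeal _).2 hnu))
  refine ⟨R, G ^ E0 / R ^ m, hR0, div_ne_zero (pow_ne_zero E0 hG0) hRm0, ?_, K1, K2, hK1u, hK2u,
    ?_, ?_⟩
  · rw [mul_div_cancel₀ _ hRm0]
  · -- at `V₁`
    obtain ⟨hb, hr⟩ := s35as_red_pow_div_pow O E G R E0 m h1 hRGU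
    refine s35as_sub_const_mem O hπ E hE _ K1 hb ?_
    rw [hr, hRred, hK1, hu1, mul_div_assoc, div_self (pow_ne_zero m hρ10), mul_one]
  · -- at `V₂`
    rw [ssm_tw_nonunits_comap, map_sub, map_div₀, map_pow, map_pow, s35as_W_const q E' E hle W hW]
    obtain ⟨hb, hr⟩ := s35as_red_pow_div_pow O E (W G) (W R) E0 m h2 hWRGU
    refine s35as_sub_const_mem O hπ E hE _ K2 hb ?_
    rw [hr, hWRred, hK2, hu2, mul_div_assoc, div_self (pow_ne_zero m hρ20), mul_one]

end LiftRed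

end Fermat.Agent.S35
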