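/-
Project S35 / TW [F] (Z7) step [e] LIFT, LEGENDRE TOWER (helper4).  Prefix `s35as_`.

`s35as_leg_lift` : the instance of `s35as_lift_of_red` (S35/AbelAsm/LiftRed.lean) for the Legendre
tower `lg_E L N' ≤ lg_E L (N' q)` over `(L, O)`: if `G ∈ lg_E L (N' q)` is a Gauss unit at `V₁` and
`V₂ = W V₁` and `red G ^ E₀ = k₁ ρ₁ ^ m`, `red (W G) ^ E₀ = k₂ ρ₂ ^ m` (`k_i ≠ 0` constants, `ρ_i`
reductions of Gauss-bounded elements of `lg_E L N'`), then `G ^ E₀ = R ^ m · g'` with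
`s35_ConstRed O hπ N' q hq2 hqN' g'`.
-/
import Mathlib
import Fermat.Agent.S35.AbelAsm.LiftRed
import Fermat.Agent.S35.AbelAsm.Leg

set_option autoImplicit false
set_option linter.unusedSectionVars false
set_option linter.unusedVariables false
set_option linter.style.haveILetI false

noncomputable section

namespace Fermat.Agent.S35

open ModularCurve IsLocalRing IntermediateField AlgebraicCurve Polynomial
open Fermat.Agent.JT3 Fermat.Agent.SS Fermat.Agent.S28 Fermat.Agent.S24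

section Legendre

variable {L : Type*} [Field L] [CharZero L] [Algebra L (AlgebraicClosure ℚ)]
  (O : ValuationSubring L) [IsDiscreteValuationRing O] {π : O} (hπ : Irreducible π)
  (N' q : ℕ) [NeZero N'] [NeZero q] [hq : Fact q.Prime] [CharP (ResidueField O) q]
  (hq2 : ¬ 2 ∣ q) (hqN' : ¬ q ∣ N')

set_option maxHeartbeats 1600000 in
set_option synthInstance.maxHeartbeats 200000 in
/-- **[LIFT], Legendre tower**. -/
theorem s35as_leg_lift (m E0 : ℕ) (hm : m ≠ 0) (G : ↥(lg_E L (N' * q)))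
    (h1 : s35as_IsGU (↥O) (G : LaurentSeries L))
    (h2 : s35as_IsGU (↥O)
      ((ssm_gl_W L N' q hq2 hqN' G : ↥(lg_E L (N' * q))) : LaurentSeries L))
    (hred : ∃ (k1 k2 : ResidueField O) (ρ1 ρ2 : LaurentSeries (ResidueField O)),
        ρ1 ∈ s35as_range O (lg_E L N') ∧ ρ2 ∈ s35as_range O (lg_E L N') ∧ k1 ≠ 0 ∧ k2 ≠ 0 ∧
        s35as_red (↥O) (G : LaurentSeries L) ^ E0 =
          algebraMap (ResidueField O) (LaurentSeries (ResidueField O)) k1 * ρ1 ^ m ∧
        s35as_red (↥O)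
          ((ssm_gl_W L N' q hq2 hqN' G : ↥(lg_E L (N' * q))) : LaurentSeries L) ^ E0 =
          algebraMap (ResidueField O) (LaurentSeries (ResidueField O)) k2 * ρ2 ^ m) :
    ∃ (R g' : ↥(lg_E L (N' * q))), R ≠ 0 ∧ g' ≠ 0 ∧ G ^ E0 = R ^ m * g' ∧
      s35_ConstRed O hπ N' q hq2 hqN' g' := by
  obtain ⟨R, g', hR, hg', hRg, K1, K2, hK1, hK2, hc1, hc2⟩ :=
    s35as_lift_of_red O hπ q (lg_E L N') (lg_E L (N' * q)) (ssm_al_E_le L N' q)
      (ssm_ga_E_le_quotField O (N' * q)) (ssm_gl_W L N' q hq2 hqN')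
      (fun z => ssm_al_coe_WE_of_mem L N' q hq.out hq2 hqN' z.2 _)
      (ssm_gl_data O hπ N' q hq2 hqN') m E0 hm G h1 h2 hred
  exact ⟨R, g', hR, hg', hRg, K1, K2, hK1, hK2, hc1, hc2⟩

end Legendre

end Fermat.Agent.S35
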