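/-
Project S35 / TW [F] (Z7) step [d] COMP, the normalisation (helper4).  Prefix `s35as_`.

Generic tower `E' ≤ E ≤ Quot(O((X)))` with the two-valuations data `D` (`S35/AbelAsm/Core.lean`),
`V₁` the Gauss valuation of `E`, `V₂ = V₁ ∘ W`, `π` the uniformiser of `O`.

* `s35as_exists_pi_mul` : a Gauss-bounded element with reduction `0` is `π` times a Gauss-bounded
  element;
* `s35as_exists_R0`     : `R₀ := e₁² + π e₂` (`e_i` the idempotents of `s35as_exists_idem`) is a
  Gauss unit with reduction `1` and `W R₀ = π R₀'` with `R₀'` a Gauss unit with reduction `1`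
  (so `V₁(R₀) = 0`, `V₂(R₀) = 1`, both normalised reductions are `1`);
* `s35as_normalise`     : if `g π^(-n₁)` and `(W g) π^(-n₂)` are Gauss units and `n₂ - n₁ = m t`, then
  `g = π^(n₁) · (R₀^t)^m · G` with `G`, `W G` Gauss units, `red G = red (g π^(-n₁))`,
  `red (W G) = red ((W g) π^(-n₂))`.
-/
import Mathlib
import Fermat.Agent.S35.AbelAsm.Core

set_option autoImplicit false
set_option linter.unusedSectionVars false
set_option linter.unusedVariables false
set_option linter.style.haveILetI false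

noncomputable section

namespace Fermat.Agent.S35

open ModularCurve IsLocalRing IntermediateField
open Fermat.Agent.JT3 Fermat.Agent.SS Fermat.Agent.S28

section Normalise

variable {L : Type*} [Field L] [CharZero L] (O : ValuationSubring L)
  [IsDiscreteValuationRing O] {π : O} (hπ : Irreducible π)
variable (q : ℕ) [NeZero q] [hq : Fact q.Prime] [CharP (ResidueField O) q]
variable (E' E : IntermediateField L (LaurentSeries L)) (hle : E' ≤ E)
  (hE : E ≤ gq_quotField O L)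

include hπ hE in
/-- a Gauss-bounded element with reduction `0` is `π` times a Gauss-bounded element. -/
theorem s35as_exists_pi_mul (x : ↥E) (hx : gq_IsBdd O L (x : LaurentSeries L))
    (h0 : s35as_red (↥O) (x : LaurentSeries L) = 0) :
    ∃ y : ↥E, gq_IsBdd O L (y : LaurentSeries L) ∧ x = s35as_pi (π := π) O E * y := by
  have hmem : x ∈ (gq_valSubOf π hπ.ne_zero hπ.maximalIdeal_eq E hE).nonunits :=
    (s35as_mem_nonunits_iff O hπ E hE x).2 ⟨hx, h0⟩
  have hxV : x ∈ gq_valSubOf π hπ.ne_zero hπ.maximalIdeal_eq E hE := hx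
  have hmax : (⟨x, hxV⟩ : ↥(gq_valSubOf π hπ.ne_zero hπ.maximalIdeal_eq E hE)) ∈
      maximalIdeal ↥(gq_valSubOf π hπ.ne_zero hπ.maximalIdeal_eq E hE) :=
    (ValuationSubring.coe_mem_nonunits_iff
      (A := gq_valSubOf π hπ.ne_zero hπ.maximalIdeal_eq E hE) (a := ⟨x, hxV⟩)).1 hmem
  obtain ⟨w, hw, hxw⟩ := (gq_mem_maximalIdeal_iff π hπ.ne_zero hπ.maximalIdeal_eq E hE _).1 hmax
  exact ⟨w, hw, hxw⟩

include hπ in
/-- **the element `R₀`**: `V₁(R₀) = 0`, `V₂(R₀) = 1`, both normalised reductions equal to `1`. -/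
theorem s35as_exists_R0 (W : ↥E ≃+* ↥E)
    (hW : ∀ z : ↥E', ((W (IntermediateField.inclusion hle z) : ↥E) : LaurentSeries L) =
      qExpand L q (z : LaurentSeries L))
    {lam : ↥(gq_valSubOf π hπ.ne_zero hπ.maximalIdeal_eq E' (hle.trans hE))}
    (D : letI := ssm_gi_algebra hle
      letI := ssm_gi_algebraV hle (gq_valSubOf π hπ.ne_zero hπ.maximalIdeal_eq E' (hle.trans hE))
      ssm_tw_Data ↥E' ↥(gq_valSubOf π hπ.ne_zero hπ.maximalIdeal_eq E' (hle.trans hE)) q
        (gq_valSubOf π hπ.ne_zero hπ.maximalIdeal_eq E hE) W lam) :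
    ∃ R0 R0' : ↥E, s35as_IsGU (↥O) (R0 : LaurentSeries L) ∧
      s35as_red (↥O) (R0 : LaurentSeries L) = 1 ∧
      W R0 = s35as_pi (π := π) O E * R0' ∧
      s35as_IsGU (↥O) (R0' : LaurentSeries L) ∧
      s35as_red (↥O) (R0' : LaurentSeries L) = 1 := by
  obtain ⟨e1, e2, he1b, he2b, he1, he2, hWe1, hWe2⟩ := s35as_exists_idem O hπ q E' E hle hE W hW D
  obtain ⟨y, hyb, hy⟩ := s35as_exists_pi_mul O hπ E hE e2 he2b he2
  have hπb : gq_IsBdd O L ((s35as_pi (π := π) O E : ↥E) : LaurentSeries L) :=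
    s35as_bdd_const π
  have hπred : s35as_red (↥O) ((s35as_pi (π := π) O E : ↥E) : LaurentSeries L) = 0 := by
    rw [s35as_coe_pi, s35as_red_const]
    have : residue (↥O) π = 0 := by
      rw [residue_eq_zero_iff, hπ.maximalIdeal_eq]
      exact Ideal.mem_span_singleton_self π
    rw [this, map_zero]
  have hc1 : ((e1 ^ 2 + s35as_pi (π := π) O E * e2 : ↥E) : LaurentSeries L) =
      (e1 : LaurentSeries L) ^ 2 +
        ((s35as_pi (π := π) O E : ↥E) : LaurentSeries L) * (e2 : LaurentSeries L) := rfl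
  have hc2 : ((s35as_pi (π := π) O E * y ^ 2 + e1 : ↥E) : LaurentSeries L) =
      ((s35as_pi (π := π) O E : ↥E) : LaurentSeries L) * (y : LaurentSeries L) ^ 2 +
        (e1 : LaurentSeries L) := rfl
  have hb1 : gq_IsBdd O L ((e1 ^ 2 + s35as_pi (π := π) O E * e2 : ↥E) : LaurentSeries L) := by
    rw [hc1]
    exact s35as_bdd_add (s35as_bdd_pow he1b 2) (s35as_bdd_mul hπb he2b)
  have hr1 : s35as_red (↥O) ((e1 ^ 2 + s35as_pi (π := π) O E * e2 : ↥E) : LaurentSeries L) = 1 := by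
    rw [hc1, s35as_red_add (s35as_bdd_pow he1b 2) (s35as_bdd_mul hπb he2b), s35as_red_pow he1b,
      s35as_red_mul hπb he2b, he1, he2, mul_zero, add_zero, one_pow]
  have hb2 : gq_IsBdd O L ((s35as_pi (π := π) O E * y ^ 2 + e1 : ↥E) : LaurentSeries L) := by
    rw [hc2]
    exact s35as_bdd_add (s35as_bdd_mul hπb (s35as_bdd_pow hyb 2)) he1b
  have hr2 : s35as_red (↥O) ((s35as_pi (π := π) O E * y ^ 2 + e1 : ↥E) : LaurentSeries L) = 1 := by
    rw [hc2, s35as_red_add (s35as_bdd_mul hπb (s35as_bdd_pow hyb 2)) he1b,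
      s35as_red_mul hπb (s35as_bdd_pow hyb 2), hπred, zero_mul, zero_add, he1]
  refine ⟨e1 ^ 2 + s35as_pi (π := π) O E * e2, s35as_pi (π := π) O E * y ^ 2 + e1,
    ⟨hb1, by rw [hr1]; exact one_ne_zero⟩, hr1, ?_, ⟨hb2, by rw [hr2]; exact one_ne_zero⟩, hr2⟩
  rw [map_add, map_pow, map_mul, hWe1, hWe2, s35as_W_const q E' E hle W hW]
  conv_lhs => rw [hy]
  ring

omit [CharZero L] in
/-- reduction of an integral power of a Gauss unit. -/
theorem s35as_red_zpow {x : LaurentSeries L} (hx : s35as_IsGU (↥O) x) (k : ℤ) :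
    s35as_red (↥O) (x ^ k) = s35as_red (↥O) x ^ k := by
  cases k with
  | ofNat n => simp only [Int.ofNat_eq_natCast, zpow_natCast]; exact s35as_red_pow hx.1 n
  | negSucc n =>
    simp only [zpow_negSucc]
    rw [s35as_red_inv (hx.pow (n + 1)), s35as_red_pow hx.1]

include hπ in
set_option maxHeartbeats 800000 in
/-- **[COMP], the normalisation**: if `V₁(g) = n₁`, `V₂(g) = n₂` and `n₂ - n₁ = m t`, then
`g = π^(n₁) · R^m · G` with `G` a Gauss unit at `V₁` and `V₂` with the same normalised reductions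
as `g`. -/
theorem s35as_normalise (W : ↥E ≃+* ↥E)
    (hW : ∀ z : ↥E', ((W (IntermediateField.inclusion hle z) : ↥E) : LaurentSeries L) =
      qExpand L q (z : LaurentSeries L))
    {lam : ↥(gq_valSubOf π hπ.ne_zero hπ.maximalIdeal_eq E' (hle.trans hE))}
    (D : letI := ssm_gi_algebra hle
      letI := ssm_gi_algebraV hle (gq_valSubOf π hπ.ne_zero hπ.maximalIdeal_eq E' (hle.trans hE))
      ssm_tw_Data ↥E' ↥(gq_valSubOf π hπ.ne_zero hπ.maximalIdeal_eq E' (hle.trans hE)) q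
        (gq_valSubOf π hπ.ne_zero hπ.maximalIdeal_eq E hE) W lam)
    (m : ℕ) (g : ↥E) (n1 n2 t : ℤ)
    (h1 : s35as_IsGU (↥O) ((g * s35as_pi (π := π) O E ^ (-n1) : ↥E) : LaurentSeries L))
    (h2 : s35as_IsGU (↥O) ((W g * s35as_pi (π := π) O E ^ (-n2) : ↥E) : LaurentSeries L))
    (ht : n2 - n1 = (m : ℤ) * t) :
    ∃ (R G : ↥E), R ≠ 0 ∧ g = s35as_pi (π := π) O E ^ n1 * R ^ m * G ∧
      s35as_IsGU (↥O) (G : LaurentSeries L) ∧
      s35as_IsGU (↥O) ((W G : ↥E) : LaurentSeries L) ∧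
      s35as_red (↥O) (G : LaurentSeries L) =
        s35as_red (↥O) ((g * s35as_pi (π := π) O E ^ (-n1) : ↥E) : LaurentSeries L) ∧
      s35as_red (↥O) ((W G : ↥E) : LaurentSeries L) =
        s35as_red (↥O) ((W g * s35as_pi (π := π) O E ^ (-n2) : ↥E) : LaurentSeries L) := by
  obtain ⟨R0, R0', hR0, hR0r, hWR0, hR0', hR0'r⟩ := s35as_exists_R0 O hπ q E' E hle hE W hW D
  have hP0 : s35as_pi (π := π) O E ≠ 0 := s35as_pi_ne_zero O hπ E
  have hR00 : R0 ≠ 0 := fun h0 => hR0.ne_zero (by rw [h0]; rfl)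
  have hR0'0 : R0' ≠ 0 := fun h0 => hR0'.ne_zero (by rw [h0]; rfl)
  have hcz : ∀ (x : ↥E) (k : ℤ), ((x ^ k : ↥E) : LaurentSeries L) = (x : LaurentSeries L) ^ k :=
    fun x k => map_zpow₀ (algebraMap ↥E (LaurentSeries L)) x k
  set k : ℤ := -((m : ℤ) * t) with hk
  refine ⟨R0 ^ t, g * s35as_pi (π := π) O E ^ (-n1) * R0 ^ k, zpow_ne_zero t hR00, ?_, ?_, ?_, ?_, ?_⟩
  · have e1 : (R0 ^ t) ^ m = R0 ^ ((m : ℤ) * t) := by
      rw [← zpow_natCast, ← zpow_mul, mul_comm]
    rw [e1, hk, zpow_neg, zpow_neg]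
    have hA : s35as_pi (π := π) O E ^ n1 ≠ 0 := zpow_ne_zero n1 hP0
    have hB : R0 ^ ((m : ℤ) * t) ≠ 0 := zpow_ne_zero _ hR00
    field_simp
  · have e : ((g * s35as_pi (π := π) O E ^ (-n1) * R0 ^ k : ↥E) : LaurentSeries L) =
        ((g * s35as_pi (π := π) O E ^ (-n1) : ↥E) : LaurentSeries L) *
          (R0 : LaurentSeries L) ^ k := by
      rw [← hcz]; rfl
    rw [e]
    exact h1.mul (hR0.zpow k)
  · have e0 : W (g * s35as_pi (π := π) O E ^ (-n1) * R0 ^ k) =
        (W g * s35as_pi (π := π) O E ^ (-n2)) * R0' ^ k := by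
      rw [map_mul, map_mul, map_zpow₀, map_zpow₀, hWR0, s35as_W_const q E' E hle W hW,
        mul_zpow]
      have hn2 : -n2 = -n1 + k := by rw [hk]; linarith
      rw [hn2, zpow_add₀ hP0]
      ring
    have e : ((W (g * s35as_pi (π := π) O E ^ (-n1) * R0 ^ k) : ↥E) : LaurentSeries L) =
        ((W g * s35as_pi (π := π) O E ^ (-n2) : ↥E) : LaurentSeries L) *
          (R0' : LaurentSeries L) ^ k := by
      rw [e0, ← hcz]; rfl
    rw [e]
    exact h2.mul (hR0'.zpow k)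
  · have e : ((g * s35as_pi (π := π) O E ^ (-n1) * R0 ^ k : ↥E) : LaurentSeries L) =
        ((g * s35as_pi (π := π) O E ^ (-n1) : ↥E) : LaurentSeries L) *
          (R0 : LaurentSeries L) ^ k := by
      rw [← hcz]; rfl
    rw [e, s35as_red_mul h1.1 (hR0.zpow k).1, s35as_red_zpow O hR0, hR0r, one_zpow, mul_one]
  · have e0 : W (g * s35as_pi (π := π) O E ^ (-n1) * R0 ^ k) =
        (W g * s35as_pi (π := π) O E ^ (-n2)) * R0' ^ k := by
      rw [map_mul, map_mul, map_zpow₀, map_zpow₀, hWR0, s35as_W_const q E' E hle W hW,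
        mul_zpow]
      have hn2 : -n2 = -n1 + k := by rw [hk]; linarith
      rw [hn2, zpow_add₀ hP0]
      ring
    have e : ((W (g * s35as_pi (π := π) O E ^ (-n1) * R0 ^ k) : ↥E) : LaurentSeries L) =
        ((W g * s35as_pi (π := π) O E ^ (-n2) : ↥E) : LaurentSeries L) *
          (R0' : LaurentSeries L) ^ k := by
      rw [e0, ← hcz]; rfl
    rw [e, s35as_red_mul h2.1 (hR0'.zpow k).1, s35as_red_zpow O hR0', hR0'r, one_zpow, mul_one]

end Normalise

end Fermat.Agent.S35
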