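/-
Project S35 / TW [F] (Z7) steps [d] COMP + [e] LIFT, LEGENDRE TOWER (helper4).  Prefix `s35as_`.

* `s35as_leg_normalise` : instance of `s35as_normalise` for `lg_E L N' ≤ lg_E L (N' q)`;
* `s35as_leg_comp_lift` : **[d] + [e]**: if `V₁(g) = n₁`, `V₂(g) = n₂`, `m ∣ n₂ - n₁` and the two
  normalised reductions of `g` are constants times `m`-th powers in the reduction field of
  `lg_E L N'`, then `g = c · R^m · g'` with `c ∈ Lˣ` and `s35_ConstRed O hπ N' q hq2 hqN' g'`.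
-/
import Mathlib
import Fermat.Agent.S35.AbelAsm.Normalise
import Fermat.Agent.S35.AbelAsm.LiftLeg

set_option autoImplicit false
set_option linter.unusedSectionVars false
set_option linter.unusedVariables false
set_option linter.style.haveILetI false

noncomputable section

namespace Fermat.Agent.S35

open ModularCurve IsLocalRing IntermediateField AlgebraicCurve Polynomial
open Fermat.Agent.JT3 Fermat.Agent.SS Fermat.Agent.S28 Fermat.Agent.S24

section Legendre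

variable {L : Type*} [Field L] [CharZero L] [Algebra L (AlgebraicClosure ℚ)]
  (O : ValuationSubring L) [IsDiscreteValuationRing O] {π : O} (hπ : Irreducible π)
  (N' q : ℕ) [NeZero N'] [NeZero q] [hq : Fact q.Prime] [CharP (ResidueField O) q]
  (hq2 : ¬ 2 ∣ q) (hqN' : ¬ q ∣ N')

include hπ in
set_option maxHeartbeats 1600000 in
set_option synthInstance.maxHeartbeats 200000 in
/-- **[COMP] normalisation, Legendre tower**. -/
theorem s35as_leg_normalise (m : ℕ) (g : ↥(lg_E L (N' * q))) (n1 n2 t : ℤ)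
    (h1 : s35as_IsGU (↥O)
      ((g * s35as_pi (π := π) O (lg_E L (N' * q)) ^ (-n1) : ↥(lg_E L (N' * q))) :
        LaurentSeries L))
    (h2 : s35as_IsGU (↥O)
      ((ssm_gl_W L N' q hq2 hqN' g * s35as_pi (π := π) O (lg_E L (N' * q)) ^ (-n2) :
        ↥(lg_E L (N' * q))) : LaurentSeries L))
    (ht : n2 - n1 = (m : ℤ) * t) :
    ∃ (R G : ↥(lg_E L (N' * q))), R ≠ 0 ∧
      g = s35as_pi (π := π) O (lg_E L (N' * q)) ^ n1 * R ^ m * G ∧
      s35as_IsGU (↥O) (G : LaurentSeries L) ∧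
      s35as_IsGU (↥O) ((ssm_gl_W L N' q hq2 hqN' G : ↥(lg_E L (N' * q))) : LaurentSeries L) ∧
      s35as_red (↥O) (G : LaurentSeries L) =
        s35as_red (↥O)
          ((g * s35as_pi (π := π) O (lg_E L (N' * q)) ^ (-n1) : ↥(lg_E L (N' * q))) :
            LaurentSeries L) ∧
      s35as_red (↥O) ((ssm_gl_W L N' q hq2 hqN' G : ↥(lg_E L (N' * q))) : LaurentSeries L) =
        s35as_red (↥O)
          ((ssm_gl_W L N' q hq2 hqN' g * s35as_pi (π := π) O (lg_E L (N' * q)) ^ (-n2) :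
            ↥(lg_E L (N' * q))) : LaurentSeries L) :=
  s35as_normalise O hπ q (lg_E L N') (lg_E L (N' * q)) (ssm_al_E_le L N' q)
    (ssm_ga_E_le_quotField O (N' * q)) (ssm_gl_W L N' q hq2 hqN')
    (fun z => ssm_al_coe_WE_of_mem L N' q hq.out hq2 hqN' z.2 _)
    (ssm_gl_data O hπ N' q hq2 hqN') m g n1 n2 t h1 h2 ht

set_option maxHeartbeats 1600000 in
set_option synthInstance.maxHeartbeats 200000 in
/-- **[COMP] + [LIFT], Legendre tower**: `g = c · R^m · g'` with `g'` of constant reductions. -/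
theorem s35as_leg_comp_lift (m : ℕ) (hm : m ≠ 0) (g : ↥(lg_E L (N' * q))) (n1 n2 t : ℤ)
    (h1 : s35as_IsGU (↥O)
      ((g * s35as_pi (π := π) O (lg_E L (N' * q)) ^ (-n1) : ↥(lg_E L (N' * q))) :
        LaurentSeries L))
    (h2 : s35as_IsGU (↥O)
      ((ssm_gl_W L N' q hq2 hqN' g * s35as_pi (π := π) O (lg_E L (N' * q)) ^ (-n2) :
        ↥(lg_E L (N' * q))) : LaurentSeries L))
    (ht : n2 - n1 = (m : ℤ) * t)
    (hred : ∃ (k1 k2 : ResidueField O) (ρ1 ρ2 : LaurentSeries (ResidueField O)),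
        ρ1 ∈ s35as_range O (lg_E L N') ∧ ρ2 ∈ s35as_range O (lg_E L N') ∧ k1 ≠ 0 ∧ k2 ≠ 0 ∧
        s35as_red (↥O)
          ((g * s35as_pi (π := π) O (lg_E L (N' * q)) ^ (-n1) : ↥(lg_E L (N' * q))) :
            LaurentSeries L) =
          algebraMap (ResidueField O) (LaurentSeries (ResidueField O)) k1 * ρ1 ^ m ∧
        s35as_red (↥O)
          ((ssm_gl_W L N' q hq2 hqN' g * s35as_pi (π := π) O (lg_E L (N' * q)) ^ (-n2) :
            ↥(lg_E L (N' * q))) : LaurentSeries L) =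
          algebraMap (ResidueField O) (LaurentSeries (ResidueField O)) k2 * ρ2 ^ m) :
    ∃ (c : L) (R g' : ↥(lg_E L (N' * q))), c ≠ 0 ∧ R ≠ 0 ∧ g' ≠ 0 ∧
      g = algebraMap L ↥(lg_E L (N' * q)) c * R ^ m * g' ∧
      s35_ConstRed O hπ N' q hq2 hqN' g' := by
  obtain ⟨R1, G, hR1, hg, hG1, hG2, hr1, hr2⟩ :=
    s35as_leg_normalise O hπ N' q hq2 hqN' m g n1 n2 t h1 h2 ht
  obtain ⟨k1, k2, ρ1, ρ2, hρ1, hρ2, hk1, hk2, hu1, hu2⟩ := hred
  obtain ⟨R2, g', hR2, hg', hGg, hconst⟩ :=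
    s35as_leg_lift O hπ N' q hq2 hqN' m 1 hm G hG1 hG2
      ⟨k1, k2, ρ1, ρ2, hρ1, hρ2, hk1, hk2, by rw [pow_one, hr1, hu1], by rw [pow_one, hr2, hu2]⟩
  rw [pow_one] at hGg
  have hπ0 : ((π : ↥O) : L) ≠ 0 := fun h => hπ.ne_zero (Subtype.ext h)
  refine ⟨((π : ↥O) : L) ^ n1, R1 * R2, g', zpow_ne_zero n1 hπ0, mul_ne_zero hR1 hR2, hg', ?_,
    hconst⟩
  rw [hg, hGg, map_zpow₀, mul_pow]
  ring

end Legendre

end Fermat.Agent.S35
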