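/-
Project S35 / TW [F] (Z7), glue between step [c] ROOT DESCENT and steps [d]+[e] (helper4).
Prefix `s35as_`.

* `s35as_range_eq_kappa` : the set `s35as_range O E'` (S35/AbelAsm/Core.lean) IS the carrier of
  helper13's residue function field `s35kp_kappa O hπ E' hE'` (S35/Kappa/Defs.lean);
* `s35as_exists_isGU_neg` : for `x ≠ 0` there is `n : ℤ` with `x · π^(-n)` a Gauss unit;
* `s35as_leg_comp_lift_kappa` : `s35as_leg_comp_lift` with the valuations `n₁, n₂` quantified
  away and the reductions given as constants times `m`-th powers of elements of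
  `κ'(L) = s35kp_kappa O hπ (lg_E L N') _` (the output shape of `s35bs_descend_one`).
-/
import Mathlib
import Fermat.Agent.S35.AbelAsm.NormaliseLeg
import Fermat.Agent.S35.Kappa.Defs

set_option autoImplicit false
set_option linter.unusedSectionVars false
set_option linter.unusedVariables false
set_option linter.style.haveILetI false

noncomputable section

namespace Fermat.Agent.S35

open ModularCurve IsLocalRing IntermediateField AlgebraicCurve Polynomial
open Fermat.Agent.JT3 Fermat.Agent.SS Fermat.Agent.S28 Fermat.Agent.S24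

section Generic

variable {L : Type*} [Field L] (O : ValuationSubring L) [IsDiscreteValuationRing O] {π : O}
  (hπ : Irreducible π)
  (E' : IntermediateField L (LaurentSeries L)) (hE' : E' ≤ gq_quotField O L)

/-- `s35as_range O E'` is the carrier of the residue function field `κ'`. -/
theorem s35as_range_eq_kappa :
    s35as_range O E' = (s35kp_kappa O hπ E' hE' : Set (LaurentSeries (ResidueField O))) := by
  ext w
  constructor
  · rintro ⟨a, ha, rfl⟩
    refine ⟨⟨a, ha⟩, ?_⟩
    rw [s35kp_redHom_apply, s35as_red_eq ha]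
  · rintro ⟨z, rfl⟩
    have hz : gq_IsBdd (↥O) L (((z : ↥E') : ↥E') : LaurentSeries L) := z.2
    refine ⟨(z : ↥E'), hz, ?_⟩
    rw [s35kp_redHom_apply, s35as_red_eq hz]

theorem s35as_mem_range_of_mem_kappa {w : LaurentSeries (ResidueField O)}
    (hw : w ∈ s35kp_kappa O hπ E' hE') : w ∈ s35as_range O E' := by
  rw [s35as_range_eq_kappa O hπ E' hE']
  exact hw

include hπ hE' in
/-- for `x ≠ 0` there is `n : ℤ` with `x · π^(-n)` a Gauss unit. -/
theorem s35as_exists_isGU_neg (x : ↥E') (hx : x ≠ 0) :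
    ∃ n : ℤ, s35as_IsGU (↥O) ((x * s35as_pi (π := π) O E' ^ (-n) : ↥E') : LaurentSeries L) := by
  obtain ⟨k, hk⟩ := s35as_exists_zpow_isGU O hπ E' hE' x hx
  exact ⟨-k, by rwa [neg_neg]⟩

end Generic

section Legendre

variable {L : Type*} [Field L] [CharZero L] [Algebra L (AlgebraicClosure ℚ)]
  (O : ValuationSubring L) [IsDiscreteValuationRing O] {π : O} (hπ : Irreducible π)
  (N' q : ℕ) [NeZero N'] [NeZero q] [hq : Fact q.Prime] [CharP (ResidueField O) q]
  (hq2 : ¬ 2 ∣ q) (hqN' : ¬ q ∣ N')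

set_option maxHeartbeats 1600000 in
set_option synthInstance.maxHeartbeats 200000 in
/-- **[COMP] + [LIFT], Legendre tower, `κ'`-form with the valuations quantified away.**
`hcomp` is the component-group congruence `m ∣ V₂(g) − V₁(g)`; `hred1`, `hred2` say that the two
normalised reductions of `g` are constants times `m`-th powers in the residue function field
`κ'` of `lg_E L N'`. -/
theorem s35as_leg_comp_lift_kappa (m : ℕ) (hm : m ≠ 0) (g : ↥(lg_E L (N' * q))) (hg : g ≠ 0)
    (hcomp : ∀ n1 n2 : ℤ,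
      s35as_IsGU (↥O)
        ((g * s35as_pi (π := π) O (lg_E L (N' * q)) ^ (-n1) : ↥(lg_E L (N' * q))) :
          LaurentSeries L) →
      s35as_IsGU (↥O)
        ((ssm_gl_W L N' q hq2 hqN' g * s35as_pi (π := π) O (lg_E L (N' * q)) ^ (-n2) :
          ↥(lg_E L (N' * q))) : LaurentSeries L) →
      (m : ℤ) ∣ n2 - n1)
    (hred1 : ∀ n1 : ℤ,
      s35as_IsGU (↥O)
        ((g * s35as_pi (π := π) O (lg_E L (N' * q)) ^ (-n1) : ↥(lg_E L (N' * q))) :
          LaurentSeries L) →
      ∃ (k1 : ResidueField O) (ρ1 : LaurentSeries (ResidueField O)), k1 ≠ 0 ∧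
        ρ1 ∈ s35kp_kappa O hπ (lg_E L N') (ssm_ga_E_le_quotField O N') ∧
        s35as_red (↥O)
          ((g * s35as_pi (π := π) O (lg_E L (N' * q)) ^ (-n1) : ↥(lg_E L (N' * q))) :
            LaurentSeries L) =
          algebraMap (ResidueField O) (LaurentSeries (ResidueField O)) k1 * ρ1 ^ m)
    (hred2 : ∀ n2 : ℤ,
      s35as_IsGU (↥O)
        ((ssm_gl_W L N' q hq2 hqN' g * s35as_pi (π := π) O (lg_E L (N' * q)) ^ (-n2) :
          ↥(lg_E L (N' * q))) : LaurentSeries L) →
      ∃ (k2 : ResidueField O) (ρ2 : LaurentSeries (ResidueField O)), k2 ≠ 0 ∧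
        ρ2 ∈ s35kp_kappa O hπ (lg_E L N') (ssm_ga_E_le_quotField O N') ∧
        s35as_red (↥O)
          ((ssm_gl_W L N' q hq2 hqN' g * s35as_pi (π := π) O (lg_E L (N' * q)) ^ (-n2) :
            ↥(lg_E L (N' * q))) : LaurentSeries L) =
          algebraMap (ResidueField O) (LaurentSeries (ResidueField O)) k2 * ρ2 ^ m) :
    ∃ (c : L) (R g' : ↥(lg_E L (N' * q))), c ≠ 0 ∧ R ≠ 0 ∧ g' ≠ 0 ∧
      g = algebraMap L ↥(lg_E L (N' * q)) c * R ^ m * g' ∧
      s35_ConstRed O hπ N' q hq2 hqN' g' := by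
  have hWg : ssm_gl_W L N' q hq2 hqN' g ≠ 0 := by
    intro h
    exact hg ((map_eq_zero_iff _ (ssm_gl_W L N' q hq2 hqN').injective).1 h)
  obtain ⟨n1, h1⟩ := s35as_exists_isGU_neg O hπ (lg_E L (N' * q))
    (ssm_ga_E_le_quotField O (N' * q)) g hg
  obtain ⟨n2, h2⟩ := s35as_exists_isGU_neg O hπ (lg_E L (N' * q))
    (ssm_ga_E_le_quotField O (N' * q)) (ssm_gl_W L N' q hq2 hqN' g) hWg
  obtain ⟨t, ht⟩ := hcomp n1 n2 h1 h2
  obtain ⟨k1, ρ1, hk1, hρ1, hu1⟩ := hred1 n1 h1
  obtain ⟨k2, ρ2, hk2, hρ2, hu2⟩ := hred2 n2 h2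
  exact s35as_leg_comp_lift O hπ N' q hq2 hqN' m hm g n1 n2 t h1 h2 ht
    ⟨k1, k2, ρ1, ρ2,
      s35as_mem_range_of_mem_kappa O hπ (lg_E L N') (ssm_ga_E_le_quotField O N') hρ1,
      s35as_mem_range_of_mem_kappa O hπ (lg_E L N') (ssm_ga_E_le_quotField O N') hρ2,
      hk1, hk2, hu1, hu2⟩

end Legendre

end Fermat.Agent.S35
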