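/-
Project S35 / TW [F] (Z7) step [c] ROOT DESCENT AT THE F-LEVEL (helper4; statement by helper20).
Prefix `s35as_`.

`O ⊆ L` a discrete valuation ring with residue field `k₁` of characteristic `q ∤ N'`,
`V_F = s44mz_VF O hπ N' q` the Gauss valuation ring of `lg_F L (N' q)`, `j : k₁ → kb`.

`s35as_root_desc_F` : if `x ∈ V_Fˣ` and the Gauss reduction of `x`, base-changed to `kb`, is an
`m`-th power `h ^ m` with `h ∈ lg_F kb N'` (`m` invertible in `kb`), then the reduction of
`φ x = lg_phiE x ∈ lg_E L (N' q)` is `k₁' · ρ₁ ^ m` with `k₁' ∈ k₁ˣ` and `ρ₁` in the residue function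
field `κ' = s35kp_kappa O hπ (lg_E L N') _` of the lower level.

Proof: `u := red x ∈ lg_F k₁ N'` (`s44nlr_resF`), root descent `s35bs_descend_one` along `j`
(`lg_F kb N'` is generated by the base changes of the generators `j(X^d)` of `lg_F k₁ N'`), then
`red (φ x) = (red x)(X²)` (`ssm_ga_res_beta`) and `w ↦ w(X²)` maps `lg_F k₁ N'` into `κ'`.
-/
import Mathlib
import Fermat.Agent.S44.Mono.NodeLegRed
import Fermat.Agent.S35.AbelAsm.NormaliseKappa
import Fermat.Agent.S35.AbelSS.Main

set_option autoImplicit false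
set_option linter.unusedSectionVars false
set_option linter.unusedVariables false
set_option linter.style.haveILetI false

noncomputable section

namespace Fermat.Agent.S35

open ModularCurve IsLocalRing IntermediateField AlgebraicCurve Polynomial
open Fermat.Agent.JT3 Fermat.Agent.SS Fermat.Agent.S28 Fermat.Agent.S24 Fermat.Agent.S44

section BaseChange

variable {k1 kb : Type*} [Field k1] [Field kb] (j : k1 →+* kb) (N' : ℕ) [NeZero N']

/-- `lg_F kb N'` is generated over `kb` by the base change of `lg_F k1 N'`. -/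
theorem s35as_lgF_le_adjoin_map :
    lg_F kb N' ≤ IntermediateField.adjoin kb
      (coeffMap j '' ((lg_F k1 N' : IntermediateField k1 (LaurentSeries k1)) :
        Set (LaurentSeries k1))) := by
  show IntermediateField.adjoin kb (divisorExpansionsC kb N') ≤ _
  rw [IntermediateField.adjoin_le_iff]
  rintro _ ⟨d, hd0, hd, rfl⟩
  apply IntermediateField.subset_adjoin
  refine ⟨qExpand k1 d (jqModC k1), ?_, ?_⟩
  · haveI := hd0
    exact jqModCd_mem_full k1 N' hd
  · haveI := hd0
    rw [coeffMap_qExpand, coeffMap_jqModC]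

end BaseChange

section Kappa

variable {L : Type*} [Field L] [CharZero L] (O : ValuationSubring L) [IsDiscreteValuationRing O]
  {π : O} (hπ : Irreducible π) (N' : ℕ) [NeZero N']

/-- `w ↦ w(X²)` maps `lg_F k₁ N'` into the residue function field `κ'` of `lg_E L N'`. -/
theorem s35as_qExpand_two_mem_kappa {w : LaurentSeries (ResidueField O)}
    (hw : w ∈ lg_F (ResidueField O) N') :
    qExpand (ResidueField O) 2 w ∈
      s35kp_kappa O hπ (lg_E L N') (ssm_ga_E_le_quotField O N') := by
  have hle : lg_F (ResidueField O) N' ≤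
      (s35kp_kappa O hπ (lg_E L N') (ssm_ga_E_le_quotField O N')).comap
        (qExpandAlgHomC (ResidueField O) 2) := by
    show IntermediateField.adjoin (ResidueField O) (divisorExpansionsC (ResidueField O) N') ≤ _
    rw [IntermediateField.adjoin_le_iff]
    rintro _ ⟨d, hd0, hd, rfl⟩
    haveI := hd0
    show qExpand (ResidueField O) 2 (qExpand (ResidueField O) d (jqModC (ResidueField O))) ∈
      s35kp_kappa O hπ (lg_E L N') (ssm_ga_E_le_quotField O N')
    -- the lift
    have hmem : lg_phi L (qExpand L d (jqModC L)) ∈ lg_E L N' :=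
      lg_phi_mem_E L N' (jqModCd_mem_full L N' hd)
    have hz : lg_phi L (qExpand L d (jqModC L)) =
        coeffMap (algebraMap ↥O L) (qExpand ↥O 2 (qExpand ↥O d (jqModC ↥O))) := by
      rw [lg_phi_apply, coeffMap_qExpand, coeffMap_qExpand, coeffMap_jqModC]
    have hb : gq_IsBdd ↥O L (lg_phi L (qExpand L d (jqModC L))) := by
      rw [hz]; exact gq_isBdd_iota _
    have h1 := s35kp_mem_kappa_of_bdd O hπ (lg_E L N') (ssm_ga_E_le_quotField O N') hmem hb
    have h2 : gq_res ↥O L ⟨lg_phi L (qExpand L d (jqModC L)), hb⟩ =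
        qExpand (ResidueField O) 2 (qExpand (ResidueField O) d (jqModC (ResidueField O))) := by
      have e : (⟨lg_phi L (qExpand L d (jqModC L)), hb⟩ : ↥(gq_bddSubring ↥O L)) =
          ⟨coeffMap (algebraMap ↥O L) (qExpand ↥O 2 (qExpand ↥O d (jqModC ↥O))),
            gq_isBdd_iota _⟩ := Subtype.ext hz
      rw [e, gq_res_iota, coeffMap_qExpand, coeffMap_qExpand, coeffMap_jqModC]
    rw [← h2]
    exact h1
  exact hle hw

end Kappa

section Main

local notation "Qb" => AlgebraicClosure ℚ

set_option synthInstance.maxHeartbeats 200000 in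
set_option maxHeartbeats 1600000 in
/-- **[c] ROOT DESCENT at the F-level.** -/
theorem s35as_root_desc_F {L : Type*} [Field L] [CharZero L] [Algebra L Qb]
    (O : ValuationSubring L) [IsDiscreteValuationRing O] {π : O} (hπ : Irreducible π)
    (N' q : ℕ) [NeZero N'] [NeZero q] [Fact q.Prime] [CharP (ResidueField O) q]
    (hqN' : ¬ q ∣ N') {kb : Type*} [Field kb] (j : ResidueField O →+* kb) {m : ℕ}
    (hm : (m : kb) ≠ 0) (x : ↥(s44mz_VF O hπ N' q)) (hx : IsUnit x)
    {h : LaurentSeries kb} (hh : h ∈ lg_F kb N')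
    (hpow : coeffMap j
        (gq_res ↥O L ⟨((x : ↥(lg_F L (N' * q))) : LaurentSeries L), x.2⟩) = h ^ m) :
    ∃ (k1 : ResidueField O) (ρ1 : LaurentSeries (ResidueField O)), k1 ≠ 0 ∧
      ρ1 ∈ s35kp_kappa O hπ (lg_E L N') (ssm_ga_E_le_quotField O N') ∧
      s35as_red ↥O
        ((lg_phiE (L := L) (N := N' * q) (x : ↥(lg_F L (N' * q))) : ↥(lg_E L (N' * q))) :
          LaurentSeries L) =
        algebraMap (ResidueField O) (LaurentSeries (ResidueField O)) k1 * ρ1 ^ m := by
  have hm0 : m ≠ 0 := by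
    rintro rfl
    exact hm Nat.cast_zero
  -- the reduction `u` of `x`
  set u : LaurentSeries (ResidueField O) :=
    gq_res ↥O L ⟨((x : ↥(lg_F L (N' * q))) : LaurentSeries L), x.2⟩ with hu
  have huF : u ∈ lg_F (ResidueField O) N' := (s44nlr_resF O hπ N' q hqN' x).2
  have hu0 : u ≠ 0 := by
    have h1 : IsUnit (s44nlr_resF O hπ N' q hqN' x) := hx.map _
    intro h0
    apply h1.ne_zero
    apply Subtype.ext
    rw [s44nlr_resF_coe]
    exact h0
  have hh0 : h ≠ 0 := by
    rintro rfl
    rw [zero_pow hm0] at hpow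
    exact hu0 ((map_eq_zero_iff _ (coeffMap j).injective).1 hpow)
  -- root descent
  obtain ⟨a1, w1, ha1, hw1, hw10, huw⟩ :=
    s35bs_descend_one j (lg_F (ResidueField O) N') (lg_F kb N')
      (s35as_lgF_le_adjoin_map j N') hm hu0 (E := 1) (a := 1) hh one_ne_zero hh0
      (by rw [pow_one, map_one, one_mul]; exact hpow)
  rw [pow_one] at huw
  -- the reduction of `φ x`
  have hbx : gq_IsBdd ↥O L ((x : ↥(lg_F L (N' * q))) : LaurentSeries L) := x.2
  have hcoe : ((lg_phiE (L := L) (N := N' * q) (x : ↥(lg_F L (N' * q))) : ↥(lg_E L (N' * q))) :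
      LaurentSeries L) = qExpand L 2 ((x : ↥(lg_F L (N' * q))) : LaurentSeries L) := rfl
  have hb2 : gq_IsBdd ↥O L (qExpand L 2 ((x : ↥(lg_F L (N' * q))) : LaurentSeries L)) :=
    ssm_ga_beta_isBdd 2 hbx
  refine ⟨a1, qExpand (ResidueField O) 2 w1, ha1,
    s35as_qExpand_two_mem_kappa O hπ N' hw1, ?_⟩
  rw [hcoe, s35as_red_eq hb2]
  have h3 := ssm_ga_res_beta (O := ↥O) (K := L) 2
    ⟨((x : ↥(lg_F L (N' * q))) : LaurentSeries L), hbx⟩
  rw [h3, ← hu, huw]
  have e1 : qExpand (ResidueField O) 2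
      (algebraMap (ResidueField O) (LaurentSeries (ResidueField O)) a1 * w1 ^ m) =
      qExpandAlgHomC (ResidueField O) 2
        (algebraMap (ResidueField O) (LaurentSeries (ResidueField O)) a1 * w1 ^ m) := rfl
  rw [e1, map_mul, map_pow, AlgHom.commutes]
  rfl

end Main

end Fermat.Agent.S35
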