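/-
Project S35 / TW [F] (Z7) step [d] COMP, dictionary (helper4).  Prefix `s35as_`.

Generic tower `E' ≤ E ≤ Quot(O((X)))`, `V` the Gauss valuation ring of `E`, `W` an automorphism of
`E` inducing `X ↦ X^q` on `E'`.  `s35as_comp_data` translates the `S35/AbelAsm` hypotheses

* `g π^(-n₁)` and `(W g) π^(-n₂)` are Gauss units,
* the reduction of `g π^(-n₁)` is a constant times an `m`-th power in the reduction field of `E'`

into the valuation-ring hypotheses of helper20's component-group statement `twft_leg_comp`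
(TW/Easy/Toric/NodeLeg.lean) for `G := g π^(-n₁)` and `n := n₂ - n₁`.
-/
import Mathlib
import Fermat.Agent.S35.AbelAsm.Core
import Fermat.Agent.SS.Model.TwoValW

set_option autoImplicit false
set_option linter.unusedSectionVars false
set_option linter.unusedVariables false
set_option linter.style.haveILetI false

noncomputable section

namespace Fermat.Agent.S35

open ModularCurve IsLocalRing IntermediateField
open Fermat.Agent.JT3 Fermat.Agent.SS Fermat.Agent.S28

section CompData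

variable {L : Type*} [Field L] [CharZero L] (O : ValuationSubring L)
  [IsDiscreteValuationRing O] {π : O} (hπ : Irreducible π)
variable (q : ℕ) [NeZero q] [hq : Fact q.Prime] [CharP (ResidueField O) q]
variable (E' E : IntermediateField L (LaurentSeries L)) (hle : E' ≤ E)
  (hE : E ≤ gq_quotField O L)

include hπ in
/-- a Gauss unit of `E` is a unit of the Gauss valuation ring. -/
theorem s35as_unit_of_isGU (x : ↥E) (hx : s35as_IsGU (↥O) (x : LaurentSeries L)) :
    x ∈ gq_valSubOf π hπ.ne_zero hπ.maximalIdeal_eq E hE ∧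
      x ∉ (gq_valSubOf π hπ.ne_zero hπ.maximalIdeal_eq E hE).nonunits :=
  ⟨hx.1, fun hn => hx.2 ((s35as_mem_nonunits_iff O hπ E hE x).1 hn).2⟩

include hπ in
set_option maxHeartbeats 800000 in
/-- **dictionary for [COMP]**. -/
theorem s35as_comp_data (W : ↥E ≃+* ↥E)
    (hW : ∀ z : ↥E', ((W (IntermediateField.inclusion hle z) : ↥E) : LaurentSeries L) =
      qExpand L q (z : LaurentSeries L))
    (m : ℕ) (hm : m ≠ 0) (g : ↥E) (n1 n2 : ℤ)
    (h1 : s35as_IsGU (↥O) ((g * s35as_pi (π := π) O E ^ (-n1) : ↥E) : LaurentSeries L))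
    (h2 : s35as_IsGU (↥O) ((W g * s35as_pi (π := π) O E ^ (-n2) : ↥E) : LaurentSeries L))
    (hred : ∃ (k1 : ResidueField O) (ρ1 : LaurentSeries (ResidueField O)), k1 ≠ 0 ∧
        ρ1 ∈ s35as_range O E' ∧
        s35as_red (↥O) ((g * s35as_pi (π := π) O E ^ (-n1) : ↥E) : LaurentSeries L) =
          algebraMap (ResidueField O) (LaurentSeries (ResidueField O)) k1 * ρ1 ^ m) :
    (g * s35as_pi (π := π) O E ^ (-n1) ∈ gq_valSubOf π hπ.ne_zero hπ.maximalIdeal_eq E hE ∧
      g * s35as_pi (π := π) O E ^ (-n1) ∉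
        (gq_valSubOf π hπ.ne_zero hπ.maximalIdeal_eq E hE).nonunits) ∧
    (g * s35as_pi (π := π) O E ^ (-n1) / s35as_pi (π := π) O E ^ (n2 - n1) ∈
        (gq_valSubOf π hπ.ne_zero hπ.maximalIdeal_eq E hE).comap (W : ↥E →+* ↥E) ∧
      g * s35as_pi (π := π) O E ^ (-n1) / s35as_pi (π := π) O E ^ (n2 - n1) ∉
        ((gq_valSubOf π hπ.ne_zero hπ.maximalIdeal_eq E hE).comap (W : ↥E →+* ↥E)).nonunits) ∧
    ∃ (k : ↥O) (S : ↥E), IsUnit k ∧
      (S ∈ gq_valSubOf π hπ.ne_zero hπ.maximalIdeal_eq E hE ∧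
        S ∉ (gq_valSubOf π hπ.ne_zero hπ.maximalIdeal_eq E hE).nonunits) ∧
      g * s35as_pi (π := π) O E ^ (-n1) - algebraMap L ↥E ((k : ↥O) : L) * S ^ m ∈
        (gq_valSubOf π hπ.ne_zero hπ.maximalIdeal_eq E hE).nonunits := by
  have hpi0 : s35as_pi (π := π) O E ≠ 0 := s35as_pi_ne_zero O hπ E
  have hWpi : W (s35as_pi (π := π) O E) = s35as_pi (π := π) O E :=
    s35as_W_const q E' E hle W hW _
  have hWG : W (g * s35as_pi (π := π) O E ^ (-n1) / s35as_pi (π := π) O E ^ (n2 - n1)) =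
      W g * s35as_pi (π := π) O E ^ (-n2) := by
    rw [map_div₀, map_mul, map_zpow₀, map_zpow₀, hWpi, div_eq_mul_inv, ← zpow_neg, mul_assoc,
      ← zpow_add₀ hpi0]
    congr 2
    ring
  refine ⟨s35as_unit_of_isGU O hπ E hE _ h1, ⟨?_, ?_⟩, ?_⟩
  · rw [ValuationSubring.mem_comap]
    have : (W : ↥E →+* ↥E)
        (g * s35as_pi (π := π) O E ^ (-n1) / s35as_pi (π := π) O E ^ (n2 - n1)) =
        W g * s35as_pi (π := π) O E ^ (-n2) := hWG
    rw [this]
    exact h2.1
  · intro hn
    rw [ssm_tw_nonunits_comap, hWG] at hn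
    exact h2.2 ((s35as_mem_nonunits_iff O hπ E hE _).1 hn).2
  · obtain ⟨k1, ρ1, hk1, hρ1, hu1⟩ := hred
    obtain ⟨k, rfl⟩ := residue_surjective k1
    have hk : IsUnit k := by
      by_contra hnu
      exact hk1 ((residue_eq_zero_iff k).2 ((mem_maximalIdeal k).2 hnu))
    obtain ⟨a, ha, rfl⟩ := hρ1
    have hρ0 : s35as_red (↥O) (a : LaurentSeries L) ≠ 0 := by
      intro h0
      apply h1.2
      rw [hu1, h0, zero_pow hm, mul_zero]
    refine ⟨k, IntermediateField.inclusion hle a, hk,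
      s35as_unit_of_isGU O hπ E hE _ ⟨ha, hρ0⟩, ?_⟩
    rw [s35as_mem_nonunits_iff O hπ E hE]
    have e1 : ((g * s35as_pi (π := π) O E ^ (-n1) -
          algebraMap L ↥E ((k : ↥O) : L) * (IntermediateField.inclusion hle a) ^ m : ↥E) :
          LaurentSeries L) =
        ((g * s35as_pi (π := π) O E ^ (-n1) : ↥E) : LaurentSeries L) -
          algebraMap L (LaurentSeries L) (algebraMap ↥O L k) * (a : LaurentSeries L) ^ m := rfl
    rw [e1]
    have hb : gq_IsBdd (↥O) L
        (algebraMap L (LaurentSeries L) (algebraMap ↥O L k) * (a : LaurentSeries L) ^ m) :=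
      s35as_bdd_mul (s35as_bdd_const k) (s35as_bdd_pow ha m)
    refine ⟨s35as_bdd_sub h1.1 hb, ?_⟩
    rw [s35as_red_sub h1.1 hb, s35as_red_mul (s35as_bdd_const k) (s35as_bdd_pow ha m),
      s35as_red_pow ha, s35as_red_const, hu1, sub_self]

end CompData

end Fermat.Agent.S35
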