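/-
Project S35, cell [CORE-ASM] (helper4), part 12: **(A-L) CLOSED** — `s35_AbelNF1` for the Legendre
tower.  Prefix `s35as_`.

* `s35as_abelK_of_abelProp` : helper13's `s35bf_AbelProp` (S35/AbelFam/Tower.lean) ⟹ `s35as_AbelK`
  (S35/AbelAsm/Level.lean) — the two shapes differ only in the way the factor hypothesis is spelled;
* `s35as_famLeg`    : `s35as_FamLeg N' q` from helper13's `s35bf_leg`;
* `s35as_abelNF1_leg_closed : s35_AbelNF1 N' q hq2 hqN'` — the closed term (A-L) of the S35 board.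
-/
import Mathlib
import Fermat.Agent.S35.AbelAsm.NF
import Fermat.Agent.S35.AbelFam.Leg

set_option autoImplicit false
set_option linter.unusedSectionVars false
set_option linter.unusedVariables false
set_option linter.style.haveILetI false

noncomputable section

namespace Fermat.Agent.S35

open ModularCurve IsLocalRing IntermediateField AlgebraicCurve Polynomial
open Fermat.Agent.JT3 Fermat.Agent.SS Fermat.Agent.S28 Fermat.Agent.S24

local notation "GQ" => (AlgebraicClosure ℚ ≃ₐ[ℚ] AlgebraicClosure ℚ)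
local notation "Qb" => AlgebraicClosure ℚ

section Adapter

variable {L : Type*} [Field L] [CharZero L] (O : ValuationSubring L)
  [IsDiscreteValuationRing O] {π : O} (hπ : Irreducible π)
variable (q : ℕ) [NeZero q] [hq : Fact q.Prime] [CharP (ResidueField O) q]
variable (E' E : IntermediateField L (LaurentSeries L)) (hle : E' ≤ E)
  (hE : E ≤ gq_quotField O L)

set_option synthInstance.maxHeartbeats 200000 in
set_option maxHeartbeats 800000 in
/-- helper13's `s35bf_AbelProp` gives `s35as_AbelK`. -/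
theorem s35as_abelK_of_abelProp (m E0 : ℕ)
    (hP : s35bf_AbelProp q (s35kp_kappa O hπ E' (hle.trans hE)) E0 m) :
    s35as_AbelK O hπ q E' E hle hE m E0 := by
  intro u₁ u₂ h h' hu₁ hu₂ hh hh' c c' h10 h20 hf1 hf2 hR1 hR2
  refine hP u₁ u₂ h h' hu₁ hu₂ c c' hh hh' h10 h20 ?_ ?_ hR1 hR2
  · intro 𝒪 hk halg
    obtain ⟨ω, e, hue, hω, hωi⟩ := hf1 𝒪 hk halg
    exact ⟨ω, e, Subtype.ext (by push_cast; exact hue), hω, hωi⟩
  · intro 𝒪 hk halg
    obtain ⟨ω, e, hue, hω, hωi⟩ := hf2 𝒪 hk halg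
    exact ⟨ω, e, Subtype.ext (by push_cast; exact hue), hω, hωi⟩

end Adapter

section Closed

variable (N' q : ℕ) [NeZero N'] [NeZero q] [hq : Fact q.Prime] (hq2 : ¬ 2 ∣ q) (hqN' : ¬ q ∣ N')

include hq2 in
set_option synthInstance.maxHeartbeats 200000 in
set_option maxHeartbeats 800000 in
/-- **[ABEL-FAM], Legendre**, in the vocabulary of `S35/AbelAsm/NF.lean`. -/
theorem s35as_famLeg : s35as_FamLeg N' q := by
  intro A hAq φ hφ
  obtain ⟨E, hE1, T, hT, h⟩ := s35bf_leg N' q hq2 A hAq φ hφ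
  refine ⟨E, hE1, T, hT, fun L1 hfd hsub hfix _ _ hπ φ1 hφ1 m hqm => ?_⟩
  exact s35as_abelK_of_abelProp (A.comap (algebraMap ↥L1 Qb)) hπ q (lg_E ↥L1 N')
    (lg_E ↥L1 (N' * q)) (ssm_al_E_le ↥L1 N' q)
    (ssm_ga_E_le_quotField (A.comap (algebraMap ↥L1 Qb)) (N' * q)) m E
    (h L1 hfd hsub hfix hπ φ1 hφ1 m hqm)

/-- **(A-L): `s35_AbelNF1` for the Legendre tower** (closed term). -/
theorem s35as_abelNF1_leg_closed : s35_AbelNF1 N' q hq2 hqN' :=
  s35as_abelNF1_leg N' q hq2 hqN' (s35as_famLeg N' q hq2)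

end Closed

end Fermat.Agent.S35
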