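/-
Project S35, cell [CORE-ASM] (helper4), part 13: **(A-H) CLOSED** — `s35h_AbelNF1` for the Hesse
tower.  Prefix `s35as_`.

* `s35as_famHes`    : `s35as_FamHes N' q` from helper13's `s35bf_hes` (S35/AbelFam/Hes.lean);
* `s35as_abelNF1_hes_closed : s35h_AbelNF1 N' q hq3 hqN'` — the closed term (A-H) of the S35 board.
-/
import Mathlib
import Fermat.Agent.S35.AbelAsm.NFHes
import Fermat.Agent.S35.AbelAsm.FinalLeg
import Fermat.Agent.S35.AbelFam.Hes

set_option autoImplicit false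
set_option linter.unusedSectionVars false
set_option linter.unusedVariables false
set_option linter.style.haveILetI false

noncomputable section

namespace Fermat.Agent.S35

open ModularCurve IsLocalRing IntermediateField AlgebraicCurve Polynomial
open Fermat.Agent.JT3 Fermat.Agent.SS Fermat.Agent.S28 Fermat.Agent.S24

local notation "GQ" => (AlgebraicClosure ℚ ≃ₐ[ℚ] AlgebraicClosure ℚ)
local notation "Qb" => AlgebraicClosure ℚ

section Closed

variable (N' q : ℕ) [NeZero N'] [NeZero q] [hq : Fact q.Prime] (hq3 : ¬ 3 ∣ q) (hqN' : ¬ q ∣ N')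

include hq3 in
set_option synthInstance.maxHeartbeats 200000 in
set_option maxHeartbeats 800000 in
/-- **[ABEL-FAM], Hesse**, in the vocabulary of `S35/AbelAsm/NFHes.lean`. -/
theorem s35as_famHes : s35as_FamHes N' q := by
  intro A hAq φ hφ
  obtain ⟨E, hE1, T, hT, h⟩ := s35bf_hes N' q hq3 A hAq φ hφ
  refine ⟨E, hE1, T, hT, fun L1 hfd hsub hfix _ _ h3O hπ φ1 hφ1 m hqm => ?_⟩
  exact s35as_abelK_of_abelProp (A.comap (algebraMap ↥L1 Qb)) hπ q
    (hs_E ↥L1 (three_ne_zero : (3 : ↥L1) ≠ 0) N')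
    (hs_E ↥L1 (three_ne_zero : (3 : ↥L1) ≠ 0) (N' * q))
    (ssm_alh_E_le ↥L1 (three_ne_zero : (3 : ↥L1) ≠ 0)
      (ssm_fh_hF9 (three_ne_zero : (3 : ↥L1) ≠ 0)) N' q)
    (hsa_E_le_quotField (three_ne_zero : (3 : ↥L1) ≠ 0)
      (A.comap (algebraMap ↥L1 Qb)) (N' * q) h3O) m E
    (h L1 hfd hsub hfix h3O hπ φ1 hφ1 m hqm)

/-- **(A-H): `s35h_AbelNF1` for the Hesse tower** (closed term). -/
theorem s35as_abelNF1_hes_closed : s35h_AbelNF1 N' q hq3 hqN' :=
  s35as_abelNF1_hes N' q hq3 hqN' (s35as_famHes N' q hq3)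

end Closed

end Fermat.Agent.S35
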